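import Mathlib
import Fermat.Prelude.Def_FLTPrelim_Ramification
import Fermat.Prelude.Def_GaloisRep_Residual
import Fermat.Agent.S05.Inertia

/-!
# Finite sets of points are defined over a finite extension

`exists_finite_level_of_finite`: for a finite set `S` of `ℚ̄`-points of a Weierstrass curve over
`ℚ`, there is a finite extension `L ⊆ ℚ̄` of `ℚ` such that every automorphism of `ℚ̄` fixing `L`
pointwise fixes every point of `S`.  Consequently the Galois action on a finite torsion module
factors through a finite level (in the shape of the prelude's `GaloisFactorsThroughFiniteLevel`).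
-/

set_option autoImplicit false

namespace Fermat.Agent.S13.FiniteLevel

open WeierstrassCurve WeierstrassCurve.Affine WeierstrassCurve.Affine.Point

local notation "Qbar" => AlgebraicClosure ℚ
local notation "Γ" => (AlgebraicClosure ℚ ≃ₐ[ℚ] AlgebraicClosure ℚ)

variable {W : WeierstrassCurve ℚ}

/-- The coordinates of a point. -/
def coords : (W⁄Qbar).Point → Set Qbar
  | .zero => ∅
  | .some x y _ => {x, y}

theorem coords_finite (P : (W⁄Qbar).Point) : (coords P).Finite := by
  cases P with
  | zero => exact Set.finite_empty
  | some x y h => exact (Set.finite_singleton y).insert x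

theorem smul_eq_self_of_forall_coords (σ : Γ) (P : (W⁄Qbar).Point)
    (h : ∀ c ∈ coords P, σ c = c) : σ • P = P := by
  cases P with
  | zero => rfl
  | some x y hxy =>
    have hx : σ x = x := h x (by simp [coords])
    have hy : σ y = y := h y (by simp [coords])
    rw [Fermat.Agent.S05.Inertia.smul_some]
    simp only [hx, hy]

/-- A finite set of points is fixed pointwise by the absolute Galois group of a finite extension. -/
theorem exists_finite_level_of_finite (S : Set (W⁄Qbar).Point) (hS : S.Finite) :
    ∃ L : IntermediateField ℚ Qbar, FiniteDimensional ℚ L ∧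
      ∀ σ : Γ, (∀ x ∈ L, σ x = x) → ∀ P ∈ S, σ • P = P := by
  set C : Set Qbar := ⋃ P ∈ S, coords P with hC
  have hCfin : C.Finite := hS.biUnion fun P _ => coords_finite P
  have : Finite C := hCfin
  refine ⟨IntermediateField.adjoin ℚ C,
    IntermediateField.finiteDimensional_adjoin fun x _ =>
      (AlgebraicClosure.isAlgebraic ℚ).isIntegral.isIntegral x, ?_⟩
  intro σ hσ P hP
  refine smul_eq_self_of_forall_coords σ P fun c hc => hσ c ?_
  exact IntermediateField.subset_adjoin ℚ C (Set.mem_biUnion hP hc)

/-- If the `n`-torsion is finite, the Galois action on it factors through a finite level. -/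
theorem exists_finite_level_torsion (n : ℕ)
    [Finite (Submodule.torsionBy ℤ (W⁄Qbar).Point n)] :
    ∃ L : IntermediateField ℚ Qbar, FiniteDimensional ℚ L ∧
      ∀ σ : Γ, (∀ x ∈ L, σ x = x) →
        ∀ P : Submodule.torsionBy ℤ (W⁄Qbar).Point n, σ • P = P := by
  obtain ⟨L, hL, h⟩ := exists_finite_level_of_finite
    (Set.range (fun P : Submodule.torsionBy ℤ (W⁄Qbar).Point n => (P : (W⁄Qbar).Point)))
    (Set.finite_range _)
  refine ⟨L, hL, fun σ hσ P => Subtype.ext ?_⟩
  exact h σ hσ _ ⟨P, rfl⟩

end Fermat.Agent.S13.FiniteLevel
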