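import Mathlib

/-!
# S13 block (A') : counting `p`-torsion from the division polynomial

Input (block (A), taken as a hypothesis): for a nonsingular affine point `P = (x, y)`,
`p • P = 0 ↔ (W.preΨ' p).eval x = 0`.

Output: `E[p]` is finite of cardinality `≤ p ^ 2`, nontrivial over an algebraically closed field,
and as soon as a proper nonzero `𝔽_p`-subspace exists, it is a line in a plane.
-/

set_option autoImplicit false

namespace Fermat.Agent.S13.Count

open Polynomial

/-! ## Abstract linear algebra over `ZMod p` -/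

section LinAlg

variable {p : ℕ} [Fact p.Prime] {V : Type*} [AddCommGroup V] [Module (ZMod p) V]

/-- A finite `𝔽_p`-vector space with at most `p ^ 2` elements has dimension at most `2`. -/
theorem finrank_le_two_of_card_le [Finite V] (hcard : Nat.card V ≤ p ^ 2) :
    Module.finrank (ZMod p) V ≤ 2 := by
  have hp : 1 < p := (Fact.out : p.Prime).one_lt
  have h := Module.natCard_eq_pow_finrank (K := ZMod p) (V := V)
  rw [Nat.card_zmod] at h
  rw [h] at hcard
  exact (Nat.pow_le_pow_iff_right hp).mp hcard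

/-- A proper nonzero subspace of a space with `≤ p ^ 2` elements is a line in a plane. -/
theorem finrank_of_proper [Finite V] (hcard : Nat.card V ≤ p ^ 2)
    (N : Submodule (ZMod p) V) (h0 : N ≠ ⊥) (h1 : N ≠ ⊤) :
    Module.finrank (ZMod p) N = 1 ∧ Module.finrank (ZMod p) V = 2 := by
  have hV := finrank_le_two_of_card_le hcard
  have : Module.Finite (ZMod p) V := Module.Finite.of_finite
  have hlt : Module.finrank (ZMod p) N < Module.finrank (ZMod p) V :=
    Submodule.finrank_lt h1
  have hpos : 0 < Module.finrank (ZMod p) N := by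
    rw [Module.finrank_pos_iff]
    exact (Submodule.nontrivial_iff_ne_bot).mpr h0
  omega

theorem card_of_proper [Finite V] (hcard : Nat.card V ≤ p ^ 2)
    (N : Submodule (ZMod p) V) (h0 : N ≠ ⊥) (h1 : N ≠ ⊤) :
    Nat.card N = p ∧ Nat.card V = p ^ 2 := by
  obtain ⟨hN, hV⟩ := finrank_of_proper hcard N h0 h1
  have h1 := Module.natCard_eq_pow_finrank (K := ZMod p) (V := V)
  have h2 := Module.natCard_eq_pow_finrank (K := ZMod p) (V := N)
  rw [Nat.card_zmod] at h1 h2
  rw [h1, h2, hN, hV, pow_one]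
  exact ⟨rfl, rfl⟩

/-- Any subspace strictly containing a proper nonzero subspace is everything. -/
theorem eq_top_of_lt [Finite V] (hcard : Nat.card V ≤ p ^ 2)
    (N : Submodule (ZMod p) V) (h0 : N ≠ ⊥) (h1 : N ≠ ⊤) (M : Submodule (ZMod p) V)
    (hNM : N < M) : M = ⊤ := by
  obtain ⟨hN, hV⟩ := finrank_of_proper hcard N h0 h1
  have : Module.Finite (ZMod p) V := Module.Finite.of_finite
  have hlt : Module.finrank (ZMod p) N < Module.finrank (ZMod p) M :=
    Submodule.finrank_lt_finrank_of_lt hNM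
  have hle : Module.finrank (ZMod p) M ≤ Module.finrank (ZMod p) V := Submodule.finrank_le M
  apply Submodule.eq_top_of_finrank_eq
  omega

/-- Any nonzero subspace strictly contained in a proper subspace... : a nonzero subspace of a
proper nonzero subspace `N` is `N`. -/
theorem eq_of_le_of_ne_bot [Finite V] (hcard : Nat.card V ≤ p ^ 2)
    (N : Submodule (ZMod p) V) (h1 : N ≠ ⊤) (M : Submodule (ZMod p) V)
    (hM0 : M ≠ ⊥) (hMN : M ≤ N) : M = N := by
  rcases eq_or_lt_of_le hMN with h | h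
  · exact h
  · have hM1 : M ≠ ⊤ := fun ht => by
      rw [ht] at h
      exact absurd h (not_lt_of_ge le_top)
    exact absurd (eq_top_of_lt hcard M hM0 hM1 N h) h1

/-- Two distinct proper nonzero subspaces are complementary lines. -/
theorem isCompl_of_ne [Finite V] (hcard : Nat.card V ≤ p ^ 2)
    (N : Submodule (ZMod p) V) (h0 : N ≠ ⊥) (h1 : N ≠ ⊤) (M : Submodule (ZMod p) V)
    (hM0 : M ≠ ⊥) (hM1 : M ≠ ⊤) (hne : M ≠ N) : IsCompl N M := by
  have hNM : N ⊔ M = ⊤ := by
    apply eq_top_of_lt hcard N h0 h1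
    refine lt_of_le_of_ne le_sup_left ?_
    intro h
    have hMN : M ≤ N := by rw [h]; exact le_sup_right
    exact hne (eq_of_le_of_ne_bot hcard N h1 M hM0 hMN)
  have hinf : N ⊓ M = ⊥ := by
    by_contra hb
    have e1 := eq_of_le_of_ne_bot hcard N h1 (N ⊓ M) hb inf_le_left
    have e2 := eq_of_le_of_ne_bot hcard M hM1 (N ⊓ M) hb inf_le_right
    exact hne (e2.symm.trans e1)
  exact ⟨disjoint_iff.mpr hinf, codisjoint_iff.mpr hNM⟩

end LinAlg

/-! ## Points of a Weierstrass curve -/

section Curve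

open WeierstrassCurve WeierstrassCurve.Affine

variable {K : Type*} [Field K] {W : Affine K}

/-- Over an algebraically closed field every `x` is the `x`-coordinate of a point of the curve. -/
theorem exists_equation [IsAlgClosed K] (W : Affine K) (x : K) : ∃ y : K, W.Equation x y := by
  set g : K[X] := X ^ 2 + C (W.a₁ * x + W.a₃) * X - C (x ^ 3 + W.a₂ * x ^ 2 + W.a₄ * x + W.a₆)
    with hg
  have hdeg : g.degree = 2 := by
    rw [hg, sub_eq_add_neg, ← C_neg, add_assoc]
    have : (C (W.a₁ * x + W.a₃) * X + C (-(x ^ 3 + W.a₂ * x ^ 2 + W.a₄ * x + W.a₆))).degree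
        < (X ^ 2 : K[X]).degree := by
      rw [degree_X_pow]
      exact lt_of_le_of_lt (degree_linear_le) (by norm_num)
    rw [degree_add_eq_left_of_degree_lt this, degree_X_pow]
    rfl
  obtain ⟨y, hy⟩ := IsAlgClosed.exists_root g (by rw [hdeg]; norm_num)
  refine ⟨y, ?_⟩
  rw [Affine.equation_iff]
  rw [hg] at hy
  simp only [IsRoot.def, eval_sub, eval_add, eval_pow, eval_X, eval_mul, eval_C] at hy
  linear_combination hy

/-- The `x`-coordinate of a point (junk value `0` at the point at infinity). -/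
def xOf (W : Affine K) : W.Point → K
  | .zero => 0
  | .some x _ _ => x

@[simp] lemma xOf_some {x y : K} (h : W.Nonsingular x y) : xOf W (Point.some x y h) = x := rfl

@[simp] lemma xOf_zero : xOf W (0 : W.Point) = 0 := rfl

@[simp] lemma xOf_neg (P : W.Point) : xOf W (-P) = xOf W P := by
  cases P <;> rfl

lemma eq_or_eq_neg_of_xOf_eq {P Q : W.Point} (hP : P ≠ 0) (hQ : Q ≠ 0)
    (h : xOf W P = xOf W Q) : P = Q ∨ P = -Q := by
  cases P with
  | zero => exact absurd rfl hP
  | some x₁ y₁ h₁ =>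
    cases Q with
    | zero => exact absurd rfl hQ
    | some x₂ y₂ h₂ => exact Point.X_eq_iff.mp h

lemma natDegree_preΨ'_odd_prime {p : ℕ} (hp : p.Prime) (hodd : p ≠ 2) (hpK : (p : K) ≠ 0) :
    2 * (W.preΨ' p).natDegree + 1 = p ^ 2 := by
  have hoddp : Odd p := hp.odd_of_ne_two hodd
  have hne : ¬ Even p := Nat.not_even_iff_odd.mpr hoddp
  rw [W.natDegree_preΨ' hpK, if_neg hne]
  obtain ⟨m, rfl⟩ := hoddp
  have : (2 * m + 1) ^ 2 - 1 = 2 * (2 * m ^ 2 + 2 * m) := by
    have h : (2 * m + 1) ^ 2 = 2 * (2 * m ^ 2 + 2 * m) + 1 := by ring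
    omega
  rw [this, Nat.mul_div_cancel_left _ (by norm_num : 0 < 2)]
  ring

variable [DecidableEq K]

/-- Fibres of the `x`-coordinate are finite. -/
lemma finite_xOf_fibre (b : K) : (xOf W ⁻¹' {b}).Finite := by
  by_cases hex : ∃ P : W.Point, P ≠ 0 ∧ xOf W P = b
  · obtain ⟨P₀, hP₀, hb⟩ := hex
    refine (Set.toFinite ({0, P₀, -P₀} : Set W.Point)).subset ?_
    intro P hP
    simp only [Set.mem_preimage, Set.mem_singleton_iff] at hP
    by_cases h0 : P = 0
    · simp [h0]
    · rcases eq_or_eq_neg_of_xOf_eq h0 hP₀ (hP.trans hb.symm) with h | h <;> simp [h]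
  · refine (Set.toFinite ({0} : Set W.Point)).subset ?_
    intro P hP
    simp only [Set.mem_preimage, Set.mem_singleton_iff] at hP
    by_contra h0
    exact hex ⟨P, h0, hP⟩

/-- **Upper bound.** If the `x`-coordinates of the nonzero `n`-torsion points are roots of a
nonzero polynomial `f`, then the `n`-torsion is finite with at most `2 deg f + 1` elements. -/
theorem torsion_finite_and_ncard_le (n : ℕ) (f : K[X]) (hf : f ≠ 0)
    (hA : ∀ (x y : K) (h : W.Nonsingular x y), n • Point.some x y h = 0 → f.eval x = 0) :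
    {P : W.Point | n • P = 0}.Finite ∧ {P : W.Point | n • P = 0}.ncard ≤ 2 * f.natDegree + 1 := by
  classical
  have hsub : {P : W.Point | n • P = 0} ⊆ {0} ∪ xOf W ⁻¹' (f.roots.toFinset : Set K) := by
    intro P hP
    cases P with
    | zero => left; rfl
    | some x y h =>
      right
      simp only [Set.mem_preimage, xOf_some, Finset.mem_coe, Multiset.mem_toFinset]
      exact (mem_roots hf).mpr (hA x y h hP)
  have hfin' : (xOf W ⁻¹' (f.roots.toFinset : Set K)).Finite :=
    Set.Finite.preimage' (Finset.finite_toSet _) fun b _ => finite_xOf_fibre b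
  have hfin : {P : W.Point | n • P = 0}.Finite := ((Set.finite_singleton _).union hfin').subset hsub
  refine ⟨hfin, ?_⟩
  -- counting
  set T : Finset W.Point := hfin.toFinset.erase 0 with hT
  have hTmem : ∀ P, P ∈ T ↔ P ≠ 0 ∧ n • P = 0 := by
    intro P
    simp [hT]
  have himg : T.image (xOf W) ⊆ f.roots.toFinset := by
    intro b hb
    obtain ⟨P, hP, rfl⟩ := Finset.mem_image.mp hb
    obtain ⟨hP0, hPn⟩ := (hTmem P).mp hP
    cases P with
    | zero => exact absurd rfl hP0
    | some x y h =>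
      simp only [xOf_some, Multiset.mem_toFinset]
      exact (mem_roots hf).mpr (hA x y h hPn)
  have hfib : ∀ b ∈ T.image (xOf W), (T.filter fun P => xOf W P = b).card ≤ 2 := by
    intro b hb
    obtain ⟨P₀, hP₀, rfl⟩ := Finset.mem_image.mp hb
    have hP₀0 := ((hTmem P₀).mp hP₀).1
    have : (T.filter fun P => xOf W P = xOf W P₀) ⊆ {P₀, -P₀} := by
      intro P hP
      obtain ⟨hPT, hx⟩ := Finset.mem_filter.mp hP
      have hP0 := ((hTmem P).mp hPT).1
      rcases eq_or_eq_neg_of_xOf_eq hP0 hP₀0 hx with h | h <;> simp [h]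
    exact (Finset.card_le_card this).trans Finset.card_le_two
  have hcardT : T.card ≤ 2 * f.natDegree := by
    calc T.card ≤ 2 * (T.image (xOf W)).card := Finset.card_le_mul_card_image T 2 hfib
      _ ≤ 2 * f.roots.toFinset.card := by gcongr
      _ ≤ 2 * Multiset.card f.roots := by gcongr; exact Multiset.toFinset_card_le _
      _ ≤ 2 * f.natDegree := by gcongr; exact card_roots' f
  rw [Set.ncard_eq_toFinset_card _ hfin]
  have h0mem : (0 : W.Point) ∈ hfin.toFinset := by simp
  have := Finset.card_erase_of_mem h0mem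
  rw [← hT] at this
  omega

/-- **Nontriviality.** Over an algebraically closed field, if every point whose `x`-coordinate is a
root of the non-constant polynomial `f` is `n`-torsion, there is a nonzero `n`-torsion point. -/
theorem exists_torsion_ne_zero [IsAlgClosed K] (hΔ : W.Δ ≠ 0) (n : ℕ) (f : K[X])
    (hdeg : 0 < f.natDegree)
    (hA : ∀ (x y : K) (h : W.Nonsingular x y), f.eval x = 0 → n • Point.some x y h = 0) :
    ∃ P : W.Point, P ≠ 0 ∧ n • P = 0 := by
  have hd : f.degree ≠ 0 := by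
    intro h
    have h2 : f.natDegree = 0 := natDegree_eq_of_degree_eq_some h
    omega
  obtain ⟨x, hx⟩ := IsAlgClosed.exists_root f hd
  obtain ⟨y, hy⟩ := exists_equation W x
  have hns : W.Nonsingular x y := (W.equation_iff_nonsingular_of_Δ_ne_zero hΔ).mp hy
  exact ⟨Point.some x y hns, Point.some_ne_zero hns, hA x y hns hx⟩

/-- Multiples `k • P₀`, `1 ≤ k ≤ (p-1)/2`, of a point of prime order `p` are nonzero with pairwise
distinct `x`-coordinates. -/
theorem xOf_nsmul_injOn {p : ℕ} (hp : p.Prime) {P₀ : W.Point} (h0 : P₀ ≠ 0)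
    (hP₀ : p • P₀ = 0) :
    (∀ k ∈ Finset.Icc 1 ((p - 1) / 2), k • P₀ ≠ 0) ∧
    Set.InjOn (fun k : ℕ => xOf W (k • P₀)) (Finset.Icc 1 ((p - 1) / 2) : Set ℕ) := by
  have : Fact p.Prime := ⟨hp⟩
  have hord : addOrderOf P₀ = p := addOrderOf_eq_prime hP₀ h0
  have hp2 : 2 ≤ p := hp.two_le
  have hne : ∀ k ∈ Finset.Icc 1 ((p - 1) / 2), k • P₀ ≠ 0 := by
    intro k hk hk0
    rw [Finset.mem_Icc] at hk
    have hdvd : p ∣ k := hord ▸ addOrderOf_dvd_of_nsmul_eq_zero hk0
    have := Nat.le_of_dvd (by omega) hdvd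
    omega
  refine ⟨hne, ?_⟩
  intro k hk l hl hkl
  have hk' := Finset.mem_Icc.mp hk
  have hl' := Finset.mem_Icc.mp hl
  rcases eq_or_eq_neg_of_xOf_eq (hne k hk) (hne l hl) hkl with h | h
  · have hmod : k ≡ l [MOD p] := hord ▸ (nsmul_eq_nsmul_iff_modEq.mp h)
    have h1 := Nat.ModEq.eq_of_lt_of_lt hmod (by omega) (by omega)
    exact h1
  · exfalso
    have hsum : (k + l) • P₀ = 0 := by
      rw [add_nsmul, h, neg_add_cancel]
    have hdvd : p ∣ k + l := hord ▸ addOrderOf_dvd_of_nsmul_eq_zero hsum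
    have := Nat.le_of_dvd (by omega) hdvd
    omega

lemma torsionBy_coe_eq (p : ℕ) :
    ((Submodule.torsionBy ℤ W.Point (p : ℤ) : Submodule ℤ W.Point) : Set W.Point)
      = {P : W.Point | p • P = 0} := by
  ext P
  simp

lemma mem_torsionBy_iff_nsmul (p : ℕ) (P : W.Point) :
    P ∈ Submodule.torsionBy ℤ W.Point (p : ℤ) ↔ p • P = 0 := by
  simp

/-- **(A') finiteness** of `E[p]`. -/
theorem finite_torsionBy {p : ℕ} (hpK : (p : K) ≠ 0)
    (hA : ∀ (x y : K) (h : W.Nonsingular x y),
      p • Point.some x y h = 0 → (W.preΨ' p).eval x = 0) :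
    Finite (Submodule.torsionBy ℤ W.Point (p : ℤ)) := by
  have h := (torsion_finite_and_ncard_le (W := W) p (W.preΨ' p) (W.preΨ'_ne_zero hpK) hA).1
  rw [← torsionBy_coe_eq] at h
  exact h.to_subtype

/-- **(A') upper bound**: `#E[p] ≤ p ^ 2` for an odd prime `p` invertible in `K`. -/
theorem card_torsionBy_le {p : ℕ} (hp : p.Prime) (hodd : p ≠ 2) (hpK : (p : K) ≠ 0)
    (hA : ∀ (x y : K) (h : W.Nonsingular x y),
      p • Point.some x y h = 0 → (W.preΨ' p).eval x = 0) :
    Nat.card (Submodule.torsionBy ℤ W.Point (p : ℤ)) ≤ p ^ 2 := by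
  have h := (torsion_finite_and_ncard_le (W := W) p (W.preΨ' p) (W.preΨ'_ne_zero hpK) hA).2
  rw [natDegree_preΨ'_odd_prime hp hodd hpK, ← torsionBy_coe_eq] at h
  rwa [← Nat.card_coe_set_eq] at h

/-- **(A') nontriviality** of `E[p]` over an algebraically closed field. -/
theorem nontrivial_torsionBy [IsAlgClosed K] (hΔ : W.Δ ≠ 0) {p : ℕ} (hp : p.Prime)
    (hodd : p ≠ 2) (hpK : (p : K) ≠ 0)
    (hA : ∀ (x y : K) (h : W.Nonsingular x y),
      (W.preΨ' p).eval x = 0 → p • Point.some x y h = 0) :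
    Nontrivial (Submodule.torsionBy ℤ W.Point (p : ℤ)) := by
  have hdeg : 0 < (W.preΨ' p).natDegree := by
    apply W.natDegree_preΨ'_pos _ hpK
    have := hp.two_le
    omega
  obtain ⟨P, hP0, hP⟩ := exists_torsion_ne_zero hΔ p (W.preΨ' p) hdeg hA
  refine ⟨⟨⟨P, ?_⟩, 0, ?_⟩⟩
  · rw [Submodule.mem_torsionBy_iff]; simpa using hP
  · intro h
    exact hP0 (congrArg Subtype.val h)

end Curve

end Fermat.Agent.S13.Count
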