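import Mathlib
import Fermat.Agent.S05.AddSub
import Fermat.Agent.S05.NodePair
import Fermat.Agent.S05.NodeIter

/-!
# S13 / block D: the pair law at a node, general residue characteristic

`W` is a Weierstrass curve over a valued field `K` with `a₃ = a₆ = 0`, `v b₂ = 1` and
`0 < v a₄ < 1` (no hypothesis on `v 2`: this covers `y² + xy = x³ + a₂x² + a₄x` in residue
characteristic `2`).  We define `nu : W.Point → Γ₀` (the clamped valuation of the
`x`-coordinate) and prove the pair law for all pairs of points, reusing the `Γ₀`-level core of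
`Fermat.Agent.S05.NodePair`.
-/

set_option autoImplicit false
set_option linter.unusedSectionVars false

namespace Fermat.Agent.S13.NodeG

open WeierstrassCurve WeierstrassCurve.Affine Fermat.Agent.S05 Fermat.Agent.S05.NodePair

variable {K : Type*} [Field K] [DecidableEq K] {Γ₀ : Type*} [LinearOrderedCommGroupWithZero Γ₀]

/-- The hypotheses on the curve: `a₃ = a₆ = 0`, `b₂` a unit and `a₄` a nonzero non-unit. -/
structure NodeHypG (v : Valuation K Γ₀) (W : Affine K) : Prop where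
  a3 : W.a₃ = 0
  a6 : W.a₆ = 0
  vb2 : v W.b₂ = 1
  b0 : W.a₄ ≠ 0
  b1 : v W.a₄ < 1

variable (v : Valuation K Γ₀) (W : Affine K)

/-- The clamped valuation of the `x`-coordinate; `1` at the point at infinity. -/
def nu : W.Point → Γ₀
  | .zero => 1
  | .some x _ _ => clamp (v W.a₄) (v x)

@[simp] theorem nu_zero : nu v W 0 = 1 := rfl

@[simp] theorem nu_some {x y : K} (h : W.Nonsingular x y) :
    nu v W (.some x y h) = clamp (v W.a₄) (v x) := rfl

theorem nu_neg (P : W.Point) : nu v W (-P) = nu v W P := by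
  cases P with
  | zero => rfl
  | some x y h => rfl

variable {v W}

theorem nu_of_ne_zero {P : W.Point} (hP : P ≠ 0) : nu v W P = clamp (v W.a₄) (v (xc P)) := by
  obtain ⟨x, y, h, rfl⟩ := exists_some_of_ne_zero hP
  rfl

theorem v_two_le_one : v (2 : K) ≤ 1 := by
  have := v.map_add (1 : K) 1
  rwa [one_add_one_eq_two, map_one, max_self] at this

theorem v_four_le_one : v (4 : K) ≤ 1 := by
  rw [show (4 : K) = 2 * 2 by norm_num, map_mul]
  exact Left.mul_le_one v_two_le_one v_two_le_one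

namespace NodeHypG

variable (H : NodeHypG v W)
include H

theorem M_ne_zero : v W.a₄ ≠ 0 := (v.ne_zero_iff).mpr H.b0

theorem b4_eq : W.b₄ = 2 * W.a₄ := by
  rw [WeierstrassCurve.b₄, H.a3]; ring

theorem b6_eq : W.b₆ = 0 := by
  rw [WeierstrassCurve.b₆, H.a3, H.a6]; ring

theorem b8_eq : W.b₈ = -W.a₄ ^ 2 := by
  rw [WeierstrassCurve.b₈, H.a3, H.a6]; ring

theorem nu_le_one (P : W.Point) : nu v W P ≤ 1 := by
  cases P with
  | zero => exact le_rfl
  | some x y h => exact clamp_le_one H.b1.le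

theorem le_nu (P : W.Point) : v W.a₄ ≤ nu v W P := by
  cases P with
  | zero => exact H.b1.le
  | some x y h => exact le_clamp

theorem nu_ne_zero (P : W.Point) : nu v W P ≠ 0 :=
  (lt_of_lt_of_le (zero_lt_iff.mpr H.M_ne_zero) (H.le_nu P)).ne'

theorem fold_one : fold (v W.a₄) 1 = 1 := fold_of_le H.M_ne_zero H.b1.le

theorem fold_M_mul_M : fold (v W.a₄) (v W.a₄ * v W.a₄) = 1 := by
  have h0 := H.M_ne_zero
  rw [fold_of_ge (mul_ne_zero h0 h0) (mul_le_of_le_one_left' H.b1.le), sq,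
    div_self (mul_ne_zero h0 h0)]

/-- The pair law for the `x`-coordinates of `P ± Q` when `x(P) ≠ x(Q)`. -/
theorem pairLaw_of_xc_ne {P Q : W.Point} (hP : P ≠ 0) (hQ : Q ≠ 0) (hx : xc P ≠ xc Q) :
    PairLaw (v W.a₄) (v (xc (P + Q))) (v (xc (P - Q)))
      (clamp (v W.a₄) (v (xc P))) (clamp (v W.a₄) (v (xc Q))) := by
  have hprod := xc_add_mul_xc_sub hP hQ hx
  have hsum := xc_add_add_xc_sub hP hQ hx
  rw [H.b4_eq, H.b6_eq, H.b8_eq] at hprod
  rw [H.b4_eq, H.b6_eq] at hsum
  set x1 := xc P with hx1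
  set x2 := xc Q with hx2
  set rp := xc (P + Q) with hrp
  set rm := xc (P - Q) with hrm
  have hprod' : rp * rm * (x1 - x2) ^ 2 = (x1 * x2 - W.a₄) ^ 2 := by
    rw [hprod]; ring
  have hsum' : (rp + rm) * (x1 - x2) ^ 2 =
      2 * ((x1 + x2) * (x1 * x2 + W.a₄)) + W.b₂ * (x1 * x2) := by
    rw [hsum]; ring
  have hT2 : v (W.b₂ * (x1 * x2)) = v x1 * v x2 := by
    rw [map_mul, map_mul, H.vb2, one_mul]
  have hT1 : v (2 * ((x1 + x2) * (x1 * x2 + W.a₄))) ≤
      max (v x1) (v x2) * max (v x1 * v x2) (v W.a₄) := by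
    rw [map_mul, map_mul]
    refine (mul_le_of_le_one_left' v_two_le_one).trans ?_
    refine mul_le_mul' (v.map_add x1 x2) ?_
    have := v.map_add (x1 * x2) W.a₄
    rwa [map_mul] at this
  refine pairLaw_aux (V1 := v x1) (V2 := v x2) (Δ := v (x1 - x2)) (e := v (x1 * x2 - W.a₄))
    (s := v (2 * ((x1 + x2) * (x1 * x2 + W.a₄)) + W.b₂ * (x1 * x2))) (σ := v (rp + rm))
    H.M_ne_zero H.b1 ((v.ne_zero_iff).mpr (sub_ne_zero.mpr hx))
    (v.map_sub x1 x2) ?_ ?_ ?_ ?_ ?_ ?_ ?_ (v.map_add rp rm)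
    (fun h => v.map_add_of_distinct_val h)
  · intro h
    rw [sub_eq_add_neg]
    have := v.map_add_of_distinct_val (x := x1) (y := -x2) (by rwa [v.map_neg])
    rwa [v.map_neg] at this
  · have := v.map_sub (x1 * x2) W.a₄
    rwa [map_mul] at this
  · intro h
    rw [sub_eq_add_neg]
    have := v.map_add_of_distinct_val (x := x1 * x2) (y := -W.a₄)
      (by rwa [v.map_neg, map_mul])
    rwa [v.map_neg, map_mul] at this
  · exact (v.map_add _ _).trans (max_le_max hT1 hT2.le)
  · intro h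
    rw [← hT2]
    apply v.map_add_eq_of_lt_right
    rw [hT2]
    exact hT1.trans_lt h
  · rw [← map_pow, ← map_mul, ← map_pow, ← map_mul, hprod']
  · rw [← map_pow, ← map_mul, hsum']

/-- The doubling law for a point with `2 • P ≠ 0`. -/
theorem double_of_ne {P : W.Point} (hP : P ≠ 0) (h2 : P + P ≠ 0) :
    clamp (v W.a₄) (v (xc (P + P))) =
      fold (v W.a₄) (clamp (v W.a₄) (v (xc P)) * clamp (v W.a₄) (v (xc P))) := by
  have hdup := xc_add_self hP h2
  have h2' : twoDiv W (xc P) ≠ 0 := fun h0 => h2 ((add_self_eq_zero_iff hP).mpr h0)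
  rw [twoDiv, H.b4_eq, H.b6_eq] at h2'
  rw [twoDiv, dupNum, H.b4_eq, H.b6_eq, H.b8_eq] at hdup
  set x := xc P with hxdef
  have hfac : 4 * x ^ 3 + W.b₂ * x ^ 2 + 2 * (2 * W.a₄) * x + 0 =
      x * (4 * x ^ 2 + W.b₂ * x + 4 * W.a₄) := by ring
  have hid : xc (P + P) * (x * (4 * x ^ 2 + W.b₂ * x + 4 * W.a₄)) = (x ^ 2 - W.a₄) ^ 2 := by
    rw [← hfac, hdup]; ring
  rw [hfac] at h2'
  have hbx : v (W.b₂ * x) = v x := by rw [map_mul, H.vb2, one_mul]
  have h4x : v (4 * x ^ 2) ≤ v x ^ 2 := by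
    rw [map_mul, map_pow]
    exact mul_le_of_le_one_left' v_four_le_one
  have h4a : v (4 * W.a₄) ≤ v W.a₄ := by
    rw [map_mul]
    exact mul_le_of_le_one_left' v_four_le_one
  refine double_aux (V := v x) (F := v (4 * x ^ 2 + W.b₂ * x + 4 * W.a₄)) (e := v (x ^ 2 - W.a₄))
    H.M_ne_zero H.b1 ?_ ?_ ?_ ?_ ?_ ?_
  · rw [← map_mul]
    exact (v.ne_zero_iff).mpr h2'
  · refine (v.map_add _ _).trans (max_le_max ?_ h4a)
    exact (v.map_add _ _).trans (max_le_max h4x hbx.le)
  · intro hlt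
    have h3 : v (4 * x ^ 2 + W.b₂ * x) = v x := by
      rw [← hbx]
      apply v.map_add_eq_of_lt_right
      rw [hbx]
      exact h4x.trans_lt ((le_max_left _ _).trans_lt hlt)
    rw [← h3]
    apply v.map_add_eq_of_lt_left
    rw [h3]
    exact h4a.trans_lt ((le_max_right _ _).trans_lt hlt)
  · have := v.map_sub (x ^ 2) W.a₄
    rwa [map_pow] at this
  · intro hne
    rw [sub_eq_add_neg]
    have := v.map_add_of_distinct_val (x := x ^ 2) (y := -W.a₄) (by rwa [v.map_neg, map_pow])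
    rwa [v.map_neg, map_pow] at this
  · rw [← map_mul, ← map_mul, hid, map_pow]

/-- At a nonzero `2`-torsion point the value of `nu` is `1` or `M`. -/
theorem nu_of_two_torsion {P : W.Point} (hP : P ≠ 0) (h2 : P + P = 0) :
    nu v W P = 1 ∨ nu v W P = v W.a₄ := by
  rw [nu_of_ne_zero hP]
  have h0 := (add_self_eq_zero_iff hP).mp h2
  rw [twoDiv, H.b4_eq, H.b6_eq] at h0
  set x := xc P with hxdef
  rcases le_or_gt 1 (v x) with h1 | h1
  · exact Or.inl (clamp_of_one_le H.b1.le h1)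
  · right
    have e' : x * (4 * x ^ 2 + W.b₂ * x + 4 * W.a₄) = 0 := by linear_combination h0
    rcases mul_eq_zero.mp e' with hx | hx
    · rw [hx, map_zero]
      exact clamp_of_le H.b1.le zero_le
    · have e2 : W.b₂ * x = -(4 * (x ^ 2 + W.a₄)) := by linear_combination hx
      have e3 : v x = v 4 * v (x ^ 2 + W.a₄) := by
        calc v x = v (W.b₂ * x) := by rw [map_mul, H.vb2, one_mul]
          _ = v (-(4 * (x ^ 2 + W.a₄))) := by rw [e2]
          _ = v 4 * v (x ^ 2 + W.a₄) := by rw [v.map_neg, map_mul]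
      have e4 : v x ≤ max (v x ^ 2) (v W.a₄) := by
        calc v x = v 4 * v (x ^ 2 + W.a₄) := e3
          _ ≤ v (x ^ 2 + W.a₄) := mul_le_of_le_one_left' v_four_le_one
          _ ≤ max (v x ^ 2) (v W.a₄) := by
            have := v.map_add (x ^ 2) W.a₄
            rwa [map_pow] at this
      apply clamp_of_le H.b1.le
      rcases le_max_iff.mp e4 with h5 | h5
      · by_cases hx0 : v x = 0
        · rw [hx0]; exact zero_le
        · exfalso
          have hpos : 0 < v x := zero_lt_iff.mpr hx0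
          have : v x ^ 2 < v x := by
            rw [sq]
            exact mul_lt_of_lt_one_left hpos h1
          exact absurd h5 (not_le.mpr this)
      · exact h5

/-- The doubling law for all points. -/
theorem nu_add_self (P : W.Point) :
    nu v W (P + P) = fold (v W.a₄) (nu v W P * nu v W P) := by
  by_cases hP : P = 0
  · subst hP
    rw [add_zero, nu_zero, mul_one, H.fold_one]
  · by_cases h2 : P + P = 0
    · rw [h2, nu_zero]
      rcases H.nu_of_two_torsion hP h2 with e | e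
      · rw [e, mul_one, H.fold_one]
      · rw [e, H.fold_M_mul_M]
    · rw [nu_of_ne_zero h2, nu_of_ne_zero hP]
      exact H.double_of_ne hP h2

end NodeHypG

/-- The pair law for two points. -/
def PtPairLaw (v : Valuation K Γ₀) (W : Affine K) (P Q : W.Point) : Prop :=
  (nu v W (P + Q) = fold (v W.a₄) (nu v W P * nu v W Q) ∧
      nu v W (P - Q) = min (nu v W P / nu v W Q) (nu v W Q / nu v W P)) ∨
    (nu v W (P + Q) = min (nu v W P / nu v W Q) (nu v W Q / nu v W P) ∧
      nu v W (P - Q) = fold (v W.a₄) (nu v W P * nu v W Q))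

namespace NodeHypG

variable (H : NodeHypG v W)
include H

theorem min_div_self (P : W.Point) : min (nu v W P / nu v W P) (nu v W P / nu v W P) = 1 := by
  rw [min_self, div_self (H.nu_ne_zero P)]

/-- **The pair law** for all pairs of points. -/
theorem pairLaw (P Q : W.Point) : PtPairLaw v W P Q := by
  have hM0 := H.M_ne_zero
  by_cases hP : P = 0
  · subst hP
    left
    rw [zero_add, zero_sub, nu_neg, nu_zero, one_mul, fold_of_le hM0 (H.le_nu Q), div_one,
      min_eq_right]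
    · exact ⟨rfl, rfl⟩
    · rw [le_div_iff₀ (zero_lt_iff.mpr (H.nu_ne_zero Q))]
      exact Left.mul_le_one (H.nu_le_one Q) (H.nu_le_one Q)
  by_cases hQ : Q = 0
  · subst hQ
    left
    rw [add_zero, sub_zero, nu_zero, mul_one, fold_of_le hM0 (H.le_nu _), div_one,
      min_eq_left]
    · exact ⟨rfl, rfl⟩
    · rw [le_div_iff₀ (zero_lt_iff.mpr (H.nu_ne_zero _))]
      exact Left.mul_le_one (H.nu_le_one _) (H.nu_le_one _)
  by_cases hx : xc P = xc Q
  · rcases (xc_eq_iff hP hQ).mp hx with rfl | rfl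
    · left
      rw [sub_self, nu_zero, H.nu_add_self, H.min_div_self]
      exact ⟨rfl, rfl⟩
    · right
      rw [neg_add_cancel, ← neg_add', nu_neg, nu_neg, nu_zero, H.nu_add_self, H.min_div_self]
      exact ⟨rfl, rfl⟩
  · have := H.pairLaw_of_xc_ne hP hQ hx
    unfold PairLaw at this
    unfold PtPairLaw
    rw [nu_of_ne_zero (add_ne_zero_of_xc_ne hx), nu_of_ne_zero (sub_ne_zero_of_xc_ne hx),
      nu_of_ne_zero hP, nu_of_ne_zero hQ]
    exact this

/-- The pair law in the `Rel₀` form used by the iteration lemma. -/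
theorem pairLaw₀ : NodeIter.PairLaw₀ (v W.a₄ ^ 2) (nu v W) := by
  intro P Q
  rcases H.pairLaw P Q with ⟨h1, h2⟩ | ⟨h1, h2⟩
  · left
    rw [h1, h2]
    exact ⟨NodeIter.rel₀_max _ _, NodeIter.rel₀_min _ _ _⟩
  · right
    rw [h1, h2]
    exact ⟨NodeIter.rel₀_min _ _ _, NodeIter.rel₀_max _ _⟩

/-- Torsion points: `p • P = 0` forces `nu P ^ p ∈ (M ^ 2) ^ ℤ`. -/
theorem nu_pow_of_nsmul_eq_zero {P : W.Point} {p : ℕ} (hP : p • P = 0) :
    ∃ j : ℤ, nu v W P ^ p = (v W.a₄ ^ 2) ^ j :=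
  NodeIter.exists_zpow_of_nsmul_eq_zero₀ (pow_ne_zero 2 H.M_ne_zero) H.nu_ne_zero (nu_zero v W)
    H.pairLaw₀ hP

/-- If `nu P = nu Q` then one of `P ± Q` has `nu = 1`. -/
theorem nu_add_or_sub_eq_one {P Q : W.Point} (h : nu v W P = nu v W Q) :
    nu v W (P + Q) = 1 ∨ nu v W (P - Q) = 1 := by
  have hB : min (nu v W P / nu v W Q) (nu v W Q / nu v W P) = 1 := by
    rw [h, H.min_div_self]
  rcases H.pairLaw P Q with ⟨-, h2⟩ | ⟨h1, -⟩
  · exact Or.inr (h2.trans hB)
  · exact Or.inl (h1.trans hB)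

/-- If `nu P = nu Q = M` then both `P ± Q` have `nu = 1`. -/
theorem nu_add_eq_one_of_eq_M {P Q : W.Point} (hP : nu v W P = v W.a₄) (hQ : nu v W Q = v W.a₄) :
    nu v W (P + Q) = 1 ∧ nu v W (P - Q) = 1 := by
  have hA : fold (v W.a₄) (nu v W P * nu v W Q) = 1 := by rw [hP, hQ, H.fold_M_mul_M]
  have hB : min (nu v W P / nu v W Q) (nu v W Q / nu v W P) = 1 := by
    rw [hP, hQ, min_self, div_self H.M_ne_zero]
  rcases H.pairLaw P Q with ⟨h1, h2⟩ | ⟨h1, h2⟩
  · exact ⟨h1.trans hA, h2.trans hB⟩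
  · exact ⟨h1.trans hB, h2.trans hA⟩

theorem clamp_eq_one_iff (t : Γ₀) : clamp (v W.a₄) t = 1 ↔ 1 ≤ t := by
  constructor
  · intro h
    by_contra hlt
    rw [not_le] at hlt
    have : clamp (v W.a₄) t < 1 := by
      rw [clamp, min_eq_left hlt.le]
      exact max_lt hlt H.b1
    exact this.ne h
  · exact clamp_of_one_le H.b1.le

/-- `nu P = 1` iff `P` is the point at infinity or has `1 ≤ v x`. -/
theorem nu_eq_one_iff (P : W.Point) : nu v W P = 1 ↔ P = 0 ∨ 1 ≤ v (xc P) := by
  by_cases hP : P = 0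
  · subst hP; simp
  · rw [nu_of_ne_zero hP, H.clamp_eq_one_iff]
    constructor
    · exact Or.inr
    · rintro (h0 | h1)
      · exact absurd h0 hP
      · exact h1

/-- The doubling of a point with `nu = 1` or `nu = M` has `nu = 1`. -/
theorem nu_add_self_eq_one {P : W.Point} (h : nu v W P = 1 ∨ nu v W P = v W.a₄) :
    nu v W (P + P) = 1 := by
  rw [H.nu_add_self]
  rcases h with e | e
  · rw [e, mul_one, H.fold_one]
  · rw [e, H.fold_M_mul_M]

end NodeHypG

end Fermat.Agent.S13.NodeG
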