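import Mathlib

/-!
# S13: a field automorphism stabilising a valuation subring preserves the valuation of
algebraic elements
-/

set_option autoImplicit false

namespace Fermat.Agent.S13.ValAux

variable {F K : Type*} [Field F] [Field K] [Algebra F K]

section

variable (A : ValuationSubring K) {σ : K ≃ₐ[F] K}

theorem valuation_le_iff (hσ : ∀ x : K, σ x ∈ A ↔ x ∈ A) (a b : K) :
    A.valuation (σ a) ≤ A.valuation (σ b) ↔ A.valuation a ≤ A.valuation b := by
  by_cases hb : b = 0
  · subst hb
    rw [map_zero, map_zero, le_zero_iff, le_zero_iff, Valuation.zero_iff, Valuation.zero_iff,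
      EmbeddingLike.map_eq_zero_iff]
  · have hσb : σ b ≠ 0 := by rwa [Ne, EmbeddingLike.map_eq_zero_iff]
    have hvb : 0 < A.valuation b := (Valuation.pos_iff _).mpr hb
    have hvσb : 0 < A.valuation (σ b) := (Valuation.pos_iff _).mpr hσb
    rw [← div_le_one₀ hvb, ← div_le_one₀ hvσb, ← map_div₀, ← map_div₀, ← map_div₀,
      A.valuation_le_one_iff, A.valuation_le_one_iff]
    exact hσ (a / b)

theorem valuation_lt_iff (hσ : ∀ x : K, σ x ∈ A ↔ x ∈ A) (a b : K) :
    A.valuation (σ a) < A.valuation (σ b) ↔ A.valuation a < A.valuation b := by
  rw [← not_le, ← not_le, valuation_le_iff A hσ]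

/-- An automorphism stabilising `A` preserves the valuation of every algebraic element. -/
theorem valuation_apply_eq (hσ : ∀ x : K, σ x ∈ A ↔ x ∈ A) {x : K} (hx : IsAlgebraic F x) :
    A.valuation (σ x) = A.valuation x := by
  -- the orbit of `x` under `σ` lies in the finite root set of the minimal polynomial
  have hint : IsIntegral F x := hx.isIntegral
  have hroot : ∀ k : ℕ, (σ ^ k) x ∈ (minpoly F x).rootSet K := by
    intro k
    rw [Polynomial.mem_rootSet]
    refine ⟨minpoly.ne_zero hint, ?_⟩
    rw [Polynomial.aeval_algHom_apply, minpoly.aeval, map_zero]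
  have hfin : ((minpoly F x).rootSet K).Finite := Polynomial.rootSet_finite _ _
  have hstep : ∀ k : ℕ, (σ ^ (k + 1)) x = σ ((σ ^ k) x) := by
    intro k
    rw [pow_succ', AlgEquiv.mul_apply]
  by_contra hne
  rcases lt_or_gt_of_ne hne with hlt | hlt
  · -- `v (σ x) < v x`: strictly decreasing orbit
    have hanti : StrictAnti fun k : ℕ => A.valuation ((σ ^ k) x) := by
      apply strictAnti_nat_of_succ_lt
      intro k
      induction k with
      | zero => simpa using hlt
      | succ k ih =>
        rw [hstep k] at ih
        rw [hstep (k + 1), hstep k]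
        exact (valuation_lt_iff A hσ _ _).mpr ih
    have hinj : Function.Injective fun k : ℕ => (σ ^ k) x := by
      intro i j hij
      exact hanti.injective (by simpa using congrArg A.valuation hij)
    exact Set.infinite_of_injective_forall_mem hinj hroot hfin
  · have hmono : StrictMono fun k : ℕ => A.valuation ((σ ^ k) x) := by
      apply strictMono_nat_of_lt_succ
      intro k
      induction k with
      | zero => simpa using hlt
      | succ k ih =>
        rw [hstep k] at ih
        rw [hstep (k + 1), hstep k]
        exact (valuation_lt_iff A hσ _ _).mpr ih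
    have hinj : Function.Injective fun k : ℕ => (σ ^ k) x := by
      intro i j hij
      exact hmono.injective (by simpa using congrArg A.valuation hij)
    exact Set.infinite_of_injective_forall_mem hinj hroot hfin

end

end Fermat.Agent.S13.ValAux
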