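import Mathlib
import Fermat.Agent.S13.NodeG
import Fermat.Agent.S13.ValAux
import Fermat.Agent.S05.KernelGeneral

/-!
# S13 / block D-i: inertia moves every point of a nodal Weierstrass curve inside `E₀`

`W` a Weierstrass curve with `a₃ = a₆ = 0`, `b₂` a unit, `0 < v a₄ < 1` (a node at `(0, 0)` in
the reduction, any residue characteristic).  For every point `P` and every inertial automorphism
`σ` we show that `σ P - P` is `0` or has `1 ≤ v x`, i.e. `nu (σ P - P) = 1`.
-/

set_option autoImplicit false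
set_option linter.unusedSectionVars false

namespace Fermat.Agent.S13.NodeInertia

open WeierstrassCurve WeierstrassCurve.Affine
open Fermat.Agent.S05 Fermat.Agent.S05.NodePair Fermat.Agent.S13.NodeG

section core

variable {K : Type*} [Field K] {Γ₀ : Type*} [LinearOrderedCommGroupWithZero Γ₀]

theorem mul_lt_one_aux {a b : Γ₀} (ha : a ≤ 1) (hb : b < 1) : a * b < 1 := by
  rw [mul_comm]; exact mul_lt_one_of_lt_of_le hb ha

/-- The signed slope computation. -/
theorem signed_core (v : Valuation K Γ₀) {a1 a2 α α' x1 y1 x2 y2 : K}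
    (hs : α + α' = -a1) (hp : α * α' = -a2) (hδ : v (α - α') = 1)
    (hx : x1 ≠ x2) (hv : v x1 = v x2) (hlt : v x2 < 1)
    (h1 : v (y1 - α * x1) < v x1) (h2 : v (y2 - α' * x2) < v x2) :
    1 ≤ v (((y1 - y2) / (x1 - x2)) ^ 2 + a1 * ((y1 - y2) / (x1 - x2)) - a2 - x1 - x2) := by
  have hD : x1 - x2 ≠ 0 := sub_ne_zero.mpr hx
  set L := (y1 - y2) / (x1 - x2) with hL
  set E := (L - α) * (L - α') with hE
  have hid : L ^ 2 + a1 * L - a2 - x1 - x2 = E - (x1 + x2) := by
    rw [hE]; linear_combination L * hs - hp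
  set m1 := y1 - α * x1 with hm1
  set m2 := y2 - α' * x2 with hm2
  have hδ' : v (α' - α) = 1 := by rw [v.map_sub_swap]; exact hδ
  rw [hv] at h1
  have h12 : v (m1 - m2) < v x2 := v.map_sub_lt h1 h2
  have hA1 : v (m1 - m2 - (α' - α) * x2) = v x2 := by
    have : v ((α' - α) * x2) = v x2 := by rw [map_mul, hδ', one_mul]
    rw [← this]
    apply v.map_sub_eq_of_lt_right
    rw [this]; exact h12
  have hA2 : v (m1 - m2 + (α - α') * x1) = v x2 := by
    have : v ((α - α') * x1) = v x2 := by rw [map_mul, hδ, one_mul, hv]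
    rw [← this]
    apply v.map_add_eq_of_lt_right
    rw [this]; exact h12
  have hEq : E * (x1 - x2) ^ 2 = (m1 - m2 - (α' - α) * x2) * (m1 - m2 + (α - α') * x1) := by
    rw [hE, hL, hm1, hm2]
    field_simp
    ring
  have hvE : v E * v (x1 - x2) ^ 2 = v x2 ^ 2 := by
    rw [← map_pow, ← map_mul, hEq, map_mul, hA1, hA2, sq]
  have hvD : v (x1 - x2) ≤ v x2 := by
    have := v.map_sub x1 x2
    rwa [hv, max_self] at this
  have hvD0 : 0 < v (x1 - x2) := (Valuation.pos_iff _).mpr hD
  have hE1 : 1 ≤ v E := by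
    by_contra hcon
    rw [not_le] at hcon
    have h3 : v E * v (x1 - x2) ^ 2 < v (x1 - x2) ^ 2 :=
      mul_lt_of_lt_one_left (pow_pos hvD0 2) hcon
    have h4 : v (x1 - x2) ^ 2 ≤ v x2 ^ 2 := pow_le_pow_left₀ zero_le hvD 2
    exact absurd (hvE ▸ h3) (not_lt.mpr h4)
  rw [hid]
  have h5 : v (x1 + x2) < v E := by
    refine lt_of_le_of_lt ?_ (hlt.trans_le hE1)
    have := v.map_add x1 x2
    rwa [hv, max_self] at this
  rw [v.map_sub_eq_of_lt_left h5]
  exact hE1

end core

variable {F K : Type*} [Field F] [Field K] [DecidableEq K] [Algebra F K]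

/-- The two roots (in `A`) of the tangent cone polynomial `T² + a₁ T - a₂` at the node. -/
structure TangentRoots (A : ValuationSubring K) (W : Affine K) (α α' : K) : Prop where
  sum : α + α' = -W.a₁
  prod : α * α' = -W.a₂
  memα : α ∈ A
  memα' : α' ∈ A

namespace TangentRoots

variable {A : ValuationSubring K} {W : Affine K} {α α' : K}

theorem symm (R : TangentRoots A W α α') : TangentRoots A W α' α :=
  ⟨by rw [add_comm]; exact R.sum, by rw [mul_comm]; exact R.prod, R.memα', R.memα⟩

theorem sub_sq (R : TangentRoots A W α α') : (α - α') ^ 2 = W.b₂ := by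
  rw [WeierstrassCurve.b₂]
  linear_combination (α + α' - W.a₁) * R.sum - 4 * R.prod

theorem v_sub (R : TangentRoots A W α α') (H : NodeHypG A.valuation W) :
    A.valuation (α - α') = 1 := by
  have : A.valuation (α - α') ^ 2 = 1 := by rw [← map_pow, R.sub_sq, H.vb2]
  exact (pow_eq_one_iff_left two_ne_zero).mp this

/-- In the middle region, `y / x` is congruent to exactly one of the two roots. -/
theorem sign (R : TangentRoots A W α α') (H : NodeHypG A.valuation W) {x y : K}
    (h : W.Equation x y) (hM : A.valuation W.a₄ < A.valuation x) (h1 : A.valuation x < 1) :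
    A.valuation (y - α * x) < A.valuation x ∨ A.valuation (y - α' * x) < A.valuation x := by
  set v := A.valuation
  have e := (W.equation_iff x y).mp h
  rw [H.a3, H.a6] at e
  have hprod : (y - α * x) * (y - α' * x) = x * (x ^ 2 + W.a₄) := by
    linear_combination e - x * y * R.sum + x ^ 2 * R.prod
  have hx0 : 0 < v x := lt_of_le_of_lt zero_le hM
  have h2 : v (x ^ 2 + W.a₄) < v x := by
    apply v.map_add_lt _ hM
    rw [map_pow, sq]
    exact mul_lt_of_lt_one_left hx0 h1
  have h3 : v (y - α * x) * v (y - α' * x) < v x * v x := by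
    rw [← map_mul, hprod, map_mul]
    exact mul_lt_mul_of_pos_left h2 hx0
  by_contra hcon
  rw [not_or, not_lt, not_lt] at hcon
  exact absurd h3 (not_lt.mpr (mul_le_mul' hcon.1 hcon.2))

end TangentRoots

section inertia

variable {W : Affine F} {A : ValuationSubring K} {σ : K ≃ₐ[F] K}

/-- Middle region, with a given sign. -/
theorem nu_smul_sub_mid_aux (hσ : Asm.IsInertial A σ)
    (hval : ∀ x : K, A.valuation (σ x) = A.valuation x)
    (H : NodeHypG A.valuation (W⁄K)) {α α' : K} (R : TangentRoots A (W⁄K) α α')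
    {x y : K} (h : (W⁄K).Nonsingular x y) (h1 : A.valuation x < 1)
    (hsgn : A.valuation (y - α * x) < A.valuation x) :
    nu A.valuation (W⁄K) (σ • Point.some x y h - Point.some x y h) = 1 := by
  set v := A.valuation with hv
  have hx0 : x ≠ 0 := by
    intro h0
    rw [h0, map_zero] at hsgn
    exact not_lt_zero' hsgn
  have hσx0 : σ x ≠ 0 := by rwa [Ne, EmbeddingLike.map_eq_zero_iff]
  have hvx0 : 0 < v x := (Valuation.pos_iff _).mpr hx0
  -- `t = y / x` is congruent to `α`
  set t := y / x with ht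
  have htα : v (t - α) < 1 := by
    have : t - α = (y - α * x) / x := by rw [ht]; field_simp
    rw [this, map_div₀]
    exact (div_lt_one₀ hvx0).mpr hsgn
  have htαm : t - α ∈ A.nonunits := A.mem_nonunits_iff.mpr htα
  have htA : t ∈ A := by
    have := A.add_mem _ _ (A.nonunits_le htαm) R.memα
    rwa [sub_add_cancel] at this
  have hσt : σ t - t ∈ A.nonunits := hσ.sub_mem t htA
  have hσtα : v (σ t - α) < 1 := by
    have : σ t - α = (σ t - t) + (t - α) := by ring
    rw [this]
    exact v.map_add_lt (A.mem_nonunits_iff.mp hσt) htα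
  have hσy : v (σ y - α * σ x) < v (σ x) := by
    have : σ y - α * σ x = (σ t - α) * σ x := by
      rw [ht, map_div₀]; field_simp
    rw [this, map_mul]
    exact mul_lt_of_lt_one_left ((Valuation.pos_iff _).mpr hσx0) hσtα
  obtain ⟨h', e⟩ := Asm.smul_some σ x y h
  rw [e]
  by_cases hx : σ x = x
  · rcases Y_eq_of_X_eq h'.left h.left hx with hy | hy
    · have : Point.some (σ x) (σ y) h' = Point.some x y h := by
        simp only [Point.some.injEq]
        exact ⟨hx, hy⟩
      rw [this, sub_self, nu_zero]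
    · exfalso
      -- `σ t = -t - a₁`, so `σ t ≡ α'`, but also `σ t ≡ α`
      rw [negY, H.a3] at hy
      have h3 : σ t - α' = -(t - α) := by
        rw [ht, map_div₀, hy, hx]
        field_simp
        linear_combination (-x) * R.sum
      have h4 : v (σ t - α') < 1 := by rw [h3, v.map_neg]; exact htα
      have h5 : α - α' = (σ t - α') - (σ t - α) := by ring
      have h6 : v (α - α') < 1 := by
        rw [h5]
        exact v.map_sub_lt h4 hσtα
      rw [R.v_sub H] at h6
      exact lt_irrefl _ h6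
  · rw [sub_eq_add_neg, Point.neg_some, Point.add_of_X_ne hx, nu_some, slope_of_X_ne hx, addX,
      H.clamp_eq_one_iff]
    refine signed_core v R.sum R.prod (R.v_sub H) hx (hval x) h1 hσy ?_
    have : (W⁄K).negY x y - α' * x = -(y - α * x) := by
      rw [negY, H.a3]
      linear_combination (-x) * R.sum
    rw [this, v.map_neg]
    exact hsgn

/-- Middle region: `M < v x < 1`. -/
theorem nu_smul_sub_mid (hσ : Asm.IsInertial A σ)
    (hval : ∀ x : K, A.valuation (σ x) = A.valuation x)
    (H : NodeHypG A.valuation (W⁄K)) {α α' : K} (R : TangentRoots A (W⁄K) α α')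
    {x y : K} (h : (W⁄K).Nonsingular x y) (hM : A.valuation (W⁄K).a₄ < A.valuation x)
    (h1 : A.valuation x < 1) :
    nu A.valuation (W⁄K) (σ • Point.some x y h - Point.some x y h) = 1 := by
  rcases R.sign H h.left hM h1 with hs | hs
  · exact nu_smul_sub_mid_aux hσ hval H R h h1 hs
  · exact nu_smul_sub_mid_aux hσ hval H R.symm h h1 hs

end inertia

section general

variable {A : ValuationSubring K}

/-- An integral `x`-coordinate forces an integral `y`-coordinate. -/
theorem y_mem_of_x_mem {W' : Affine K} (hW : IntegralAt W' A) {x y : K} (h : W'.Equation x y)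
    (hx : x ∈ A) : y ∈ A := by
  set v := A.valuation
  by_contra hy
  rw [← A.valuation_le_one_iff, not_le] at hy
  have e := (W'.equation_iff x y).mp h
  have hx' : v x ≤ 1 := (A.valuation_le_one_iff x).mpr hx
  have h1 : v W'.a₁ ≤ 1 := (A.valuation_le_one_iff _).mpr hW.a₁
  have h2 : v W'.a₂ ≤ 1 := (A.valuation_le_one_iff _).mpr hW.a₂
  have h3 : v W'.a₃ ≤ 1 := (A.valuation_le_one_iff _).mpr hW.a₃
  have h4 : v W'.a₄ ≤ 1 := (A.valuation_le_one_iff _).mpr hW.a₄
  have h6 : v W'.a₆ ≤ 1 := (A.valuation_le_one_iff _).mpr hW.a₆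
  have hy0 : 0 < v y := lt_trans zero_lt_one hy
  have e' : y ^ 2 = x ^ 3 + W'.a₂ * x ^ 2 + W'.a₄ * x + W'.a₆ - (W'.a₁ * x + W'.a₃) * y := by
    linear_combination e
  have hR : v (x ^ 3 + W'.a₂ * x ^ 2 + W'.a₄ * x + W'.a₆) ≤ 1 := by
    refine v.map_add_le (v.map_add_le (v.map_add_le ?_ ?_) ?_) h6
    · rw [map_pow]; exact pow_le_one₀ zero_le hx'
    · rw [map_mul, map_pow]; exact Left.mul_le_one h2 (pow_le_one₀ zero_le hx')
    · rw [map_mul]; exact Left.mul_le_one h4 hx'
  have hL : v ((W'.a₁ * x + W'.a₃) * y) ≤ v y := by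
    rw [map_mul]
    refine mul_le_of_le_one_left' (v.map_add_le ?_ h3)
    rw [map_mul]; exact Left.mul_le_one h1 hx'
  have h5 : v (y ^ 2) ≤ v y := by
    rw [e']
    exact v.map_sub_le (hR.trans hy.le) hL
  have h7 : v y < v (y ^ 2) := by
    rw [map_pow, sq]
    exact lt_mul_of_one_lt_left hy0 hy
  exact absurd h5 (not_le.mpr h7)

/-- On a nodal curve (`a₃ = a₆ = 0`, `b₂` a unit, `a₄` a non-unit) an integral point whose
`x`-coordinate is a unit has nonsingular reduction. -/
theorem nonsing_of_unit {W' : Affine K} (H : NodeHypG A.valuation W') (hW : IntegralAt W' A)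
    {x y : K} (h : W'.Equation x y) (hx : A.valuation x = 1) :
    ¬ (W'.a₁ * y - (3 * x ^ 2 + 2 * W'.a₂ * x + W'.a₄) ∈ A.nonunits ∧
      2 * y + W'.a₁ * x + W'.a₃ ∈ A.nonunits) := by
  set v := A.valuation
  rintro ⟨hφ, hψ⟩
  rw [A.mem_nonunits_iff] at hφ hψ
  have h1 : v W'.a₁ ≤ 1 := (A.valuation_le_one_iff _).mpr hW.a₁
  have h2le : v (2 : K) ≤ 1 := NodeG.v_two_le_one
  have h4le : v (4 : K) ≤ 1 := NodeG.v_four_le_one
  set φ := W'.a₁ * y - (3 * x ^ 2 + 2 * W'.a₂ * x + W'.a₄) with hφdef
  set ψ := 2 * y + W'.a₁ * x + W'.a₃ with hψdef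
  -- `x (6x + b₂) = -(2φ - a₁ψ) - 2a₄ + a₁a₃`
  have e1 : x * (6 * x + W'.b₂) = -(2 * φ - W'.a₁ * ψ) - 2 * W'.a₄ := by
    rw [hφdef, hψdef, WeierstrassCurve.b₂, H.a3]; ring
  have hlt1 : v (x * (6 * x + W'.b₂)) < 1 := by
    rw [e1]
    refine v.map_sub_lt ?_ ?_
    · rw [v.map_neg]
      refine v.map_sub_lt ?_ ?_
      · rw [map_mul]; exact mul_lt_one_aux h2le hφ
      · rw [map_mul]; exact mul_lt_one_aux h1 hψ
    · rw [map_mul]; exact mul_lt_one_aux h2le H.b1
  have h6 : v (6 * x + W'.b₂) < 1 := by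
    rwa [map_mul, hx, one_mul] at hlt1
  -- `x² (4x + b₂) = ψ² - 4a₄x`
  have e2 : x ^ 2 * (4 * x + W'.b₂) = ψ ^ 2 - 4 * W'.a₄ * x := by
    have := twoDiv_eq_sq h
    rw [twoDiv, H.b4_eq, H.b6_eq] at this
    rw [hψdef]
    linear_combination this
  have hlt2 : v (x ^ 2 * (4 * x + W'.b₂)) < 1 := by
    rw [e2]
    refine v.map_sub_lt ?_ ?_
    · rw [map_pow, sq]; exact mul_lt_one_of_lt_of_le hψ hψ.le
    · rw [map_mul, map_mul, hx, mul_one]; exact mul_lt_one_aux h4le H.b1
  have h4 : v (4 * x + W'.b₂) < 1 := by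
    rwa [map_mul, map_pow, hx, one_pow, one_mul] at hlt2
  have h2x : v (2 * x) < 1 := by
    have : 2 * x = (6 * x + W'.b₂) - (4 * x + W'.b₂) := by ring
    rw [this]
    exact v.map_sub_lt h6 h4
  have h4x : v (4 * x) < 1 := by
    have : 4 * x = 2 * (2 * x) := by ring
    rw [this, map_mul]
    exact mul_lt_one_aux h2le h2x
  have hb : v W'.b₂ < 1 := by
    have : W'.b₂ = (4 * x + W'.b₂) - 4 * x := by ring
    rw [this]
    exact v.map_sub_lt h4 h4x
  rw [H.vb2] at hb
  exact lt_irrefl _ hb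

theorem inE1_of_not_mem {W' : Affine K} {x y : K} (h : W'.Nonsingular x y) (hx : x ∉ A) :
    Asm.InE1 A (Point.some x y h) := Or.inr ⟨x, y, h, rfl, hx⟩

theorem inE1_neg {W' : Affine K} {P : W'.Point} (hP : Asm.InE1 A P) : Asm.InE1 A (-P) := by
  rw [Asm.inE1_iff_sameRed] at hP ⊢
  exact SameRed.inE1_neg W' A hP

theorem nu_eq_one_of_inE1 {W' : Affine K} (H : NodeHypG A.valuation W') {P : W'.Point}
    (hP : Asm.InE1 A P) : nu A.valuation W' P = 1 := by
  rcases hP with rfl | ⟨x, y, h, rfl, hx⟩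
  · exact nu_zero _ _
  · rw [nu_some, H.clamp_eq_one_iff]
    rw [← A.valuation_le_one_iff, not_le] at hx
    exact hx.le

end general

section inertia2

variable {W : Affine F} {A : ValuationSubring K} {σ : K ≃ₐ[F] K}

/-- Region 1: a point with `nu = 1` is moved by inertia inside the kernel of reduction. -/
theorem inE1_smul_sub_of_nu_eq_one (hσ : Asm.IsInertial A σ)
    (H : NodeHypG A.valuation (W⁄K)) (hW : IntegralAt (W⁄K) A)
    {Q : (W⁄K).Point} (hQ : nu A.valuation (W⁄K) Q = 1) : Asm.InE1 A (σ • Q - Q) := by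
  rcases Q with _ | ⟨x, y, h⟩
  · left
    change σ • (0 : (W⁄K).Point) - 0 = 0
    rw [smul_zero, sub_zero]
  · rw [nu_some, H.clamp_eq_one_iff] at hQ
    obtain ⟨h', e⟩ := Asm.smul_some σ x y h
    rw [e]
    by_cases hx : x ∈ A
    · have hvx : A.valuation x = 1 := le_antisymm ((A.valuation_le_one_iff x).mpr hx) hQ
      have hy : y ∈ A := y_mem_of_x_mem hW h.left hx
      have hns := nonsing_of_unit H hW h.left hvx
      have key := SameRed.inE1_sub (W⁄K) A hW.a₁ hW.a₂ hW.a₃ h h' hx ((hσ.mem_iff x).mpr hx)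
        ((hσ.mem_iff y).mpr hy)
        (by
          have := A.nonunits.neg_mem (hσ.sub_mem x hx)
          rwa [neg_sub] at this)
        (by
          have := A.nonunits.neg_mem (hσ.sub_mem y hy)
          rwa [neg_sub] at this) hns
      rw [← Asm.inE1_iff_sameRed] at key
      have := inE1_neg key
      rwa [neg_sub] at this
    · rw [sub_eq_add_neg]
      refine KernelGeneral.inE1_add A hW _ _ (inE1_of_not_mem h' ?_)
        (inE1_neg (inE1_of_not_mem h hx))
      rwa [hσ.mem_iff]

/-- **D-i**: for every point `P` and every inertial `σ`, `σ P - P` is `0` or has `1 ≤ v x`. -/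
theorem nu_smul_sub_eq_one (hσ : Asm.IsInertial A σ)
    (hval : ∀ x : K, A.valuation (σ x) = A.valuation x)
    (H : NodeHypG A.valuation (W⁄K)) (hW : IntegralAt (W⁄K) A)
    {α α' : K} (R : TangentRoots A (W⁄K) α α') (P : (W⁄K).Point) :
    nu A.valuation (W⁄K) (σ • P - P) = 1 := by
  rcases le_or_gt 1 (nu A.valuation (W⁄K) P) with h1 | h1
  · exact nu_eq_one_of_inE1 H
      (inE1_smul_sub_of_nu_eq_one hσ H hW (le_antisymm (H.nu_le_one P) h1))
  rcases P with _ | ⟨x, y, h⟩
  · exact absurd h1 (lt_irrefl _)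
  rw [nu_some] at h1
  have hx1 : A.valuation x < 1 := by
    by_contra hcon
    rw [not_lt] at hcon
    rw [clamp_of_one_le H.b1.le hcon] at h1
    exact lt_irrefl _ h1
  rcases le_or_gt (A.valuation x) (A.valuation (W⁄K).a₄) with hxM | hxM
  · -- translate by `(0, 0)`
    have h00 : (W⁄K).Nonsingular 0 0 := by
      rw [nonsingular_zero]
      exact ⟨H.a6, Or.inr H.b0⟩
    set T0 : (W⁄K).Point := Point.some 0 0 h00 with hT0
    have hσT0 : σ • T0 = T0 := by
      obtain ⟨h', e⟩ := Asm.smul_some σ 0 0 h00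
      rw [hT0, e]
      simp only [Point.some.injEq]
      exact ⟨map_zero σ, map_zero σ⟩
    have e1 : nu A.valuation (W⁄K) (Point.some x y h) = A.valuation (W⁄K).a₄ := by
      rw [nu_some]; exact clamp_of_le H.b1.le hxM
    have e2 : nu A.valuation (W⁄K) T0 = A.valuation (W⁄K).a₄ := by
      rw [hT0, nu_some, map_zero]; exact clamp_of_le H.b1.le zero_le
    have e3 := (H.nu_add_eq_one_of_eq_M e1 e2).1
    have e4 := inE1_smul_sub_of_nu_eq_one hσ H hW e3
    have e5 : σ • (Point.some x y h + T0) - (Point.some x y h + T0) =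
        σ • Point.some x y h - Point.some x y h := by
      rw [smul_add, hσT0]; abel
    rw [e5] at e4
    exact nu_eq_one_of_inE1 H e4
  · exact nu_smul_sub_mid hσ hval H R h hxM hx1

end inertia2

end Fermat.Agent.S13.NodeInertia
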