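import Mathlib
import Fermat.Agent.S13.NodeInertia
import Fermat.Agent.S05.Arith
import Fermat.Agent.S05.GoodBad

/-!
# S13 / block D: the Frey curve at a place over `2`

Instantiation of the nodal-curve machinery (`NodeG`, `NodeInertia`) for the model
`y² + xy = x³ + a₂ x² + a₄ x` of the Frey curve at a valuation subring of `ℚ̄` lying over `2`,
and the consequence **D-iii**: inertia at `2` acts unipotently on `E[p]`, hence trivially on a
stable line and on the quotient by it.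
-/

set_option autoImplicit false
set_option linter.unusedSectionVars false

namespace Fermat.Agent.S13.FreyTwo

open WeierstrassCurve WeierstrassCurve.Affine WeierstrassCurve.Affine.Point
open Fermat.Agent.S05 Fermat.Agent.S13.NodeG Fermat.Agent.S13.NodeInertia

local notation "Qbar" => AlgebraicClosure ℚ

/-! ### Arithmetic of the coefficients -/

section Arithmetic

variable (P : FreyPackage)

theorem two_dvd_b : (2 : ℤ) ∣ P.b := (ZMod.intCast_zmod_eq_zero_iff_dvd P.b 2).1 P.hb2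

theorem a_pow_mod_four : ((P.a ^ P.p : ℤ) : ZMod 4) = 3 := by
  obtain ⟨m, hm⟩ := P.hp_odd
  rw [Int.cast_pow, P.ha4, hm, pow_succ, pow_mul]
  have : (3 : ZMod 4) ^ 2 = 1 := by decide
  rw [this, one_pow, one_mul]

theorem b_pow_mod_four : ((P.b ^ P.p : ℤ) : ZMod 4) = 0 := by
  obtain ⟨b', hb'⟩ := two_dvd_b P
  have h2 : 2 ≤ P.p := by have := P.hp5; omega
  obtain ⟨k, hk⟩ := Nat.exists_eq_add_of_le h2
  rw [ZMod.intCast_zmod_eq_zero_iff_dvd]
  rw [hb', mul_pow, hk, pow_add]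
  exact Dvd.dvd.mul_right (Dvd.dvd.mul_right (by norm_num) _) _

/-- `a₂` of the Frey curve is an integer. -/
theorem exists_a₂ : ∃ n : ℤ, P.freyCurve.a₂ = (n : ℚ) := by
  have h4 : (4 : ℤ) ∣ P.b ^ P.p - 1 - P.a ^ P.p := by
    have : ((4 : ℕ) : ℤ) ∣ P.b ^ P.p - 1 - P.a ^ P.p := by
      rw [← ZMod.intCast_zmod_eq_zero_iff_dvd]
      push_cast
      have ha := a_pow_mod_four P
      have hb := b_pow_mod_four P
      push_cast at ha hb
      rw [ha, hb]
      decide
    simpa using this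
  obtain ⟨n, hn⟩ := h4
  refine ⟨n, ?_⟩
  simp only [FreyPackage.freyCurve]
  have : ((P.b : ℚ) ^ P.p - 1 - (P.a : ℚ) ^ P.p) = 4 * (n : ℚ) := by exact_mod_cast hn
  rw [this]
  ring

/-- `a₄` of the Frey curve is a nonzero even integer. -/
theorem exists_a₄ : ∃ n : ℤ, n ≠ 0 ∧ P.freyCurve.a₄ = ((2 * n : ℤ) : ℚ) := by
  obtain ⟨b', hb'⟩ := two_dvd_b P
  have h5 : 5 ≤ P.p := P.hp5
  obtain ⟨k, hk⟩ := Nat.exists_eq_add_of_le h5
  have hb'0 : b' ≠ 0 := by
    rintro rfl
    exact P.hb0 (by rw [hb', mul_zero])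
  refine ⟨-(P.a ^ P.p) * (2 ^ k * b' ^ P.p), ?_, ?_⟩
  · exact mul_ne_zero (neg_ne_zero.mpr (pow_ne_zero _ P.ha0))
      (mul_ne_zero (pow_ne_zero _ two_ne_zero) (pow_ne_zero _ hb'0))
  · simp only [FreyPackage.freyCurve]
    have hbq : (P.b : ℚ) = 2 * (b' : ℚ) := by exact_mod_cast hb'
    rw [hbq]
    have key : ∀ m : ℕ, m = 5 + k → -((P.a : ℚ) ^ m) * ((2 * (b' : ℚ)) ^ m) / 16 =
        ((2 * (-(P.a ^ m) * (2 ^ k * b' ^ m)) : ℤ) : ℚ) := by
      rintro m rfl
      push_cast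
      ring
    exact key P.p hk

/-- `b₂` of the Frey curve is `b ^ p - a ^ p`, an odd integer. -/
theorem b₂_eq : P.freyCurve.b₂ = ((P.b ^ P.p - P.a ^ P.p : ℤ) : ℚ) := by
  simp only [WeierstrassCurve.b₂, FreyPackage.freyCurve]
  push_cast
  ring

theorem not_two_dvd_b₂ : ¬ (2 : ℤ) ∣ P.b ^ P.p - P.a ^ P.p := by
  intro h
  have hb : (2 : ℤ) ∣ P.b ^ P.p := Dvd.dvd.pow (two_dvd_b P) P.hp0
  have ha : (2 : ℤ) ∣ P.a ^ P.p := by
    have := dvd_sub hb h
    rwa [sub_sub_cancel] at this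
  have ha' : (2 : ℤ) ∣ P.a := Int.prime_two.dvd_of_dvd_pow ha
  have h1 : (2 : ℤ) ∣ gcd P.a P.b := dvd_gcd ha' (two_dvd_b P)
  rw [P.hgcdab] at h1
  exact Int.prime_two.not_isUnit (isUnit_of_dvd_one h1)

end Arithmetic

/-! ### The local hypotheses at a place over `2` -/

section Local

variable (P : FreyPackage) (A : ValuationSubring Qbar)

theorem map_intCast (n : ℤ) : algebraMap ℚ Qbar ((n : ℤ) : ℚ) = (n : Qbar) := by
  simp

theorem frey_a₁ : (P.freyCurve.toAffine⁄Qbar).a₁ = 1 := by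
  simp [FreyPackage.freyCurve, WeierstrassCurve.baseChange, WeierstrassCurve.map]

theorem frey_a₃ : (P.freyCurve.toAffine⁄Qbar).a₃ = 0 := by
  simp [FreyPackage.freyCurve, WeierstrassCurve.baseChange, WeierstrassCurve.map]

theorem frey_a₆ : (P.freyCurve.toAffine⁄Qbar).a₆ = 0 := by
  simp [FreyPackage.freyCurve, WeierstrassCurve.baseChange, WeierstrassCurve.map]

theorem frey_a₂ : (P.freyCurve.toAffine⁄Qbar).a₂ = algebraMap ℚ Qbar P.freyCurve.a₂ := rfl

theorem frey_a₄ : (P.freyCurve.toAffine⁄Qbar).a₄ = algebraMap ℚ Qbar P.freyCurve.a₄ := rfl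

theorem frey_b₂ : (P.freyCurve.toAffine⁄Qbar).b₂ = algebraMap ℚ Qbar P.freyCurve.b₂ := by
  change (P.freyCurve.map (algebraMap ℚ Qbar)).b₂ = _
  rw [WeierstrassCurve.map_b₂]

/-- The Frey curve has `A`-integral coefficients at every place (here: used over `2`). -/
theorem integralAt_frey : IntegralAt (P.freyCurve.toAffine⁄Qbar) A := by
  obtain ⟨n2, hn2⟩ := exists_a₂ P
  obtain ⟨n4, -, hn4⟩ := exists_a₄ P
  refine ⟨?_, ?_, ?_, ?_, ?_⟩
  · rw [frey_a₁]; exact A.one_mem
  · rw [frey_a₂, hn2, map_intCast]; exact intCast_mem A n2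
  · rw [frey_a₃]; exact A.zero_mem
  · rw [frey_a₄, hn4, map_intCast]; exact intCast_mem A _
  · rw [frey_a₆]; exact A.zero_mem

variable {A}

/-- The node hypotheses hold for the Frey curve at a place over `2`. -/
theorem nodeHyp_frey (hA : A.LiesOverPrime 2) :
    NodeHypG A.valuation (P.freyCurve.toAffine⁄Qbar) := by
  obtain ⟨n4, hn40, hn4⟩ := exists_a₄ P
  refine ⟨frey_a₃ P, frey_a₆ P, ?_, ?_, ?_⟩
  · rw [frey_b₂, b₂_eq, map_intCast]
    exact Arith.valuation_intCast_eq_one A Nat.prime_two hA (by exact_mod_cast not_two_dvd_b₂ P)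
  · rw [frey_a₄, hn4, map_intCast]
    have : (2 * n4 : ℤ) ≠ 0 := mul_ne_zero two_ne_zero hn40
    exact_mod_cast this
  · rw [frey_a₄, hn4, map_intCast]
    push_cast
    rw [map_mul]
    have h2 : A.valuation (2 : Qbar) < 1 := by
      have := (Arith.liesOverPrime_iff A 2).mp hA
      simpa using this
    exact mul_lt_one_of_lt_of_le h2 (Arith.valuation_intCast_le_one A n4)

/-- The two tangent directions at the node. -/
theorem exists_tangentRoots :
    ∃ α α' : Qbar, TangentRoots A (P.freyCurve.toAffine⁄Qbar) α α' := by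
  set W := (P.freyCurve.toAffine⁄Qbar) with hW
  have hInt := integralAt_frey P A
  obtain ⟨s, hs⟩ := IsAlgClosed.exists_pow_nat_eq W.b₂ (n := 2) (by norm_num)
  have h2 : (2 : Qbar) ≠ 0 := two_ne_zero
  have hroot : ∀ t : Qbar, t ^ 2 + W.a₁ * t - W.a₂ = 0 → t ∈ A := by
    intro t ht
    by_contra htA
    rw [← A.valuation_le_one_iff, not_le] at htA
    have h1 : A.valuation W.a₁ ≤ 1 := (A.valuation_le_one_iff _).mpr hInt.a₁
    have h2 : A.valuation W.a₂ ≤ 1 := (A.valuation_le_one_iff _).mpr hInt.a₂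
    have e : t ^ 2 = W.a₂ - W.a₁ * t := by linear_combination ht
    have h3 : A.valuation (t ^ 2) ≤ A.valuation t := by
      rw [e]
      refine Valuation.map_sub_le _ (h2.trans htA.le) ?_
      rw [map_mul]
      exact mul_le_of_le_one_left' h1
    have h4 : A.valuation t < A.valuation (t ^ 2) := by
      rw [map_pow, sq]
      exact lt_mul_of_one_lt_left (lt_trans zero_lt_one htA) htA
    exact absurd h3 (not_le.mpr h4)
  have hb2 : W.b₂ = W.a₁ ^ 2 + 4 * W.a₂ := rfl
  refine ⟨(-W.a₁ + s) / 2, (-W.a₁ - s) / 2, ?_, ?_, ?_, ?_⟩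
  · field_simp; ring
  · field_simp
    linear_combination (-1 : Qbar) * hs - hb2
  · apply hroot
    field_simp
    linear_combination hs + hb2
  · apply hroot
    field_simp
    linear_combination hs + hb2

/-- Inertia elements preserve the valuation. -/
theorem valuation_apply_eq_of_mem {σ : Qbar ≃ₐ[ℚ] Qbar} (hσ : σ ∈ A.inertiaSubgroupIn ℚ)
    (x : Qbar) : A.valuation (σ x) = A.valuation x :=
  ValAux.valuation_apply_eq A (Asm.isInertial_of_mem A hσ).mem_iff
    ((AlgebraicClosure.isAlgebraic ℚ).isAlgebraic x)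

/-- **D-i for the Frey curve**: inertia at `2` moves every point inside `E₀`. -/
theorem nu_smul_sub_eq_one (hA : A.LiesOverPrime 2) {σ : Qbar ≃ₐ[ℚ] Qbar}
    (hσ : σ ∈ A.inertiaSubgroupIn ℚ) (X : (P.freyCurve.toAffine⁄Qbar).Point) :
    nu A.valuation (P.freyCurve.toAffine⁄Qbar) (σ • X - X) = 1 := by
  obtain ⟨α, α', R⟩ := exists_tangentRoots P (A := A)
  exact NodeInertia.nu_smul_sub_eq_one (Asm.isInertial_of_mem A hσ)
    (valuation_apply_eq_of_mem hσ) (nodeHyp_frey P hA) (integralAt_frey P A) R X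

/-- Inertia at `2` acts unipotently on the torsion prime to the kernel of reduction: if the
kernel of reduction has no `n`-torsion then `(σ - 1)² = 0` on `E[n]`. -/
theorem smul_smul_sub_eq (hA : A.LiesOverPrime 2) {σ : Qbar ≃ₐ[ℚ] Qbar}
    (hσ : σ ∈ A.inertiaSubgroupIn ℚ) {n : ℕ}
    (hker : ∀ R : (P.freyCurve.toAffine⁄Qbar).Point, Asm.InE1 A R → n • R = 0 → R = 0)
    (X : (P.freyCurve.toAffine⁄Qbar).Point) (hX : n • X = 0) :
    σ • (σ • X - X) = σ • X - X := by
  have h1 := nu_smul_sub_eq_one P hA hσ X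
  have h2 := inE1_smul_sub_of_nu_eq_one (Asm.isInertial_of_mem A hσ) (nodeHyp_frey P hA)
    (integralAt_frey P A) h1
  have h3 : n • (σ • X - X) = 0 := by
    rw [nsmul_sub, ← Asm.smul_nsmul_point, hX, smul_zero, sub_zero]
  have h4 : n • (σ • (σ • X - X) - (σ • X - X)) = 0 := by
    rw [nsmul_sub, ← Asm.smul_nsmul_point, h3, smul_zero, sub_zero]
  exact sub_eq_zero.mp (hker _ h2 h4)

end Local

end Fermat.Agent.S13.FreyTwo
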