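import Mathlib
import Fermat.Agent.S13.FreyTwo
import Fermat.Agent.S13.Count
import Fermat.Agent.S54.Frobenius

/-!
# S13 / block Bp-ii: `E[p]` is not contained in the kernel of reduction at `p` when a
Galois-stable line exists

The argument (replacing formal groups): `f := preΨ'_p` has integer coefficients, leading
coefficient `p` and degree `(p² - 1) / 2`; its roots are the `x`-coordinates of the nonzero
`p`-torsion points.  If all of `E[p]` were in the kernel of reduction at a place `A` over `p`, all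
roots `r` would satisfy `v r > 1`, while `v p * ∏ v r = v (f 0) ≤ 1`.  But the product `z` of the
`x`-coordinates of the nonzero points of a stable line (each taken once) is rational with
`v z > 1`, hence `v z ≥ (v p)⁻¹`, and there are more roots than that.
-/

set_option autoImplicit false
set_option linter.unusedSectionVars false

namespace Fermat.Agent.S13.PsiProduct

open WeierstrassCurve WeierstrassCurve.Affine WeierstrassCurve.Affine.Point Polynomial
open Fermat.Agent.S05

local notation "Qbar" => AlgebraicClosure ℚ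
local notation "Γ" => (Qbar ≃ₐ[ℚ] Qbar)

/-! ### Ordered-group lemmas on multisets -/

section Multiset

variable {Γ₀ : Type*} [LinearOrderedCommGroupWithZero Γ₀]

theorem one_le_prod_of_one_lt (s : Multiset Γ₀) (h : ∀ a ∈ s, 1 < a) : 1 ≤ s.prod := by
  induction s using Multiset.induction with
  | empty => simp
  | cons a s ih =>
    rw [Multiset.prod_cons]
    have h1 : 1 < a := h a (Multiset.mem_cons_self a s)
    have h2 : 1 ≤ s.prod := ih fun b hb => h b (Multiset.mem_cons_of_mem hb)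
    exact one_le_mul_of_one_le_of_one_le h1.le h2

theorem one_lt_prod_of_one_lt (s : Multiset Γ₀) (hs : s ≠ 0) (h : ∀ a ∈ s, 1 < a) :
    1 < s.prod := by
  obtain ⟨a, ha⟩ := Multiset.exists_mem_of_ne_zero hs
  obtain ⟨t, rfl⟩ := Multiset.exists_cons_of_mem ha
  rw [Multiset.prod_cons]
  have h1 : 1 < a := h a (Multiset.mem_cons_self a t)
  have h2 : 1 ≤ t.prod := one_le_prod_of_one_lt t fun b hb => h b (Multiset.mem_cons_of_mem hb)
  calc 1 < a := h1
    _ = a * 1 := (mul_one a).symm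
    _ ≤ a * t.prod := by gcongr

end Multiset

/-! ### The root-product contradiction, generic form -/

section Generic

variable {K : Type*} [Field K] [IsAlgClosed K] [DecidableEq K]
  {Γ₀ : Type*} [LinearOrderedCommGroupWithZero Γ₀]

/-- If all roots of `f` have valuation `> 1`, the finite set `R0` of roots has fewer elements
than the degree of `f`, and `(v lc)⁻¹ ≤ v (∏ R0)`, then `1 < v (f 0)`. -/
theorem one_lt_v_eval_zero (v : Valuation K Γ₀) (f : K[X]) (hf : f ≠ 0)
    (hroots : ∀ r ∈ f.roots, 1 < v r) (R0 : Finset K) (hR0 : ∀ r ∈ R0, r ∈ f.roots)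
    (hcard : R0.card < f.natDegree)
    (hz : (v f.leadingCoeff)⁻¹ ≤ v (∏ r ∈ R0, r)) : 1 < v (f.eval 0) := by
  have hsplit := IsAlgClosed.splits f
  have hlc0 : f.leadingCoeff ≠ 0 := leadingCoeff_ne_zero.mpr hf
  have hvlc : 0 < v f.leadingCoeff := (Valuation.pos_iff _).mpr hlc0
  have heval : v (f.eval 0) = v f.leadingCoeff * (f.roots.map v).prod := by
    rw [hsplit.eval_eq_prod_roots, map_mul, map_multiset_prod, Multiset.map_map]
    congr 2
    apply Multiset.map_congr rfl
    intro r _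
    simp
  have hle : R0.val ≤ f.roots := by
    rw [Finset.val_le_iff_val_subset]
    intro r hr
    exact hR0 r (Finset.mem_val.mp hr)
  set rest := f.roots - R0.val with hrest
  have hdecomp : f.roots = R0.val + rest := (add_tsub_cancel_of_le hle).symm
  have hrest0 : rest ≠ 0 := by
    intro h0
    have h1 : f.roots.card = R0.card := by
      rw [hdecomp, h0, add_zero]; rfl
    rw [← hsplit.natDegree_eq_card_roots] at h1
    omega
  have hrest1 : ∀ a ∈ rest.map v, 1 < a := by
    intro a ha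
    obtain ⟨r, hr, rfl⟩ := Multiset.mem_map.mp ha
    exact hroots r (Multiset.mem_of_le (Multiset.sub_le_self _ _) hr)
  have h1 : 1 < (rest.map v).prod :=
    one_lt_prod_of_one_lt _ (by simpa using hrest0) hrest1
  have h2 : (f.roots.map v).prod = v (∏ r ∈ R0, r) * (rest.map v).prod := by
    rw [hdecomp, Multiset.map_add, Multiset.prod_add, map_prod]
    rfl
  rw [heval, h2]
  have hz0 : 0 < v (∏ r ∈ R0, r) := lt_of_lt_of_le (inv_pos.mpr hvlc) hz
  calc 1 = v f.leadingCoeff * (v f.leadingCoeff)⁻¹ := (mul_inv_cancel₀ hvlc.ne').symm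
    _ ≤ v f.leadingCoeff * v (∏ r ∈ R0, r) := by gcongr
    _ = v f.leadingCoeff * (v (∏ r ∈ R0, r) * 1) := by rw [mul_one]
    _ < v f.leadingCoeff * (v (∏ r ∈ R0, r) * (rest.map v).prod) := by
      apply mul_lt_mul_of_pos_left _ hvlc
      exact mul_lt_mul_of_pos_left h1 hz0

end Generic

/-! ### Rational numbers and valuations over `p` -/

section Rational

local instance isAlgebraicQbar_PsiProduct : Algebra.IsAlgebraic ℚ (AlgebraicClosure ℚ) :=
  AlgebraicClosure.isAlgebraic ℚ
local instance isAlgClosureQbar_PsiProduct : IsAlgClosure ℚ (AlgebraicClosure ℚ) :=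
  ⟨inferInstance, inferInstance⟩
local instance normalQbar_PsiProduct : Normal ℚ (AlgebraicClosure ℚ) :=
  IsAlgClosure.normal ℚ (AlgebraicClosure ℚ)

/-- An element of `ℚ̄` fixed by the whole Galois group is rational. -/
theorem exists_rat_of_fixed {z : Qbar} (hz : ∀ σ : Γ, σ z = z) :
    ∃ r : ℚ, algebraMap ℚ Qbar r = z :=
  (InfiniteGalois.mem_range_algebraMap_iff_fixed z).mpr hz

variable (A : ValuationSubring Qbar) {p : ℕ} (hp : p.Prime) (hA : A.LiesOverPrime p)
include hp hA

theorem exists_pow_of_int {m : ℤ} (hm : m ≠ 0) :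
    ∃ i : ℕ, A.valuation (m : Qbar) = A.valuation (p : Qbar) ^ i := by
  have hfin : FiniteMultiplicity (p : ℤ) m :=
    Int.finiteMultiplicity_iff.mpr ⟨by simpa using hp.ne_one, hm⟩
  obtain ⟨c, hc, hpc⟩ := hfin.exists_eq_pow_mul_and_not_dvd
  refine ⟨multiplicity (p : ℤ) m, ?_⟩
  have hcast : (m : Qbar) = (p : Qbar) ^ multiplicity (p : ℤ) m * (c : Qbar) := by
    conv_lhs => rw [hc]
    push_cast
    ring
  rw [hcast, map_mul, map_pow, Arith.valuation_intCast_eq_one A hp hA hpc, mul_one]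

/-- The valuation of a nonzero rational number is an integral power of the valuation of `p`. -/
theorem exists_zpow_of_rat {r : ℚ} (hr : r ≠ 0) :
    ∃ k : ℤ, A.valuation (algebraMap ℚ Qbar r) = A.valuation (p : Qbar) ^ k := by
  have hnum : r.num ≠ 0 := Rat.num_ne_zero.mpr hr
  have hden : (r.den : ℤ) ≠ 0 := by exact_mod_cast r.den_ne_zero
  obtain ⟨i, hi⟩ := exists_pow_of_int A hp hA hnum
  obtain ⟨j, hj⟩ := exists_pow_of_int A hp hA hden
  refine ⟨(i : ℤ) - j, ?_⟩
  have hpv : A.valuation (p : Qbar) ≠ 0 := by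
    rw [Valuation.ne_zero_iff]
    exact_mod_cast hp.ne_zero
  have e : algebraMap ℚ Qbar r = (r.num : Qbar) / ((r.den : ℤ) : Qbar) := by
    conv_lhs => rw [← Rat.num_div_den r]
    rw [map_div₀, map_intCast, map_natCast]
    push_cast
    rfl
  rw [e, map_div₀, hi, hj, zpow_sub₀ hpv, zpow_natCast, zpow_natCast]

/-- A rational number of valuation `> 1` has valuation at least `(v p)⁻¹`. -/
theorem inv_le_of_one_lt {r : ℚ} (h : 1 < A.valuation (algebraMap ℚ Qbar r)) :
    (A.valuation (p : Qbar))⁻¹ ≤ A.valuation (algebraMap ℚ Qbar r) := by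
  have hr : r ≠ 0 := by
    rintro rfl
    rw [_root_.map_zero, _root_.map_zero] at h
    exact not_lt_zero' h
  obtain ⟨k, hk⟩ := exists_zpow_of_rat A hp hA hr
  have hpv0 : 0 < A.valuation (p : Qbar) := by
    rw [Valuation.pos_iff]
    exact_mod_cast hp.ne_zero
  have hpv1 : A.valuation (p : Qbar) < 1 := (Arith.liesOverPrime_iff A p).mp hA
  rw [hk] at h ⊢
  have hk0 : k < 0 := by
    by_contra hcon
    rw [not_lt] at hcon
    have : A.valuation (p : Qbar) ^ k ≤ 1 := by
      obtain ⟨n, rfl⟩ := Int.eq_ofNat_of_zero_le hcon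
      rw [zpow_natCast]
      exact pow_le_one₀ hpv0.le hpv1.le
    exact absurd h (not_lt.mpr this)
  have hk1 : 0 ≤ -k - 1 := by omega
  obtain ⟨n, hn⟩ := Int.eq_ofNat_of_zero_le hk1
  have hkn : k = -1 - (n : ℤ) := by omega
  rw [hkn, zpow_sub₀ hpv0.ne', zpow_neg_one, zpow_natCast]
  have h1 : A.valuation (p : Qbar) ^ n ≤ 1 := pow_le_one₀ hpv0.le hpv1.le
  have h2 : 0 < A.valuation (p : Qbar) ^ n := pow_pos hpv0 n
  rw [le_div_iff₀ h2]
  calc (A.valuation (p : Qbar))⁻¹ * A.valuation (p : Qbar) ^ n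
      ≤ (A.valuation (p : Qbar))⁻¹ * 1 := by gcongr
    _ = (A.valuation (p : Qbar))⁻¹ := mul_one _

end Rational

/-! ### The Frey curve -/

section Frey

variable (P : FreyPackage)

/-- The discriminant of the Frey curve. -/
theorem frey_Δ : P.freyCurve.Δ =
    ((P.a : ℚ) ^ P.p * (P.b : ℚ) ^ P.p * (P.c : ℚ) ^ P.p) ^ 2 / 256 := by
  have hc : (P.c : ℚ) ^ P.p = (P.a : ℚ) ^ P.p + (P.b : ℚ) ^ P.p := by
    exact_mod_cast P.hFLT.symm
  simp only [WeierstrassCurve.Δ, WeierstrassCurve.b₂, WeierstrassCurve.b₄, WeierstrassCurve.b₆,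
    WeierstrassCurve.b₈, FreyPackage.freyCurve]
  rw [hc]
  ring

theorem frey_Δ_ne_zero : P.freyCurve.Δ ≠ 0 := by
  rw [frey_Δ]
  have ha : (P.a : ℚ) ≠ 0 := by exact_mod_cast P.ha0
  have hb : (P.b : ℚ) ≠ 0 := by exact_mod_cast P.hb0
  have hc : (P.c : ℚ) ≠ 0 := by exact_mod_cast P.hc0
  positivity

theorem frey_Δ_ne_zero_Qbar : (P.freyCurve.toAffine⁄Qbar).Δ ≠ 0 := by
  change (P.freyCurve.map (algebraMap ℚ Qbar)).Δ ≠ 0
  rw [WeierstrassCurve.map_Δ]
  exact (map_ne_zero_iff _ (algebraMap ℚ Qbar).injective).mpr (frey_Δ_ne_zero P)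

/-- The Frey curve over `ℚ̄` is the base change of a Weierstrass curve over `ℤ`. -/
theorem exists_int_model :
    ∃ WZ : WeierstrassCurve ℤ, (P.freyCurve.toAffine⁄Qbar) = WZ.map (Int.castRingHom Qbar) := by
  obtain ⟨n2, hn2⟩ := FreyTwo.exists_a₂ P
  obtain ⟨n4, -, hn4⟩ := FreyTwo.exists_a₄ P
  refine ⟨⟨1, n2, 0, 2 * n4, 0⟩, ?_⟩
  ext
  · rw [FreyTwo.frey_a₁]; simp
  · rw [FreyTwo.frey_a₂, hn2]; simp
  · rw [FreyTwo.frey_a₃]; simp
  · rw [FreyTwo.frey_a₄, hn4]; simp
  · rw [FreyTwo.frey_a₆]; simp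

/-- The constant coefficient of the `p`-th division polynomial of the Frey curve is integral. -/
theorem eval_zero_mem (A : ValuationSubring Qbar) (n : ℕ) :
    ((P.freyCurve.toAffine⁄Qbar).preΨ' n).eval 0 ∈ A := by
  obtain ⟨WZ, hWZ⟩ := exists_int_model P
  rw [hWZ, WeierstrassCurve.map_preΨ', Polynomial.eval_zero_map]
  exact intCast_mem A _

theorem xc_smul {W : Affine ℚ} (σ : Γ) (X : (W⁄Qbar).Point) : xc (σ • X) = σ (xc X) := by
  rcases X with _ | ⟨x, y, h⟩
  · exact (map_zero σ).symm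
  · rfl

/-- **Bp-ii**: if there is a Galois-stable subgroup `N0 ≠ 0` of `E[p]` with at most `p` elements,
then at every place `A` over `p` some `p`-torsion point lies outside the kernel of reduction.
Block (A) enters as the hypothesis `hA`. -/
theorem exists_not_inE1
    (hA : ∀ (x y : Qbar) (h : (P.freyCurve.toAffine⁄Qbar).Nonsingular x y),
      P.p • Point.some x y h = 0 ↔ ((P.freyCurve.toAffine⁄Qbar).preΨ' P.p).eval x = 0)
    (A : ValuationSubring Qbar) (hAp : A.LiesOverPrime P.p)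
    (N0 : Submodule (ZMod P.p) (Submodule.torsionBy ℤ (P.freyCurve.toAffine⁄Qbar).Point P.p))
    (hstab : IsGaloisStable ℚ N0) (h0 : N0 ≠ ⊥) (hcardN : Nat.card N0 ≤ P.p) :
    ∃ x : Submodule.torsionBy ℤ (P.freyCurve.toAffine⁄Qbar).Point P.p,
      ¬ Asm.InE1 A (x : (P.freyCurve.toAffine⁄Qbar).Point) := by
  by_contra hcon
  push_neg at hcon
  set W := (P.freyCurve.toAffine⁄Qbar) with hW
  set f := W.preΨ' P.p with hf
  set v := A.valuation with hv
  have hpK : (P.p : Qbar) ≠ 0 := by exact_mod_cast P.hp0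
  have hp2 : P.p ≠ 2 := by have := P.hp5; omega
  have hf0 : f ≠ 0 := W.preΨ'_ne_zero hpK
  have hnotEven : ¬ Even P.p := Nat.not_even_iff_odd.mpr P.hp_odd
  have hlc : f.leadingCoeff = (P.p : Qbar) := by
    rw [hf, W.leadingCoeff_preΨ' hpK, if_neg hnotEven]
  have hdeg : 2 * f.natDegree + 1 = P.p ^ 2 := Count.natDegree_preΨ'_odd_prime P.pp hp2 hpK
  have hfin : Finite (Submodule.torsionBy ℤ W.Point P.p) :=
    Count.finite_torsionBy hpK fun x y h => (hA x y h).mp
  have hmemV : ∀ X : W.Point, P.p • X = 0 → X ∈ Submodule.torsionBy ℤ W.Point P.p :=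
    fun X hX => (Count.mem_torsionBy_iff_nsmul P.p X).mpr hX
  have hVtors : ∀ X : Submodule.torsionBy ℤ W.Point P.p, P.p • (X : W.Point) = 0 :=
    fun X => (Count.mem_torsionBy_iff_nsmul P.p _).mp X.2
  -- all roots have valuation `> 1`
  have hroots : ∀ r ∈ f.roots, 1 < v r := by
    intro r hr
    have hr0 : f.eval r = 0 := (mem_roots hf0).mp hr
    obtain ⟨y, hy⟩ := Count.exists_equation W r
    have hns : W.Nonsingular r y :=
      (W.equation_iff_nonsingular_of_Δ_ne_zero (frey_Δ_ne_zero_Qbar P)).mp hy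
    have hX : P.p • Point.some r y hns = 0 := (hA r y hns).mpr hr0
    rcases hcon ⟨_, hmemV _ hX⟩ with h | ⟨x', y', h', e, hx'⟩
    · exact absurd h (Point.some_ne_zero hns)
    · have := (Point.some.injEq ..).mp e
      rw [this.1, ← A.valuation_le_one_iff, not_le] at *
      exact hx'
  -- the `x`-coordinates of the nonzero points of `N0`
  haveI : Fintype N0 := Fintype.ofFinite N0
  set R0 : Finset Qbar := (Finset.univ.filter fun Q : N0 =>
    (Q : Submodule.torsionBy ℤ W.Point P.p) ≠ 0).image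
      (fun Q : N0 => xc ((Q : Submodule.torsionBy ℤ W.Point P.p) : W.Point)) with hR0def
  have hmemR0 : ∀ r, r ∈ R0 ↔ ∃ Q : Submodule.torsionBy ℤ W.Point P.p, Q ∈ N0 ∧ Q ≠ 0 ∧
      xc (Q : W.Point) = r := by
    intro r
    rw [hR0def, Finset.mem_image]
    constructor
    · rintro ⟨Q, hQ, rfl⟩
      exact ⟨Q, Q.2, (Finset.mem_filter.mp hQ).2, rfl⟩
    · rintro ⟨Q, hQN, hQ0, rfl⟩
      exact ⟨⟨Q, hQN⟩, Finset.mem_filter.mpr ⟨Finset.mem_univ _, hQ0⟩, rfl⟩
  have hR0roots : ∀ r ∈ R0, r ∈ f.roots := by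
    intro r hr
    obtain ⟨Q, -, hQ0, rfl⟩ := (hmemR0 r).mp hr
    have hQ0' : (Q : W.Point) ≠ 0 := fun h => hQ0 (Subtype.ext h)
    obtain ⟨x, y, h, e⟩ := exists_some_of_ne_zero hQ0'
    rw [mem_roots hf0, e, xc_some]
    have := hVtors Q
    rw [e] at this
    exact (hA x y h).mp this
  have hR0ne : R0.Nonempty := by
    obtain ⟨Q, hQN, hQ0⟩ := (Submodule.ne_bot_iff N0).mp h0
    exact ⟨_, (hmemR0 _).mpr ⟨Q, hQN, hQ0, rfl⟩⟩
  have hcard : R0.card < f.natDegree := by
    have h1 : R0.card ≤ Fintype.card N0 :=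
      Finset.card_image_le.trans (Finset.card_filter_le _ _)
    rw [← Nat.card_eq_fintype_card] at h1
    have h2 : R0.card ≤ P.p := h1.trans hcardN
    have h5 := P.hp5
    have h3 : 5 * P.p ≤ P.p ^ 2 := by nlinarith
    omega
  -- the product of `R0` is rational
  set z := ∏ r ∈ R0, r with hzdef
  have hinv : ∀ σ : Γ, R0.image σ = R0 := by
    intro σ
    apply Finset.eq_of_subset_of_card_le
    · intro s hs
      obtain ⟨r, hr, rfl⟩ := Finset.mem_image.mp hs
      obtain ⟨Q, hQN, hQ0, rfl⟩ := (hmemR0 r).mp hr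
      refine (hmemR0 _).mpr ⟨σ • Q, hstab σ Q hQN, ?_, ?_⟩
      · intro h
        apply hQ0
        have h' : σ • (Q : W.Point) = 0 := congrArg Subtype.val h
        exact Subtype.ext ((Inertia.smul_eq_zero_iff σ _).mp h')
      · exact xc_smul σ _
    · rw [Finset.card_image_of_injective _ σ.injective]
  have hzfix : ∀ σ : Γ, σ z = z := by
    intro σ
    rw [hzdef, map_prod]
    conv_rhs => rw [← hinv σ]
    rw [Finset.prod_image (fun a _ b _ h => σ.injective h)]
  obtain ⟨q, hq⟩ := exists_rat_of_fixed hzfix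
  have hvz : 1 < v z := by
    rw [hzdef, map_prod]
    change 1 < (R0.val.map fun r => v r).prod
    apply one_lt_prod_of_one_lt
    · intro h
      have : R0.val = 0 := Multiset.map_eq_zero.mp h
      exact hR0ne.ne_empty (Finset.val_eq_zero.mp this)
    · intro a ha
      obtain ⟨r, hr, rfl⟩ := Multiset.mem_map.mp ha
      exact hroots r (hR0roots r (Finset.mem_val.mp hr))
  have hz : (v f.leadingCoeff)⁻¹ ≤ v (∏ r ∈ R0, r) := by
    rw [hlc, ← hzdef, ← hq]
    apply inv_le_of_one_lt A P.pp hAp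
    rw [hq]
    exact hvz
  have hcontra := one_lt_v_eval_zero v f hf0 hroots R0 hR0roots hcard hz
  have hle : v (f.eval 0) ≤ 1 := (A.valuation_le_one_iff _).mpr (eval_zero_mem P A P.p)
  exact absurd hcontra (not_lt.mpr hle)

end Frey

end Fermat.Agent.S13.PsiProduct
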