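import Mathlib
import Fermat.Agent.S05.Arith

/-!
# S13 / block D-iv: valuations of rational numbers in a valuation subring lying over a prime

`K` a field of characteristic zero, `A` a valuation subring with `(q : K) ∈ A.nonunits`.
* `valuation_intCast_eq_pow`, `valuation_ratCast_eq_zpow`: `v r ∈ v(q) ^ ℤ` for rational `r ≠ 0`;
* `ratCast_lt_one_or_sub_one_lt_one` (`q = 2`): a `2`-integral rational is `≡ 0` or `≡ 1`.
-/

set_option autoImplicit false
set_option linter.unusedSectionVars false

namespace Fermat.Agent.S13.RatVal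

open Fermat.Agent.S05.Arith

variable {K : Type*} [Field K] [CharZero K] (A : ValuationSubring K)

theorem valuation_natCast_ne_zero {q : ℕ} (hq : q.Prime) : A.valuation (q : K) ≠ 0 :=
  (A.valuation.ne_zero_iff).mpr (Nat.cast_ne_zero.mpr hq.ne_zero)

/-- `v m ∈ v(q) ^ ℕ` for a nonzero integer `m`. -/
theorem valuation_intCast_eq_pow {q : ℕ} (hq : q.Prime) (hA : A.LiesOverPrime q) {m : ℤ}
    (hm : m ≠ 0) : ∃ n : ℕ, A.valuation (m : K) = A.valuation (q : K) ^ n ∧
      (n = 0 ↔ ¬ (q : ℤ) ∣ m) := by
  have hfin : FiniteMultiplicity (q : ℤ) m :=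
    Int.finiteMultiplicity_iff.mpr ⟨by simpa using hq.ne_one, hm⟩
  obtain ⟨c, hc, hqc⟩ := hfin.exists_eq_pow_mul_and_not_dvd
  refine ⟨multiplicity (q : ℤ) m, ?_, ?_⟩
  · have hcast : (m : K) = (q : K) ^ multiplicity (q : ℤ) m * (c : K) := by
      conv_lhs => rw [hc]
      push_cast
      ring
    rw [hcast, map_mul, valuation_intCast_eq_one A hq hA hqc, mul_one, map_pow]
  · rw [multiplicity_eq_zero]

/-- `v r ∈ v(q) ^ ℤ` for a nonzero rational `r`. -/
theorem valuation_ratCast_eq_zpow {q : ℕ} (hq : q.Prime) (hA : A.LiesOverPrime q) {r : ℚ}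
    (hr : r ≠ 0) : ∃ n : ℤ, A.valuation (r : K) = A.valuation (q : K) ^ n := by
  obtain ⟨a, ha, -⟩ := valuation_intCast_eq_pow A hq hA (Rat.num_ne_zero.mpr hr)
  obtain ⟨b, hb, -⟩ := valuation_intCast_eq_pow A hq hA (m := (r.den : ℤ))
    (by exact_mod_cast r.den_ne_zero)
  refine ⟨(a : ℤ) - b, ?_⟩
  rw [Rat.cast_def, map_div₀, ha, zpow_sub₀ (valuation_natCast_ne_zero A hq), zpow_natCast,
    zpow_natCast]
  congr 1
  have := hb
  simpa using this

/-- A rational number which is integral at a place over `2` is congruent to `0` or `1`. -/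
theorem ratCast_lt_one_or_sub_one_lt_one (hA : A.LiesOverPrime 2) {r : ℚ}
    (hr : A.valuation (r : K) ≤ 1) :
    A.valuation (r : K) < 1 ∨ A.valuation ((r : K) - 1) < 1 := by
  have h2 : A.valuation (2 : K) < 1 := by
    have := (liesOverPrime_iff A 2).mp hA
    simpa using this
  have hpos2 : Nat.Prime 2 := Nat.prime_two
  have hev : ∀ m : ℤ, (2 : ℤ) ∣ m → A.valuation (m : K) < 1 := by
    rintro m ⟨k, rfl⟩
    push_cast
    rw [map_mul]
    calc A.valuation (2 : K) * A.valuation (k : K) ≤ A.valuation (2 : K) * 1 := by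
          gcongr
          exact valuation_intCast_le_one A k
      _ = A.valuation (2 : K) := mul_one _
      _ < 1 := h2
  have hodd : ∀ m : ℤ, ¬ (2 : ℤ) ∣ m → A.valuation (m : K) = 1 := fun m hm =>
    valuation_intCast_eq_one A hpos2 hA (by exact_mod_cast hm)
  -- the denominator is odd
  have hden : ¬ (2 : ℤ) ∣ (r.den : ℤ) := by
    intro hd
    have hnum : ¬ (2 : ℤ) ∣ r.num := by
      intro hn
      have h1 : (2 : ℕ) ∣ r.num.natAbs := by
        have := Int.natAbs_dvd_natAbs.mpr hn
        simpa using this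
      have h2' : (2 : ℕ) ∣ r.den := by exact_mod_cast hd
      have := Nat.dvd_gcd h1 h2'
      rw [r.reduced] at this
      exact absurd this (by norm_num)
    have e1 := hodd _ hnum
    have e2 := hev _ hd
    rw [Rat.cast_def, map_div₀, e1] at hr
    have hd0 : A.valuation ((r.den : ℤ) : K) ≠ 0 := by
      apply (A.valuation.ne_zero_iff).mpr
      exact_mod_cast r.den_ne_zero
    have : (1 : _) < 1 / A.valuation ((r.den : ℤ) : K) := by
      rw [lt_div_iff₀ (zero_lt_iff.mpr hd0), one_mul]
      exact e2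
    have hr' : 1 / A.valuation ((r.den : ℤ) : K) ≤ 1 := by simpa using hr
    exact absurd hr' (not_le.mpr this)
  have eden : A.valuation ((r.den : ℤ) : K) = 1 := hodd _ hden
  have edenK : A.valuation ((r.den : ℕ) : K) = 1 := by simpa using eden
  by_cases hn : (2 : ℤ) ∣ r.num
  · left
    rw [Rat.cast_def, map_div₀, edenK, div_one]
    exact hev _ hn
  · right
    have hsub : (2 : ℤ) ∣ r.num - r.den := by
      have h1 : r.num % 2 = 1 := by
        rcases Int.emod_two_eq_zero_or_one r.num with h | h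
        · exact absurd (Int.dvd_of_emod_eq_zero h) hn
        · exact h
      have h2' : (r.den : ℤ) % 2 = 1 := by
        rcases Int.emod_two_eq_zero_or_one (r.den : ℤ) with h | h
        · exact absurd (Int.dvd_of_emod_eq_zero h) hden
        · exact h
      omega
    have hdK : ((r.den : ℕ) : K) ≠ 0 := Nat.cast_ne_zero.mpr r.den_ne_zero
    have e : (r : K) - 1 = ((r.num - r.den : ℤ) : K) / ((r.den : ℕ) : K) := by
      rw [Rat.cast_def]
      field_simp
      push_cast
      ring
    rw [e, map_div₀, edenK, div_one]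
    exact hev _ hsub

end Fermat.Agent.S13.RatVal
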