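import Mathlib
import Fermat.Agent.S13.NodeG
import Fermat.Agent.S13.NodeInertia
import Fermat.Agent.S13.RatVal
import Fermat.Agent.S05.SameRed
import Fermat.Agent.S05.Inertia
import Fermat.Agent.S51.GaloisFixed
import Fermat.Agent.S13.FreyTwo
import Fermat.Agent.S54.Frobenius
import Fermat.Prelude.Def_FLTPrelim_FreyPackage

/-!
# S13 / block D-iv: a nodal curve `y² + xy = x³ + a₂x² + a₄x` over `ℚ` with `p ∤ 2·ord₂(a₄)` has no
rational point of order `p` (`p ≥ 5` prime)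

Inputs: the pair law at the node over `2` (`NodeG`), "no odd torsion in the kernel of reduction at
`2`" (block D-ii, as a hypothesis), same-reduction lemma (`SameRed`).
-/

set_option autoImplicit false
set_option linter.unusedSectionVars false

namespace Fermat.Agent.S13.NoRationalTorsion

open WeierstrassCurve WeierstrassCurve.Affine
open Fermat.Agent.S05 Fermat.Agent.S05.NodePair Fermat.Agent.S13.NodeG
open Fermat.Agent.S13.NodeInertia Fermat.Agent.S13.RatVal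

local notation "Qbar" => AlgebraicClosure ℚ

variable {W : Affine ℚ}

/-- A Galois-fixed nonzero point has rational coordinates. -/
theorem exists_rat_coords {X : (W⁄Qbar).Point} (hX : X ≠ 0)
    (hfix : ∀ σ : Qbar ≃ₐ[ℚ] Qbar, σ • X = X) :
    ∃ (x₀ y₀ : ℚ) (h : (W⁄Qbar).Nonsingular (x₀ : Qbar) (y₀ : Qbar)),
      X = Point.some (x₀ : Qbar) (y₀ : Qbar) h := by
  obtain ⟨x, y, h, rfl⟩ := exists_some_of_ne_zero hX
  have hxy : ∀ σ : Qbar ≃ₐ[ℚ] Qbar, σ x = x ∧ σ y = y := by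
    intro σ
    have := hfix σ
    rw [Inertia.smul_some, Point.some.injEq] at this
    exact this
  obtain ⟨x₀, hx₀⟩ := S51.exists_rat_of_fixed x fun σ => (hxy σ).1
  obtain ⟨y₀, hy₀⟩ := S51.exists_rat_of_fixed y fun σ => (hxy σ).2
  rw [eq_ratCast] at hx₀ hy₀
  subst hx₀ hy₀
  exact ⟨x₀, y₀, h, rfl⟩

section core

variable (A : ValuationSubring Qbar) (hA : A.LiesOverPrime 2)
  (H : NodeHypG A.valuation (W⁄Qbar)) (hW : IntegralAt (W⁄Qbar) A)
  (ha1 : (W⁄Qbar).a₁ = 1) {p : ℕ}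
  (hker : ∀ R : (W⁄Qbar).Point, Asm.InE1 A R → p • R = 0 → R = 0)
include hA H hW ha1 hker

/-- The form of the hypothesis that is used. -/
theorem hDii' (X : (W⁄Qbar).Point) (hX : X ≠ 0) (hx : xc X ∉ A) : p • X ≠ 0 := by
  intro h0
  apply hX
  refine hker X ?_ h0
  obtain ⟨x, y, h, rfl⟩ := exists_some_of_ne_zero hX
  exact Or.inr ⟨x, y, h, rfl, hx⟩

theorem two_mem_nonunits : (2 : Qbar) ∈ A.nonunits := by
  have : ((2 : ℕ) : Qbar) ∈ A.nonunits := hA
  simpa using this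

/-- Stage B: a rational point of odd prime order `p ≠ 3` cannot have `nu = 1`. -/
theorem false_of_nu_eq_one (hp : p.Prime) (hp5 : 5 ≤ p)
    {X : (W⁄Qbar).Point} (hX : X ≠ 0) (hpX : p • X = 0)
    (hfix : ∀ σ : Qbar ≃ₐ[ℚ] Qbar, σ • X = X) (hnu : nu A.valuation (W⁄Qbar) X = 1) : False := by
  set v := A.valuation with hv
  have h2nu := two_mem_nonunits A hA H hW ha1 hker
  have hpodd : Odd p := hp.odd_of_ne_two (by omega)
  -- generalities on multiples
  have hmul : ∀ k : ℕ, Nat.Coprime k p → k • X ≠ 0 := by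
    intro k hk h0
    have hord : addOrderOf X ∣ k := addOrderOf_dvd_of_nsmul_eq_zero h0
    have hord' : addOrderOf X ∣ p := addOrderOf_dvd_of_nsmul_eq_zero hpX
    have h1 : addOrderOf X ∣ 1 := by
      have := Nat.dvd_gcd hord hord'
      rwa [hk] at this
    exact hX (AddMonoid.addOrderOf_eq_one_iff.mp (Nat.dvd_one.mp h1))
  -- the unit `x`-coordinate of a fixed torsion point with `nu = 1`
  have key : ∀ Y : (W⁄Qbar).Point, Y ≠ 0 → p • Y = 0 → (∀ σ : Qbar ≃ₐ[ℚ] Qbar, σ • Y = Y) →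
      nu v (W⁄Qbar) Y = 1 →
      ∃ (x₀ y₀ : ℚ) (h : (W⁄Qbar).Nonsingular (x₀ : Qbar) (y₀ : Qbar)),
        Y = Point.some (x₀ : Qbar) (y₀ : Qbar) h ∧ v (x₀ : Qbar) = 1 := by
    intro Y hY hpY hfY hnuY
    obtain ⟨x₀, y₀, h, rfl⟩ := exists_rat_coords hY hfY
    refine ⟨x₀, y₀, h, rfl, ?_⟩
    rcases (H.nu_eq_one_iff _).mp hnuY with h0 | h1
    · exact absurd h0 hY
    · rw [xc_some] at h1
      rcases lt_or_eq_of_le h1 with hlt | heq
      · exfalso
        have hx : xc (Point.some (x₀ : Qbar) (y₀ : Qbar) h) ∉ A := by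
          rw [xc_some, ← A.valuation_le_one_iff, not_le]
          exact hlt
        exact hDii' A hA H hW ha1 hker _ hY hx hpY
      · exact heq.symm
  obtain ⟨x₀, y₀, h, rfl, hvx⟩ := key X hX hpX hfix hnu
  -- the double
  have h2X : (Point.some (x₀ : Qbar) (y₀ : Qbar) h) + (Point.some (x₀ : Qbar) (y₀ : Qbar) h) ≠ 0 := by
    have := hmul 2 (by
      rw [Nat.coprime_comm]
      exact (Nat.coprime_primes hp Nat.prime_two).mpr (by omega))
    rwa [two_nsmul] at this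
  set X := Point.some (x₀ : Qbar) (y₀ : Qbar) h with hXdef
  have hp2X : p • (X + X) = 0 := by rw [nsmul_add, hpX, add_zero]
  have hf2X : ∀ σ : Qbar ≃ₐ[ℚ] Qbar, σ • (X + X) = X + X := by
    intro σ
    rw [Inertia.smul_add_point, hfix σ]
  have hnu2X : nu v (W⁄Qbar) (X + X) = 1 := H.nu_add_self_eq_one (Or.inl hnu)
  obtain ⟨x₁, y₁, h', hY, hvx'⟩ := key (X + X) h2X hp2X hf2X hnu2X
  -- residues
  have hxA : (x₀ : Qbar) ∈ A := (A.valuation_le_one_iff _).mp hvx.le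
  have hx'A : (x₁ : Qbar) ∈ A := (A.valuation_le_one_iff _).mp hvx'.le
  have hyA : (y₀ : Qbar) ∈ A := y_mem_of_x_mem hW h.1 hxA
  have hy'A : (y₁ : Qbar) ∈ A := y_mem_of_x_mem hW h'.1 hx'A
  have hx1 : v ((x₀ : Qbar) - 1) < 1 := by
    rcases ratCast_lt_one_or_sub_one_lt_one A hA hvx.le with hlt | hlt
    · exact absurd hvx hlt.ne
    · exact hlt
  have hx'1 : v ((x₁ : Qbar) - 1) < 1 := by
    rcases ratCast_lt_one_or_sub_one_lt_one A hA hvx'.le with hlt | hlt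
    · exact absurd hvx' hlt.ne
    · exact hlt
  have hxx : (x₁ : Qbar) - (x₀ : Qbar) ∈ A.nonunits := by
    rw [A.mem_nonunits_iff]
    have : (x₁ : Qbar) - (x₀ : Qbar) = ((x₁ : Qbar) - 1) - ((x₀ : Qbar) - 1) := by ring
    rw [this]
    exact v.map_sub_lt hx'1 hx1
  have hns := nonsing_of_unit H hW h'.1 hvx'
  have h2lt : v (2 : Qbar) < 1 := A.mem_nonunits_iff.mp h2nu
  have hy01 := ratCast_lt_one_or_sub_one_lt_one A hA ((A.valuation_le_one_iff _).mpr hyA)
  have hy11 := ratCast_lt_one_or_sub_one_lt_one A hA ((A.valuation_le_one_iff _).mpr hy'A)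
  -- the two alternatives for the `y`-coordinates
  have halt : (y₁ : Qbar) - (y₀ : Qbar) ∈ A.nonunits ∨
      (y₁ : Qbar) - (W⁄Qbar).negY (x₀ : Qbar) (y₀ : Qbar) ∈ A.nonunits := by
    have hneg : (W⁄Qbar).negY (x₀ : Qbar) (y₀ : Qbar) = -(y₀ : Qbar) - (x₀ : Qbar) := by
      rw [negY, ha1, H.a3]; ring
    rcases hy01 with a | a <;> rcases hy11 with b | b
    · left
      rw [A.mem_nonunits_iff]
      exact v.map_sub_lt b a
    · right
      rw [A.mem_nonunits_iff, hneg]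
      have : (y₁ : Qbar) - (-(y₀ : Qbar) - (x₀ : Qbar)) =
          (((y₁ : Qbar) - 1) + (y₀ : Qbar)) + (((x₀ : Qbar) - 1) + 2) := by ring
      rw [this]
      exact v.map_add_lt (v.map_add_lt b a) (v.map_add_lt hx1 h2lt)
    · right
      rw [A.mem_nonunits_iff, hneg]
      have : (y₁ : Qbar) - (-(y₀ : Qbar) - (x₀ : Qbar)) =
          ((y₁ : Qbar) + ((y₀ : Qbar) - 1)) + (((x₀ : Qbar) - 1) + 2) := by ring
      rw [this]
      exact v.map_add_lt (v.map_add_lt b a) (v.map_add_lt hx1 h2lt)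
    · left
      rw [A.mem_nonunits_iff]
      have : (y₁ : Qbar) - (y₀ : Qbar) = ((y₁ : Qbar) - 1) - ((y₀ : Qbar) - 1) := by ring
      rw [this]
      exact v.map_sub_lt b a
  rcases halt with hyy | hyy
  · -- `2X ≡ X`, so `X = 2X - X` is in the kernel of reduction
    have hE := SameRed.inE1_sub (W⁄Qbar) A hW.a₁ hW.a₂ hW.a₃ h' h hx'A hxA hyA hxx hyy hns
    rw [← hY, add_sub_cancel_right] at hE
    exact (SameRed.inE1_some_iff (W⁄Qbar) A h).mp hE hxA
  · -- `2X ≡ -X`, so `3X` is in the kernel of reduction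
    have hneg : (W⁄Qbar).Nonsingular (x₀ : Qbar) ((W⁄Qbar).negY (x₀ : Qbar) (y₀ : Qbar)) :=
      (nonsingular_neg ..).mpr h
    have hnegA : (W⁄Qbar).negY (x₀ : Qbar) (y₀ : Qbar) ∈ A := by
      rw [negY, ha1, H.a3]
      exact sub_mem (sub_mem (neg_mem hyA) (mul_mem A.one_mem hxA)) A.zero_mem
    have hE := SameRed.inE1_sub (W⁄Qbar) A hW.a₁ hW.a₂ hW.a₃ h' hneg hx'A hxA hnegA hxx hyy hns
    have e3 : Point.some (x₁ : Qbar) (y₁ : Qbar) h' - Point.some (x₀ : Qbar) _ hneg = 3 • X := by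
      rw [← hY, ← Point.neg_some h, sub_neg_eq_add]
      rw [show (3 : ℕ) = 2 + 1 by norm_num, add_nsmul, two_nsmul, one_nsmul]
    rw [e3] at hE
    have h3X : 3 • X ≠ 0 := hmul 3 (by
      rw [Nat.coprime_comm]
      exact (Nat.coprime_primes hp Nat.prime_three).mpr (by omega))
    have hx3 : xc (3 • X) ∉ A := by
      rcases (SameRed.inE1_iff (W⁄Qbar) A _).mp hE with h0 | ⟨x, y, hxy, e, hx⟩
      · exact absurd h0 h3X
      · rw [e, xc_some]; exact hx
    refine hDii' A hA H hW ha1 hker _ h3X hx3 ?_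
    rw [smul_comm, hpX, nsmul_zero]

/-- Main step: no nonzero Galois-fixed point of order `p`, if `p ∤ 2 · ord₂ a₄`. -/
theorem false_of_fixed_torsion (hp : p.Prime) (hp5 : 5 ≤ p) {m : ℤ}
    (hM : A.valuation (W⁄Qbar).a₄ = A.valuation (2 : Qbar) ^ m) (hpm : ¬ (p : ℤ) ∣ 2 * m)
    {Q : (W⁄Qbar).Point} (hQ : Q ≠ 0) (hpQ : p • Q = 0)
    (hfix : ∀ σ : Qbar ≃ₐ[ℚ] Qbar, σ • Q = Q) : False := by
  set v := A.valuation with hv
  obtain ⟨x₀, y₀, h, rfl⟩ := exists_rat_coords hQ hfix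
  set X := Point.some (x₀ : Qbar) (y₀ : Qbar) h with hXdef
  rcases le_or_gt 1 (v (x₀ : Qbar)) with h1 | h1
  · -- `nu = 1`
    have hnu : nu v (W⁄Qbar) X = 1 := (H.nu_eq_one_iff _).mpr (Or.inr (by rwa [hXdef, xc_some]))
    exact false_of_nu_eq_one A hA H hW ha1 hker hp hp5 hQ hpQ hfix hnu
  rcases le_or_gt (v (x₀ : Qbar)) (v (W⁄Qbar).a₄) with hM' | hM'
  · -- `nu = M`: pass to the double
    have hnu : nu v (W⁄Qbar) X = v (W⁄Qbar).a₄ := by
      rw [hXdef, nu_some]; exact clamp_of_le H.b1.le hM'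
    have hnu2 := H.nu_add_self_eq_one (Or.inr hnu)
    have h2X : X + X ≠ 0 := by
      intro h0
      have hord : addOrderOf X ∣ 2 := addOrderOf_dvd_of_nsmul_eq_zero (by rw [two_nsmul]; exact h0)
      have hord' : addOrderOf X ∣ p := addOrderOf_dvd_of_nsmul_eq_zero hpQ
      have h1' : addOrderOf X ∣ 1 := by
        have := Nat.dvd_gcd hord hord'
        rwa [(Nat.coprime_primes Nat.prime_two hp).mpr (by omega)] at this
      exact hQ (AddMonoid.addOrderOf_eq_one_iff.mp (Nat.dvd_one.mp h1'))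
    have hp2X : p • (X + X) = 0 := by rw [nsmul_add, hpQ, add_zero]
    have hf2X : ∀ σ : Qbar ≃ₐ[ℚ] Qbar, σ • (X + X) = X + X := by
      intro σ
      rw [Inertia.smul_add_point, hfix σ]
    exact false_of_nu_eq_one A hA H hW ha1 hker hp hp5 h2X hp2X hf2X hnu2
  · -- the middle region
    have hnu : nu v (W⁄Qbar) X = v (x₀ : Qbar) := by
      rw [hXdef, nu_some]; exact clamp_of_mem hM'.le h1.le
    obtain ⟨j, hj⟩ := H.nu_pow_of_nsmul_eq_zero hpQ
    rw [hnu, hM] at hj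
    have hx0 : x₀ ≠ 0 := by
      rintro rfl
      rw [Rat.cast_zero, map_zero] at hM'
      exact not_lt_zero hM'
    obtain ⟨n, hn⟩ := valuation_ratCast_eq_zpow A Nat.prime_two hA hx0
    have h2cast : ((2 : ℕ) : Qbar) = 2 := by norm_num
    rw [h2cast] at hn
    set g := v (2 : Qbar) with hg
    have hg0 : 0 < g := zero_lt_iff.mpr ((v.ne_zero_iff).mpr two_ne_zero)
    have hg1 : g < 1 := A.mem_nonunits_iff.mp (two_mem_nonunits A hA H hW ha1 hker)
    -- exponents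
    have e1 : g ^ (n * p) = g ^ (m * 2 * j) := by
      rw [zpow_mul, zpow_natCast, ← hn, hj, ← zpow_natCast (g ^ m) 2, ← zpow_mul, ← zpow_mul]
      congr 1
      push_cast
      ring
    have e2 : n * p = m * 2 * j := (zpow_right_inj₀ hg0 hg1.ne).mp e1
    have hpj : (p : ℤ) ∣ j := by
      have hpZ : Prime (p : ℤ) := Nat.prime_iff_prime_int.mp hp
      have hdvd : (p : ℤ) ∣ (2 * m) * j := ⟨n, by rw [mul_comm (p : ℤ) n, e2]; ring⟩
      exact (hpZ.dvd_or_dvd hdvd).resolve_left hpm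
    obtain ⟨j', rfl⟩ := hpj
    have hp0 : (p : ℤ) ≠ 0 := by exact_mod_cast hp.ne_zero
    have e3 : n = m * (2 * j') := by
      apply mul_right_cancel₀ hp0
      rw [e2]; ring
    have e4 : v (x₀ : Qbar) = v (W⁄Qbar).a₄ ^ (2 * j') := by
      rw [hn, e3, zpow_mul, ← hM]
    have hM0 : 0 < v (W⁄Qbar).a₄ := zero_lt_iff.mpr H.M_ne_zero
    rw [e4] at h1 hM'
    have i1 : 0 < 2 * j' := (zpow_lt_one_iff_right_of_lt_one₀ hM0 H.b1).mp h1
    have i2 : 2 * j' < 1 := by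
      have := hM'
      conv_lhs at this => rw [← zpow_one (v (W⁄Qbar).a₄)]
      exact (zpow_lt_zpow_iff_right_of_lt_one₀ hM0 H.b1).mp this
    omega

end core

/-! ### The Frey curve -/

section frey

variable (P : FreyPackage)

theorem frey_a₁ : (P.freyCurve.toAffine⁄Qbar).a₁ = 1 := by
  simp [FreyPackage.freyCurve, WeierstrassCurve.baseChange, WeierstrassCurve.map]

theorem frey_a₄ : (P.freyCurve.toAffine⁄Qbar).a₄ =
    -((P.a : Qbar) ^ P.p) * ((P.b : Qbar) ^ P.p) / 16 := by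
  simp [FreyPackage.freyCurve, WeierstrassCurve.baseChange, WeierstrassCurve.map]

theorem not_two_dvd_a : ¬ (2 : ℤ) ∣ P.a := by
  intro h
  have h4 := P.ha4
  obtain ⟨k, hk⟩ := h
  have : ((P.a : ℤ) : ZMod 4) = ((2 * k : ℤ) : ZMod 4) := by rw [hk]
  rw [h4] at this
  have h3 : ((3 : ℤ) : ZMod 4) = ((2 * k : ℤ) : ZMod 4) := by
    rw [← this]; norm_num
  rw [ZMod.intCast_eq_intCast_iff_dvd_sub] at h3
  omega

theorem two_dvd_b : (2 : ℤ) ∣ P.b :=
  (ZMod.intCast_zmod_eq_zero_iff_dvd P.b 2).1 P.hb2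

/-- `v a₄ = v(2) ^ (k p - 4)` with `k = ord₂ b ≥ 1`. -/
theorem exists_valuation_a₄ (A : ValuationSubring Qbar) (hA : A.LiesOverPrime 2) :
    ∃ m : ℤ, A.valuation (P.freyCurve.toAffine⁄Qbar).a₄ = A.valuation (2 : Qbar) ^ m ∧
      ¬ (P.p : ℤ) ∣ 2 * m := by
  obtain ⟨k, hk, -⟩ := valuation_intCast_eq_pow A Nat.prime_two hA P.hb0
  have hva : A.valuation ((P.a : ℤ) : Qbar) = 1 :=
    Arith.valuation_intCast_eq_one A Nat.prime_two hA (by exact_mod_cast not_two_dvd_a P)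
  have h2cast : ((2 : ℕ) : Qbar) = 2 := by norm_num
  rw [h2cast] at hk
  have hg0 : A.valuation (2 : Qbar) ≠ 0 := (A.valuation.ne_zero_iff).mpr two_ne_zero
  refine ⟨(k : ℤ) * P.p - 4, ?_, ?_⟩
  · rw [frey_a₄, map_div₀, map_mul, Valuation.map_neg, map_pow, map_pow, hva, one_pow, one_mul, hk,
      show (16 : Qbar) = 2 ^ 4 by norm_num, map_pow, zpow_sub₀ hg0, ← pow_mul]
    congr 1
  · intro hdvd
    have h8 : (P.p : ℤ) ∣ 8 := by
      have e : (8 : ℤ) = 2 * (k : ℤ) * P.p - 2 * ((k : ℤ) * P.p - 4) := by ring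
      rw [e]
      exact dvd_sub (Dvd.intro_left _ rfl) hdvd
    have key : ∀ q : ℕ, q.Prime → 5 ≤ q → ¬ q ∣ 8 := by
      intro q hq h5 hd
      have := Nat.le_of_dvd (by norm_num) hd
      interval_cases q <;> first | omega | (norm_num at hq)
    exact key P.p P.pp P.hp5 (by exact_mod_cast h8)

/-- **D-iv**: the Frey curve has no nonzero rational point of order `p`, given the node hypotheses
at one place over `2` and the absence of odd torsion in the kernel of reduction there. -/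
theorem no_rational_torsion_of (A : ValuationSubring Qbar) (hA : A.LiesOverPrime 2)
    (H : NodeHypG A.valuation (P.freyCurve.toAffine⁄Qbar))
    (hW : IntegralAt (P.freyCurve.toAffine⁄Qbar) A)
    (hker : ∀ R : (P.freyCurve.toAffine⁄Qbar).Point, Asm.InE1 A R → P.p • R = 0 → R = 0) :
    ¬ ∃ Q : (P.freyCurve.toAffine⁄Qbar).Point, Q ≠ 0 ∧ P.p • Q = 0 ∧
      ∀ σ : Qbar ≃ₐ[ℚ] Qbar, σ • Q = Q := by
  rintro ⟨Q, hQ, hpQ, hfix⟩
  obtain ⟨m, hM, hpm⟩ := exists_valuation_a₄ P A hA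
  exact false_of_fixed_torsion A hA H hW (frey_a₁ P) hker P.pp P.hp5 hM hpm hQ hpQ hfix

/-- **D-iv in the shape of `Final.Remaining.rational`**: from D-ii (`kerTwo`) at the places over
`2`, the Frey curve has no nonzero Galois-fixed point of order `p`. -/
theorem rational_of_kerTwo
    (hker : ∀ A : ValuationSubring Qbar, A.LiesOverPrime 2 →
      ∀ R : (P.freyCurve⁄Qbar).Point, Asm.InE1 A R → P.p • R = 0 → R = 0)
    (Q : (P.freyCurve⁄Qbar).Point) (hQ : Q ≠ 0) (hpQ : P.p • Q = 0)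
    (hfix : ∀ σ : Qbar ≃ₐ[ℚ] Qbar, σ • Q = Q) : False := by
  obtain ⟨A, hA'⟩ := Fermat.Agent.S54.exists_valuationSubring_liesOverPrime 2 Nat.prime_two
  have hA : A.LiesOverPrime 2 := hA'
  exact no_rational_torsion_of P A hA (FreyTwo.nodeHyp_frey P hA) (FreyTwo.integralAt_frey P A)
    (hker A hA) ⟨Q, hQ, hpQ, hfix⟩

end frey

end Fermat.Agent.S13.NoRationalTorsion
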