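import Mathlib
import Fermat.Prelude.Def_FLTPrelim_Ramification
import Fermat.Agent.S54.Frobenius

/-!
# Lifting finite-level inertia to the absolute inertia groups of valuation subrings of `ℚ̄`

* `mem_inertiaSubgroupIn_of_forall_integral`: an element of the decomposition group of a valuation
  subring `A` (over a prime `p`) of an algebraic extension which moves every algebraic integer by
  a non-unit of `A` lies in the (prelude) inertia subgroup `A.inertiaSubgroupIn`.
* `exists_mem_inertiaSubgroupIn_forall_eq`: the lifting lemma. If `K ⊆ ℚ̄` is a finite extension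
  of `ℚ` and `τ` is an automorphism of `ℚ̄` with `τ b - b ∈ 𝔪_A` for all algebraic integers
  `b ∈ K`, then there is `σ` in the inertia subgroup of `A` agreeing with `τ` on `K`.
-/

set_option autoImplicit false

namespace Fermat.Agent.S13.InertiaLift

open scoped Pointwise

section General

variable {K L : Type*} [Field K] [Field L] [CharZero L] [Algebra K L]

/-- An element of the decomposition group which moves every algebraic integer by a non-unit
acts trivially on the residue field, i.e. lies in the inertia subgroup. -/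
theorem mem_inertiaSubgroupIn_of_forall_integral (A : ValuationSubring L) {p : ℕ}
    (hp : p.Prime) (hpA : (p : L) ∈ A.nonunits) (halg : ∀ x : L, IsAlgebraic ℤ x) (σ : L ≃ₐ[K] L)
    (hσ : σ ∈ A.decompositionSubgroup K)
    (hin : ∀ b : L, IsIntegral ℤ b → σ b - b ∈ A.nonunits) :
    σ ∈ A.inertiaSubgroupIn K := by
  refine ⟨⟨σ, hσ⟩, ?_, rfl⟩
  change (⟨σ, hσ⟩ : A.decompositionSubgroup K) ∈
    (MulSemiringAction.toRingAut (A.decompositionSubgroup K) (IsLocalRing.ResidueField A)).ker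
  rw [MonoidHom.mem_ker]
  ext x
  change (⟨σ, hσ⟩ : A.decompositionSubgroup K) • x = x
  obtain ⟨a, rfl⟩ := IsLocalRing.residue_surjective x
  rw [← IsLocalRing.ResidueField.residue_smul, ← sub_eq_zero, ← map_sub,
    IsLocalRing.residue_eq_zero_iff, ← ValuationSubring.coe_mem_nonunits_iff]
  have hcoe : (((⟨σ, hσ⟩ : A.decompositionSubgroup K) • a - a : A) : L) = σ (a : L) - (a : L) :=
    rfl
  rw [hcoe]
  obtain ⟨b, s, hb, hs, hsA, hxs⟩ :=
    Fermat.Agent.S54.exists_integral_fraction A hp hpA a.2 (halg a)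
  set x : L := (a : L) with hxdef
  have hσs : IsIntegral ℤ (σ s) := Fermat.Agent.S54.isIntegral_int_algEquiv_apply σ hs
  have hsmem : s ∈ A := Fermat.Agent.S54.mem_valuationSubring_of_isIntegral_int A hs
  have hbmem : b ∈ A := Fermat.Agent.S54.mem_valuationSubring_of_isIntegral_int A hb
  have hσsmem : σ s ∈ A := Fermat.Agent.S54.mem_valuationSubring_of_isIntegral_int A hσs
  have hσsA : σ s ∉ A.nonunits := by
    intro h
    apply hsA
    have : s = σ s - (σ s - s) := by ring
    rw [this]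
    exact A.nonunits.sub_mem h (hin s hs)
  have hv1 : A.valuation s = 1 :=
    le_antisymm ((A.valuation_le_one_iff _).mpr hsmem)
      (not_lt.mp fun h => hsA (A.mem_nonunits_iff.mpr h))
  have hv2 : A.valuation (σ s) = 1 :=
    le_antisymm ((A.valuation_le_one_iff _).mpr hσsmem)
      (not_lt.mp fun h => hσsA (A.mem_nonunits_iff.mpr h))
  have hkey : (σ x - x) * (σ s * s) = (σ b - b) * s - b * (σ s - s) := by
    have e1 : σ x * σ s = σ b := by rw [← map_mul, hxs]
    calc (σ x - x) * (σ s * s) = (σ x * σ s) * s - (x * s) * σ s := by ring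
      _ = σ b * s - b * σ s := by rw [e1, hxs]
      _ = _ := by ring
  have hrhs : A.valuation ((σ b - b) * s - b * (σ s - s)) < 1 := by
    refine lt_of_le_of_lt (A.valuation.map_sub _ _) (max_lt ?_ ?_)
    · rw [map_mul, hv1, mul_one]
      exact A.mem_nonunits_iff.mp (hin b hb)
    · rw [map_mul]
      calc A.valuation b * A.valuation (σ s - s)
          ≤ 1 * A.valuation (σ s - s) := by
            gcongr; exact (A.valuation_le_one_iff _).mpr hbmem
        _ = A.valuation (σ s - s) := one_mul _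
        _ < 1 := A.mem_nonunits_iff.mp (hin s hs)
  rw [← hkey, map_mul, map_mul, hv1, hv2, mul_one, mul_one] at hrhs
  exact A.mem_nonunits_iff.mpr hrhs

end General

section Lift

local notation "Qbar" => AlgebraicClosure ℚ
local notation "Γ" => (AlgebraicClosure ℚ ≃ₐ[ℚ] AlgebraicClosure ℚ)
local notation "Zbar" => integralClosure ℤ (AlgebraicClosure ℚ)

local instance isAlgebraicQbar_S13 : Algebra.IsAlgebraic ℚ (AlgebraicClosure ℚ) :=
  AlgebraicClosure.isAlgebraic ℚ
local instance isAlgClosureQbar_S13 : IsAlgClosure ℚ (AlgebraicClosure ℚ) :=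
  ⟨inferInstance, inferInstance⟩
local instance normalQbar_S13 : Normal ℚ (AlgebraicClosure ℚ) :=
  IsAlgClosure.normal ℚ (AlgebraicClosure ℚ)

variable (K : IntermediateField ℚ Qbar)

/-- The ring of algebraic integers fixed by `Gal(ℚ̄/K)`. -/
noncomputable abbrev fixedInts : Subalgebra ℤ Zbar :=
  FixedPoints.subalgebra ℤ Zbar K.fixingSubgroup

theorem coe_mem_of_mem_fixedInts {b : Zbar} (hb : b ∈ fixedInts K) : (b : Qbar) ∈ K := by
  rw [← InfiniteGalois.fixedField_fixingSubgroup K]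
  rintro ⟨g, hg⟩
  exact congrArg Subtype.val (hb ⟨g, hg⟩)

theorem mem_fixedInts_of_coe_mem {b : Zbar} (hb : (b : Qbar) ∈ K) : b ∈ fixedInts K := by
  rintro ⟨g, hg⟩
  exact Subtype.ext (hg ⟨(b : Qbar), hb⟩)

instance smulCommClass_fixedInts :
    SMulCommClass K.fixingSubgroup (fixedInts K) Zbar :=
  ⟨fun g r b => by
    rw [Algebra.smul_def, Algebra.smul_def, smul_mul']
    congr 1
    exact r.2 g⟩

instance isInvariant_fixedInts :
    Algebra.IsInvariant (fixedInts K) Zbar K.fixingSubgroup :=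
  ⟨fun b hb => ⟨⟨b, hb⟩, rfl⟩⟩

/-- The prime of `ℤ̄` cut out by the maximal ideal of a valuation subring of `ℚ̄`. -/
noncomputable def primeOf (A : ValuationSubring Qbar) : Ideal Zbar :=
  (IsLocalRing.maximalIdeal A).comap
    (((integralClosure ℤ Qbar).val : Zbar →+* Qbar).codRestrict A.toSubring
      (fun b => Fermat.Agent.S54.mem_valuationSubring_of_isIntegral_int A b.2))

theorem mem_primeOf (A : ValuationSubring Qbar) (b : Zbar) :
    b ∈ primeOf A ↔ (b : Qbar) ∈ A.nonunits := by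
  rw [primeOf, Ideal.mem_comap, ← ValuationSubring.coe_mem_nonunits_iff]
  rfl

instance primeOf_isPrime (A : ValuationSubring Qbar) : (primeOf A).IsPrime :=
  Ideal.comap_isPrime _ _

variable [FiniteDimensional ℚ K]

/-- **Lifting lemma**: an automorphism `τ` of `ℚ̄` which moves every algebraic integer of `K` by a
non-unit of `A` agrees on `K` with an element of the inertia subgroup of `A`. -/
theorem exists_mem_inertiaSubgroupIn_forall_eq (A : ValuationSubring Qbar) {p : ℕ} (hp : p.Prime)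
    (hpA : (p : Qbar) ∈ A.nonunits) (τ : Γ)
    (hτ : ∀ b : Qbar, IsIntegral ℤ b → b ∈ K → τ b - b ∈ A.nonunits) :
    ∃ σ ∈ A.inertiaSubgroupIn ℚ, ∀ x ∈ K, σ x = τ x := by
  classical
  let _ : TopologicalSpace Zbar := ⊥
  have : DiscreteTopology Zbar := ⟨rfl⟩
  have := Fermat.Agent.S54.continuousSMul_integralClosure_Qbar
  have hcomp : CompactSpace K.fixingSubgroup :=
    isCompact_iff_compactSpace.mp (K.fixingSubgroup_isClosed).isCompact
  set Q : Ideal Zbar := primeOf A with hQ
  have hQmem : ∀ b : Zbar, b ∈ Q ↔ (b : Qbar) ∈ A.nonunits := mem_primeOf A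
  -- `τ` preserves membership in `Q` for fixed integers
  have hτR : ∀ r : Zbar, r ∈ fixedInts K → τ • r - r ∈ Q := by
    intro r hr
    rw [hQmem]
    exact hτ (r : Qbar) r.2 (coe_mem_of_mem_fixedInts K hr)
  -- Step 1: transitivity
  set Q' : Ideal Zbar := τ⁻¹ • Q with hQ'
  have hQ'mem : ∀ b : Zbar, b ∈ Q' ↔ τ • b ∈ Q := by
    intro b
    rw [hQ', Ideal.mem_pointwise_smul_iff_inv_smul_mem, inv_inv]
  have hunder : Q.under (fixedInts K) = Q'.under (fixedInts K) := by
    ext r
    rw [Ideal.under_def, Ideal.under_def, Ideal.mem_comap, Ideal.mem_comap, hQ'mem]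
    have h := hτR (algebraMap (fixedInts K) Zbar r) r.2
    constructor
    · intro hr
      have : τ • (algebraMap (fixedInts K) Zbar r) =
          (τ • (algebraMap (fixedInts K) Zbar r) - algebraMap (fixedInts K) Zbar r) +
            algebraMap (fixedInts K) Zbar r := by ring
      rw [this]
      exact Q.add_mem h hr
    · intro hr
      have : (algebraMap (fixedInts K) Zbar r) =
          τ • (algebraMap (fixedInts K) Zbar r) -
          (τ • (algebraMap (fixedInts K) Zbar r) - algebraMap (fixedInts K) Zbar r) := by ring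
      rw [this]
      exact Q.sub_mem hr h
  obtain ⟨g, hg⟩ := Algebra.IsInvariant.exists_smul_of_under_eq_of_profinite
    (A := fixedInts K) (B := Zbar) (G := K.fixingSubgroup) Q Q' hunder
  set σ₁ : Γ := τ * (g : Γ) with hσ₁
  have hσ₁Q : σ₁ • Q = Q := by
    have e : (g : Γ) • Q = Q' := by rw [hg]; rfl
    rw [hσ₁, mul_smul, e, hQ', smul_inv_smul]
  have hgK : ∀ x ∈ K, (g : Γ) x = x := fun x hx => g.2 ⟨x, hx⟩
  -- Step 2: the induced automorphism of the residue field
  have hσ₁R : ∀ r : Zbar, r ∈ fixedInts K → σ₁ • r - r ∈ Q := by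
    intro r hr
    have h1 : σ₁ • r = τ • r := by
      rw [hσ₁, mul_smul]
      congr 1
      exact hr g
    rw [h1]
    exact hτR r hr
  let q : Ideal (fixedInts K) := Q.under (fixedInts K)
  let φ₀ : (Zbar ⧸ Q) ≃+* (Zbar ⧸ Q) :=
    Ideal.quotientEquiv Q Q (MulSemiringAction.toRingEquiv Γ Zbar σ₁) (by
      conv_lhs => rw [← hσ₁Q]
      rfl)
  have hφ₀ : ∀ b : Zbar, φ₀ (Ideal.Quotient.mk Q b) = Ideal.Quotient.mk Q (σ₁ • b) := fun b => rfl
  let φ₁ : (Zbar ⧸ Q) ≃ₐ[fixedInts K ⧸ q] (Zbar ⧸ Q) :=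
    AlgEquiv.ofRingEquiv (f := φ₀) (by
      intro x
      obtain ⟨r, rfl⟩ := Ideal.Quotient.mk_surjective x
      rw [Ideal.Quotient.algebraMap_mk_of_liesOver, hφ₀, Ideal.Quotient.eq]
      exact hσ₁R _ r.2)
  obtain ⟨⟨g₂, hg₂Q⟩, hg₂φ⟩ := Ideal.Quotient.stabilizerHom_surjective_of_profinite
    (G := K.fixingSubgroup) q Q φ₁
  have hg₂K : ∀ x ∈ K, (g₂ : Γ) x = x := fun x hx => g₂.2 ⟨x, hx⟩
  have hg₂Q' : (g₂ : Γ) • Q = Q := hg₂Q
  -- the corrected element
  set σ : Γ := σ₁ * (g₂ : Γ)⁻¹ with hσdef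
  have hσQ : σ • Q = Q := by
    rw [hσdef, mul_smul]
    conv_lhs => rw [← hg₂Q', inv_smul_smul]
    exact hσ₁Q
  have hσin : ∀ b : Zbar, σ • b - b ∈ Q := by
    intro b
    have h1 := DFunLike.congr_fun hg₂φ (Ideal.Quotient.mk Q ((g₂ : Γ)⁻¹ • b))
    rw [Ideal.Quotient.stabilizerHom_apply] at h1
    have h2 : φ₁ (Ideal.Quotient.mk Q ((g₂ : Γ)⁻¹ • b)) =
        Ideal.Quotient.mk Q (σ₁ • ((g₂ : Γ)⁻¹ • b)) := rfl
    rw [h2] at h1
    have h3 : (⟨g₂, hg₂Q⟩ : MulAction.stabilizer K.fixingSubgroup Q) • ((g₂ : Γ)⁻¹ • b) = b := by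
      change (g₂ : Γ) • ((g₂ : Γ)⁻¹ • b) = b
      rw [smul_inv_smul]
    have h4 : Ideal.Quotient.mk Q b = Ideal.Quotient.mk Q (σ₁ • ((g₂ : Γ)⁻¹ • b)) := by
      rw [← h1]
      exact congrArg _ h3.symm
    rw [hσdef, mul_smul]
    exact Ideal.Quotient.eq.mp h4.symm
  have hσK : ∀ x ∈ K, σ x = τ x := by
    intro x hx
    have h1 : ((g₂ : Γ)⁻¹) x = x := by
      have := hg₂K x hx
      calc ((g₂ : Γ)⁻¹) x = ((g₂ : Γ)⁻¹) ((g₂ : Γ) x) := by rw [this]
        _ = x := by
          change ((g₂ : Γ)⁻¹ * (g₂ : Γ)) x = x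
          rw [inv_mul_cancel]; rfl
    change τ ((g : Γ) (((g₂ : Γ)⁻¹) x)) = τ x
    rw [h1, hgK x hx]
  -- Step 3: translate to the valuation subring
  have hstab : ∀ b : Zbar, b ∈ Q ↔ σ • b ∈ Q := by
    intro b
    conv_rhs => rw [← hσQ]
    exact Ideal.smul_mem_pointwise_smul_iff.symm
  have hσA : ∀ b : Qbar, IsIntegral ℤ b → (b ∈ A.nonunits ↔ σ b ∈ A.nonunits) := by
    intro b hb
    have h1 := hstab ⟨b, hb⟩
    rw [hQmem, hQmem] at h1
    exact h1
  have hσD : σ ∈ A.decompositionSubgroup ℚ :=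
    Fermat.Agent.S54.mem_decompositionSubgroup_of_forall_integral A hp hpA
      Fermat.Agent.S54.isAlgebraic_int_Qbar σ hσA
  have hσI : ∀ b : Qbar, IsIntegral ℤ b → σ b - b ∈ A.nonunits := by
    intro b hb
    exact (hQmem _).mp (hσin ⟨b, hb⟩)
  exact ⟨σ, mem_inertiaSubgroupIn_of_forall_integral A hp hpA
    Fermat.Agent.S54.isAlgebraic_int_Qbar σ hσD hσI, hσK⟩

end Lift

end Fermat.Agent.S13.InertiaLift
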