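import Mathlib
import Fermat.Prelude.Def_FLTPrelim_Ramification
import Fermat.Agent.S54.Frobenius
import Fermat.Agent.S13.InertiaLift

/-!
# Everywhere unramified homomorphisms of `Gal(ℚ̄/ℚ)` are trivial (Minkowski)

`eq_one_of_unramified_everywhere`: a group homomorphism `χ` from the absolute Galois group of `ℚ`
which factors through a finite level and kills the (prelude) inertia subgroup
`A.inertiaSubgroupIn ℚ` of every valuation subring `A` of `ℚ̄` lying over a prime is trivial.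
-/

set_option autoImplicit false

namespace Fermat.Agent.S13.Unramified

open scoped NumberField Pointwise

local notation "Qbar" => AlgebraicClosure ℚ
local notation "Γ" => (AlgebraicClosure ℚ ≃ₐ[ℚ] AlgebraicClosure ℚ)

local instance isAlgebraicQbar_S13U : Algebra.IsAlgebraic ℚ (AlgebraicClosure ℚ) :=
  AlgebraicClosure.isAlgebraic ℚ
local instance isAlgClosureQbar_S13U : IsAlgClosure ℚ (AlgebraicClosure ℚ) :=
  ⟨inferInstance, inferInstance⟩
local instance normalQbar_S13U : Normal ℚ (AlgebraicClosure ℚ) :=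
  IsAlgClosure.normal ℚ (AlgebraicClosure ℚ)

/-- In a Galois number field, a prime which is not unramified has a nontrivial inertia group. -/
theorem exists_ne_one_mem_inertia (F : Type*) [Field F] [NumberField F] [IsGalois ℚ F]
    (P : Ideal (𝓞 F)) [P.IsPrime] (hP : ¬ Algebra.IsUnramifiedAt ℤ P) :
    ∃ τ : Gal(F/ℚ), τ ≠ 1 ∧ ∀ x : 𝓞 F, τ • x - x ∈ P := by
  have h1 : Nat.card (Ideal.inertia Gal(F/ℚ) P) = (P.under ℤ).ramificationIdxIn (𝓞 F) :=
    Ideal.card_inertia_eq_ramificationIdxIn (P.under ℤ) P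
  rw [Ideal.ramificationIdxIn_eq_ramificationIdx (P.under ℤ) P Gal(F/ℚ)] at h1
  have h2 : P.ramificationIdx ℤ ≠ 1 := fun h => hP (Ideal.ramificationIdx_eq_one_iff.mp h)
  rw [← h1] at h2
  by_contra hcon
  push Not at hcon
  apply h2
  have : Subsingleton (Ideal.inertia Gal(F/ℚ) P) := by
    refine ⟨fun a b => ?_⟩
    have ha : (a : Gal(F/ℚ)) = 1 := by
      by_contra h
      obtain ⟨x, hx⟩ := hcon a h
      exact hx (a.2 x)
    have hb : (b : Gal(F/ℚ)) = 1 := by
      by_contra h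
      obtain ⟨x, hx⟩ := hcon b h
      exact hx (b.2 x)
    exact Subtype.ext (ha.trans hb.symm)
  exact Nat.card_unique

/-- A finite Galois extension `K ⊆ ℚ̄` of `ℚ` such that for every prime `ℓ` there is SOME valuation
subring `A` over `ℓ` whose inertia subgroup (in the prelude sense) acts trivially on `K`, is `ℚ`. -/
theorem eq_bot_of_exists_inertia_trivial (K : IntermediateField ℚ Qbar) [FiniteDimensional ℚ K]
    [IsGalois ℚ K]
    (h : ∀ ℓ : ℕ, ℓ.Prime → ∃ A : ValuationSubring Qbar, A.LiesOverPrime ℓ ∧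
      ∀ σ ∈ A.inertiaSubgroupIn ℚ, ∀ x ∈ K, σ x = x) :
    K = ⊥ := by
  by_contra hK
  have : NumberField K := { to_charZero := inferInstance, to_finiteDimensional := inferInstance }
  have hrank : 1 < Module.finrank ℚ K := by
    have hpos : 0 < Module.finrank ℚ K := Module.finrank_pos
    have hne : Module.finrank ℚ K ≠ 1 := fun h1 =>
      hK (IntermediateField.finrank_eq_one_iff.mp h1)
    omega
  obtain ⟨p, hp, hram⟩ :=
    NumberField.exists_not_isUnramifiedAt_int_of_isGalois (K := K) (𝒪 := 𝓞 K) hrank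
  obtain ⟨A, hpA', hA⟩ := h p hp
  have hpA : (p : Qbar) ∈ A.nonunits := hpA'
  -- the prime of `𝓞 K` below `A`
  have hOA : ∀ x : 𝓞 K, ((x : K) : Qbar) ∈ A := fun x =>
    Fermat.Agent.S54.mem_valuationSubring_of_isIntegral_int A
      ((x.2 : IsIntegral ℤ (x : K)).map (IsScalarTower.toAlgHom ℤ K Qbar))
  let ι : 𝓞 K →+* A :=
    ((algebraMap K Qbar).comp (algebraMap (𝓞 K) K)).codRestrict A.toSubring hOA
  let P : Ideal (𝓞 K) := (IsLocalRing.maximalIdeal A).comap ι
  have hPmem : ∀ x : 𝓞 K, x ∈ P ↔ ((x : K) : Qbar) ∈ A.nonunits := by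
    intro x
    rw [Ideal.mem_comap, ← ValuationSubring.coe_mem_nonunits_iff]
    rfl
  have hPprime : P.IsPrime := Ideal.comap_isPrime ι _
  have hpP : (p : 𝓞 K) ∈ P := by
    rw [hPmem]
    simpa using hpA
  obtain ⟨τ', hτ'1, hτ'⟩ := exists_ne_one_mem_inertia K P (hram P hPprime hpP)
  obtain ⟨τ, rfl⟩ := AlgEquiv.restrictNormalHom_surjective (F := ℚ) (K₁ := K) Qbar τ'
  have hτK : ∀ x : K, τ (x : Qbar) = ((AlgEquiv.restrictNormalHom K τ) x : Qbar) := fun x =>
    (AlgEquiv.restrictNormal_commutes τ K x).symm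
  obtain ⟨σ, hσ, hσK⟩ := InertiaLift.exists_mem_inertiaSubgroupIn_forall_eq K A hp hpA τ (by
    intro b hb hbK
    have hbK' : IsIntegral ℤ (⟨b, hbK⟩ : K) := by
      refine (isIntegral_algHom_iff (IsScalarTower.toAlgHom ℤ K Qbar)
        (algebraMap K Qbar).injective).mp ?_
      exact hb
    let x : 𝓞 K := ⟨⟨b, hbK⟩, hbK'⟩
    have h1 := (hPmem _).mp (hτ' x)
    have h2 : (((AlgEquiv.restrictNormalHom K τ) • x - x : 𝓞 K) : K) =
        (AlgEquiv.restrictNormalHom K τ) (⟨b, hbK⟩ : K) - ⟨b, hbK⟩ := rfl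
    rw [h2] at h1
    have h3 := hτK ⟨b, hbK⟩
    simp only at h3
    rw [h3]
    exact_mod_cast h1)
  apply hτ'1
  ext x
  have h1 := hA σ hσ (x : Qbar) x.2
  rw [hσK _ x.2, hτK] at h1
  exact_mod_cast h1

/-- A finite Galois extension `K ⊆ ℚ̄` of `ℚ` on which every inertia subgroup (in the prelude
sense) acts trivially is `ℚ`. -/
theorem eq_bot_of_inertia_trivial (K : IntermediateField ℚ Qbar) [FiniteDimensional ℚ K]
    [IsGalois ℚ K]
    (h : ∀ ℓ : ℕ, ℓ.Prime → ∀ A : ValuationSubring Qbar, A.LiesOverPrime ℓ →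
      ∀ σ ∈ A.inertiaSubgroupIn ℚ, ∀ x ∈ K, σ x = x) :
    K = ⊥ :=
  eq_bot_of_exists_inertia_trivial K fun ℓ hℓ => by
    obtain ⟨A, hA⟩ := Fermat.Agent.S54.exists_valuationSubring_liesOverPrime ℓ hℓ
    exact ⟨A, hA, h ℓ hℓ A hA⟩

/-- **Minkowski, subgroup form**: a normal subgroup `H` of `Gal(ℚ̄/ℚ)` that contains the fixing
subgroup of a finite extension and, for every prime `ℓ`, the inertia subgroup of SOME valuation
subring over `ℓ`, is everything. -/
theorem eq_top_of_forall_exists_inertia_le (H : Subgroup Γ) [hHn : H.Normal]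
    (hfin : ∃ L : IntermediateField ℚ Qbar, FiniteDimensional ℚ L ∧ L.fixingSubgroup ≤ H)
    (hunr : ∀ ℓ : ℕ, ℓ.Prime → ∃ A : ValuationSubring Qbar, A.LiesOverPrime ℓ ∧
      A.inertiaSubgroupIn ℚ ≤ H) : H = ⊤ := by
  obtain ⟨L, hL, hLH⟩ := hfin
  have hopen : IsOpen (H : Set Γ) := Subgroup.isOpen_mono hLH L.fixingSubgroup_isOpen
  have hclosed : IsClosed (H : Set Γ) := Subgroup.isClosed_of_isOpen H hopen
  let Hc : ClosedSubgroup Γ := ⟨H, hclosed⟩
  set K : IntermediateField ℚ Qbar := IntermediateField.fixedField H with hKdef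
  have hfix : K.fixingSubgroup = H := InfiniteGalois.fixingSubgroup_fixedField Hc
  have hKL : K ≤ L := by
    rw [← InfiniteGalois.fixedField_fixingSubgroup L]
    exact IntermediateField.fixedField_antitone hLH
  have hKfin : FiniteDimensional ℚ K :=
    Module.Finite.of_injective (IntermediateField.inclusion hKL).toLinearMap
      (IntermediateField.inclusion hKL).injective
  have hnormal : K.fixingSubgroup.Normal := by
    rw [hfix]
    exact hHn
  have hKgal : IsGalois ℚ K := (InfiniteGalois.normal_iff_isGalois K).mp hnormal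
  have hK : K = ⊥ := eq_bot_of_exists_inertia_trivial K (fun ℓ hℓ => by
    obtain ⟨A, hA, hAH⟩ := hunr ℓ hℓ
    exact ⟨A, hA, fun σ hσ x hx => hx ⟨σ, hAH hσ⟩⟩)
  rw [← hfix, hK, IntermediateField.fixingSubgroup_bot]

/-- **Minkowski**: a homomorphism from `Gal(ℚ̄/ℚ)` that factors through a finite level and is
trivial on the inertia subgroup of SOME valuation subring of `ℚ̄` over every prime is trivial. -/
theorem eq_one_of_forall_exists_inertia {M : Type*} [Group M] (χ : Γ →* M)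
    (hfin : ∃ L : IntermediateField ℚ Qbar, FiniteDimensional ℚ L ∧
      ∀ σ : Γ, (∀ x ∈ L, σ x = x) → χ σ = 1)
    (hunr : ∀ ℓ : ℕ, ℓ.Prime → ∃ A : ValuationSubring Qbar, A.LiesOverPrime ℓ ∧
      ∀ σ ∈ A.inertiaSubgroupIn ℚ, χ σ = 1) (σ : Γ) : χ σ = 1 := by
  obtain ⟨L, hL, hχL⟩ := hfin
  have hH : χ.ker = ⊤ := eq_top_of_forall_exists_inertia_le χ.ker
    ⟨L, hL, fun σ hσ => MonoidHom.mem_ker.mpr (hχL σ (fun x hx => hσ ⟨x, hx⟩))⟩
    (fun ℓ hℓ => by
      obtain ⟨A, hA, h⟩ := hunr ℓ hℓ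
      exact ⟨A, hA, fun σ hσ => MonoidHom.mem_ker.mpr (h σ hσ)⟩)
  have : σ ∈ χ.ker := hH ▸ Subgroup.mem_top σ
  exact MonoidHom.mem_ker.mp this

/-- **Minkowski**: a homomorphism from `Gal(ℚ̄/ℚ)` that factors through a finite level and is
trivial on the inertia subgroup of every valuation subring of `ℚ̄` over every prime is trivial. -/
theorem eq_one_of_unramified_everywhere {M : Type*} [Group M] (χ : Γ →* M)
    (hfin : ∃ L : IntermediateField ℚ Qbar, FiniteDimensional ℚ L ∧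
      ∀ σ : Γ, (∀ x ∈ L, σ x = x) → χ σ = 1)
    (hunr : ∀ ℓ : ℕ, ℓ.Prime → ∀ A : ValuationSubring Qbar, A.LiesOverPrime ℓ →
      ∀ σ ∈ A.inertiaSubgroupIn ℚ, χ σ = 1) (σ : Γ) : χ σ = 1 :=
  eq_one_of_forall_exists_inertia χ hfin (fun ℓ hℓ => by
    obtain ⟨A, hA⟩ := Fermat.Agent.S54.exists_valuationSubring_liesOverPrime ℓ hℓ
    exact ⟨A, hA, hunr ℓ hℓ A hA⟩) σ

end Fermat.Agent.S13.Unramified
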