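/-
S13 (Frey curve: `E[p]` reducible ⇒ there is a Galois-stable cofixed line):
final assembly from the outputs of the blocks A (torsion structure), B (local analysis at `p`),
D (local analysis at `2`), S05 (odd primes `≠ p`), using block E (Minkowski, `Unramified.lean`).
(helper6)
-/
import Fermat.Prelude.Def_FLTPrelim_CofixedLine
import Fermat.Prelude.Def_FLTPrelim_Ramification
import Fermat.Prelude.Def_FreyPackage_GaloisRep
import Fermat.Agent.S13.Unramified
import Fermat.Agent.S13.FiniteLevel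
import Mathlib

set_option autoImplicit false

open WeierstrassCurve WeierstrassCurve.Affine WeierstrassCurve.Affine.Point

namespace Fermat.Agent.S13.Assembly

local notation "Qbar" => AlgebraicClosure ℚ
local notation "Γ" => (AlgebraicClosure ℚ ≃ₐ[ℚ] AlgebraicClosure ℚ)

/-- The `p`-torsion of the Frey curve over `ℚ̄`. -/
abbrev V (P : FreyPackage) : Type :=
  Submodule.torsionBy ℤ (P.freyCurve⁄Qbar).Point P.p

/-- The outputs of the blocks A, B, D and of S05 for a fixed Frey package. -/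
structure Inputs (P : FreyPackage) : Prop where
  /-- Block A: there is a nonzero `p`-torsion point. -/
  nontrivial : Nontrivial (V P)
  /-- Block A: there are at most `p ^ 2` torsion points. -/
  finite : Finite (V P)
  card_le : Nat.card (V P) ≤ P.p ^ 2
  /-- S05: inertia at odd primes `q ≠ p` acts trivially. -/
  odd : ∀ q : ℕ, q.Prime → q ≠ 2 → q ≠ P.p → ∀ A : ValuationSubring Qbar, A.LiesOverPrime q →
    ∀ σ ∈ A.inertiaSubgroupIn ℚ, ∀ x : V P, σ • x = x
  /-- Block D: inertia at `2` acts unipotently. -/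
  two : ∀ A : ValuationSubring Qbar, A.LiesOverPrime 2 → ∀ σ ∈ A.inertiaSubgroupIn ℚ,
    ∀ x : V P, σ • (σ • x - x) = σ • x - x
  /-- Block D: there is no nonzero rational `p`-torsion point. -/
  rational : ∀ x : V P, x ≠ 0 → (∀ σ : Γ, σ • x = x) → False
  /-- Block B: at `p`, inertia acts trivially on a stable line or on the quotient by it. -/
  atP : ∀ N : Submodule (ZMod P.p) (V P), IsGaloisStable ℚ N → N ≠ ⊥ → N ≠ ⊤ →
    ∃ A : ValuationSubring Qbar, A.LiesOverPrime P.p ∧
      ((∀ σ ∈ A.inertiaSubgroupIn ℚ, ∀ x ∈ N, σ • x = x) ∨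
        (∀ σ ∈ A.inertiaSubgroupIn ℚ, ∀ x : V P, σ • x - x ∈ N))

section linalg

variable {p : ℕ} [Fact p.Prime] {M : Type*} [AddCommGroup M] [Module (ZMod p) M] [Finite M]

lemma finrank_le_two_of_card_le (h : Nat.card M ≤ p ^ 2) : Module.finrank (ZMod p) M ≤ 2 := by
  have : Module.Finite (ZMod p) M := Module.Finite.of_finite
  have hc := Module.natCard_eq_pow_finrank (K := ZMod p) (V := M)
  rw [Nat.card_zmod] at hc
  rw [hc] at h
  exact (Nat.pow_le_pow_iff_right (Fact.out : p.Prime).one_lt).mp h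

lemma finrank_line (h : Nat.card M ≤ p ^ 2) {N : Submodule (ZMod p) M} (hbot : N ≠ ⊥)
    (htop : N ≠ ⊤) : Module.finrank (ZMod p) N = 1 ∧ Module.finrank (ZMod p) M = 2 := by
  have : Module.Finite (ZMod p) M := Module.Finite.of_finite
  have h2 := finrank_le_two_of_card_le h
  have h1 : Module.finrank (ZMod p) N < Module.finrank (ZMod p) M :=
    Submodule.finrank_lt htop
  have h0 : 0 < Module.finrank (ZMod p) N := by
    rw [Module.finrank_pos_iff]
    exact (Submodule.nontrivial_iff_ne_bot).mpr hbot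
  omega

/-- In a line, every element is a multiple of any nonzero element. -/
lemma exists_smul_eq_of_mem_line (h : Nat.card M ≤ p ^ 2) {N : Submodule (ZMod p) M}
    (hbot : N ≠ ⊥) (htop : N ≠ ⊤) {x y : M} (hx : x ∈ N) (hx0 : x ≠ 0) (hy : y ∈ N) :
    ∃ k : ZMod p, y = k • x := by
  have h1 := (finrank_line h hbot htop).1
  have hx' : (⟨x, hx⟩ : N) ≠ 0 := fun h0 => hx0 (congrArg Subtype.val h0)
  obtain ⟨k, hk⟩ := (finrank_eq_one_iff_of_nonzero' (⟨x, hx⟩ : N) hx').mp h1 ⟨y, hy⟩
  exact ⟨k, (congrArg Subtype.val hk).symm⟩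

/-- A line and a vector outside it span a plane. -/
lemma exists_add_smul_eq (h : Nat.card M ≤ p ^ 2) {N : Submodule (ZMod p) M}
    (hbot : N ≠ ⊥) (htop : N ≠ ⊤) {u : M} (hu : u ∉ N) (y : M) :
    ∃ n ∈ N, ∃ k : ZMod p, y = n + k • u := by
  have : Module.Finite (ZMod p) M := Module.Finite.of_finite
  obtain ⟨h1, h2⟩ := finrank_line h hbot htop
  have hlt : N < N ⊔ Submodule.span (ZMod p) {u} := by
    refine lt_of_le_of_ne le_sup_left fun heq => hu ?_
    rw [heq]
    exact Submodule.mem_sup_right (Submodule.mem_span_singleton_self u)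
  have h3 : Module.finrank (ZMod p) N <
      Module.finrank (ZMod p) (N ⊔ Submodule.span (ZMod p) {u} : Submodule (ZMod p) M) :=
    Submodule.finrank_lt_finrank_of_lt hlt
  have h4 : Module.finrank (ZMod p) (N ⊔ Submodule.span (ZMod p) {u} : Submodule (ZMod p) M) ≤
      Module.finrank (ZMod p) M := Submodule.finrank_le _
  have htop' : N ⊔ Submodule.span (ZMod p) {u} = ⊤ :=
    Submodule.eq_top_of_finrank_eq (by omega)
  have hy : y ∈ N ⊔ Submodule.span (ZMod p) {u} := htop' ▸ Submodule.mem_top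
  obtain ⟨n, hn, w, hw, rfl⟩ := Submodule.mem_sup.mp hy
  obtain ⟨k, rfl⟩ := Submodule.mem_span_singleton.mp hw
  exact ⟨n, hn, k, rfl⟩

end linalg

section main

variable (P : FreyPackage)

variable {P}

/-- The kernel of the action on a stable submodule. -/
def fixer (N : Submodule (ZMod P.p) (V P)) : Subgroup Γ where
  carrier := {σ | ∀ x ∈ N, σ • x = x}
  one_mem' := fun x _ => one_smul _ x
  mul_mem' := by
    intro σ τ hσ hτ x hx
    rw [mul_smul, hτ x hx, hσ x hx]
  inv_mem' := by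
    intro σ hσ x hx
    rw [inv_smul_eq_iff, hσ x hx]

/-- The kernel of the action on the quotient by a submodule. -/
def cofixer (N : Submodule (ZMod P.p) (V P)) : Subgroup Γ where
  carrier := {σ | ∀ x : V P, σ • x - x ∈ N}
  one_mem' := fun x => by rw [one_smul, sub_self]; exact N.zero_mem
  mul_mem' := by
    intro σ τ hσ hτ x
    have : (σ * τ) • x - x = (σ • (τ • x) - τ • x) + (τ • x - x) := by
      rw [mul_smul]; abel
    rw [this]
    exact N.add_mem (hσ _) (hτ _)
  inv_mem' := by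
    intro σ hσ x
    have : σ⁻¹ • x - x = -(σ • (σ⁻¹ • x) - σ⁻¹ • x) := by
      rw [smul_inv_smul]; abel
    rw [this]
    exact N.neg_mem (hσ _)

lemma mem_fixer {N : Submodule (ZMod P.p) (V P)} {σ : Γ} :
    σ ∈ fixer N ↔ ∀ x ∈ N, σ • x = x := Iff.rfl

lemma mem_cofixer {N : Submodule (ZMod P.p) (V P)} {σ : Γ} :
    σ ∈ cofixer N ↔ ∀ x : V P, σ • x - x ∈ N := Iff.rfl

lemma fixer_normal {N : Submodule (ZMod P.p) (V P)} (hN : IsGaloisStable ℚ N) :
    (fixer N).Normal := by
  refine ⟨fun σ hσ τ x hx => ?_⟩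
  have h1 : τ⁻¹ • x ∈ N := hN τ⁻¹ x hx
  rw [mul_smul, mul_smul, hσ _ h1, smul_inv_smul]

lemma cofixer_normal {N : Submodule (ZMod P.p) (V P)} (hN : IsGaloisStable ℚ N) :
    (cofixer N).Normal := by
  refine ⟨fun σ hσ τ x => ?_⟩
  have h1 : σ • (τ⁻¹ • x) - τ⁻¹ • x ∈ N := hσ _
  have h2 := hN τ _ h1
  have : (τ * σ * τ⁻¹) • x - x = τ • (σ • (τ⁻¹ • x) - τ⁻¹ • x) := by
    rw [mul_smul, mul_smul, smul_sub, smul_inv_smul]
  rw [this]
  exact h2

/-- A unipotent element acts trivially on a stable line. -/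
lemma mem_fixer_of_unipotent (hcard : Nat.card (V P) ≤ P.p ^ 2) [Finite (V P)]
    {N : Submodule (ZMod P.p) (V P)} (hN : IsGaloisStable ℚ N) (hbot : N ≠ ⊥) (htop : N ≠ ⊤)
    {σ : Γ} (hσ : ∀ x : V P, σ • (σ • x - x) = σ • x - x) : σ ∈ fixer N := by
  have : Fact P.p.Prime := ⟨P.pp⟩
  intro x hx
  by_cases hx0 : x = 0
  · rw [hx0, smul_zero]
  obtain ⟨k, hk⟩ := exists_smul_eq_of_mem_line hcard hbot htop hx hx0 (hN σ x hx)
  have h := hσ x
  rw [hk, smul_sub, smul_comm σ k x, hk] at h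
  have h2 : ((k - 1) * (k - 1)) • x = 0 := by
    have : ((k - 1) * (k - 1)) • x = (k • k • x - k • x) - (k • x - x) := by
      simp only [sub_smul, mul_smul, smul_sub, one_smul]
    rw [this, h, sub_self]
  rcases smul_eq_zero.mp h2 with h0 | h0
  · have hk1 : k = 1 := sub_eq_zero.mp (mul_self_eq_zero.mp h0)
    rw [hk, hk1, one_smul]
  · exact absurd h0 hx0

/-- A unipotent element acts trivially on the quotient by a stable line. -/
lemma mem_cofixer_of_unipotent (hcard : Nat.card (V P) ≤ P.p ^ 2) [Finite (V P)]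
    {N : Submodule (ZMod P.p) (V P)} (hN : IsGaloisStable ℚ N) (hbot : N ≠ ⊥) (htop : N ≠ ⊤)
    {σ : Γ} (hσ : ∀ x : V P, σ • (σ • x - x) = σ • x - x) : σ ∈ cofixer N := by
  have : Fact P.p.Prime := ⟨P.pp⟩
  intro y
  by_contra hu
  have hσu : σ • (σ • y - y) = σ • y - y := hσ y
  have hfix := mem_fixer_of_unipotent hcard hN hbot htop hσ
  have hall : ∀ z : V P, σ • z = z := by
    intro z
    obtain ⟨n, hn, k, rfl⟩ := exists_add_smul_eq hcard hbot htop hu z
    rw [smul_add, hfix n hn, smul_comm, hσu]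
  apply hu
  rw [hall y, sub_self]
  exact N.zero_mem

/-- **S13 from the block outputs.** -/
theorem cofixed_of_inputs (P : FreyPackage) (inp : Inputs P)
    (hred : ¬ GaloisRepIsIrreducible (K := Qbar) ℚ P.freyCurve P.p) :
    HasGaloisStableCofixedLine (K := Qbar) ℚ P.freyCurve P.p := by
  have : Fact P.p.Prime := ⟨P.pp⟩
  have := inp.finite
  have hnt := inp.nontrivial
  obtain ⟨N, hN, hbot, htop⟩ : ∃ N : Submodule (ZMod P.p) (V P),
      IsGaloisStable ℚ N ∧ N ≠ ⊥ ∧ N ≠ ⊤ := by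
    by_contra hno
    apply hred
    refine ⟨hnt, fun N hN => ?_⟩
    by_contra h
    rw [not_or] at h
    exact hno ⟨N, hN, h.1, h.2⟩
  obtain ⟨L, hL, hLfix⟩ := FiniteLevel.exists_finite_level_torsion (W := P.freyCurve) P.p
  have hLfix' : ∀ σ : Γ, σ ∈ L.fixingSubgroup → ∀ x : V P, σ • x = x := fun σ hσ x =>
    hLfix σ (fun y hy => (IntermediateField.mem_fixingSubgroup_iff L σ).mp hσ y hy) x
  have hover : ∀ q : ℕ, q.Prime → ∃ A : ValuationSubring Qbar, A.LiesOverPrime q :=
    Fermat.Agent.S54.exists_valuationSubring_liesOverPrime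
  have hloc : ∀ q : ℕ, q.Prime → q ≠ P.p → ∀ A : ValuationSubring Qbar, A.LiesOverPrime q →
      ∀ σ ∈ A.inertiaSubgroupIn ℚ, σ ∈ fixer N ∧ σ ∈ cofixer N := by
    intro q hq hqp A hA σ hσ
    by_cases h2 : q = 2
    · subst h2
      have hu := inp.two A hA σ hσ
      exact ⟨mem_fixer_of_unipotent inp.card_le hN hbot htop hu,
        mem_cofixer_of_unipotent inp.card_le hN hbot htop hu⟩
    · have h := inp.odd q hq h2 hqp A hA σ hσ
      exact ⟨fun x _ => h x, fun x => by rw [h x, sub_self]; exact N.zero_mem⟩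
  obtain ⟨A₀, hA₀, hdich⟩ := inp.atP N hN hbot htop
  rcases hdich with h1 | h2
  · have htopH : fixer N = ⊤ := by
      refine Unramified.eq_top_of_forall_exists_inertia_le _ (hHn := fixer_normal hN)
        ⟨L, hL, fun σ hσ x _ => hLfix' σ hσ x⟩ fun q hq => ?_
      by_cases hqp : q = P.p
      · subst hqp
        exact ⟨A₀, hA₀, fun σ hσ => h1 σ hσ⟩
      · obtain ⟨A, hA⟩ := hover q hq
        exact ⟨A, hA, fun σ hσ => (hloc q hq hqp A hA σ hσ).1⟩
    exfalso
    obtain ⟨x, hx, hx0⟩ := Submodule.exists_mem_ne_zero_of_ne_bot hbot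
    refine inp.rational x hx0 fun σ => ?_
    have hσ : σ ∈ fixer N := htopH ▸ Subgroup.mem_top σ
    exact hσ x hx
  · have htopH : cofixer N = ⊤ := by
      refine Unramified.eq_top_of_forall_exists_inertia_le _ (hHn := cofixer_normal hN)
        ⟨L, hL, fun σ hσ x => by rw [hLfix' σ hσ x, sub_self]; exact N.zero_mem⟩ fun q hq => ?_
      by_cases hqp : q = P.p
      · subst hqp
        exact ⟨A₀, hA₀, fun σ hσ => h2 σ hσ⟩
      · obtain ⟨A, hA⟩ := hover q hq
        exact ⟨A, hA, fun σ hσ => (hloc q hq hqp A hA σ hσ).2⟩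
    refine ⟨N, hN, hbot, htop, fun σ x => ?_⟩
    have hσ : σ ∈ cofixer N := htopH ▸ Subgroup.mem_top σ
    exact hσ x

end main

end Fermat.Agent.S13.Assembly
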