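import Mathlib
import Fermat.Agent.S05.NodeFinal
import Fermat.Agent.S05.KernelGeneral
import Fermat.Agent.S05.Assembly

/-!
# S13, block Bp-i: inertia moves torsion points only inside the kernel of reduction

Let `A` be a valuation subring of `K` with `v 2 = 1` (no condition on the residue characteristic
otherwise), `σ` an element of its inertia group.  For the Legendre model
`Wd d₁ d₂ : y² = x (x - d₁) (x - d₂)`:

* good reduction (`d₁`, `d₂`, `d₁ - d₂` units): `σ • X - X ∈ E₁` for **every** point `X`;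
* multiplicative reduction (`v d₁ = v q ^ (p n)`, `d₂` unit): `σ • X - X ∈ E₁` for every `X` with
  `p • X = 0`.

This is the M1 (S05) argument with `KernelFacts.tors` removed, so that it also applies to places
over `p`.  Everything is then transported to the Frey curve.
-/

set_option autoImplicit false

namespace Fermat.Agent.S13.AtPInertia

open WeierstrassCurve WeierstrassCurve.Affine
open Fermat.Agent.S05.Asm
open Fermat.Agent.S05 (IntegralAt Assembly.algebraMap_intCast_pow Assembly.algebraMap_neg_intCast_pow)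
open Fermat.Agent.S05.Transfer (Wd Wd_baseChange)

section General

variable {F K : Type*} [Field F] [Field K] [DecidableEq K] [Algebra F K]

/-- The facts on the kernel of reduction that hold in every residue characteristic. -/
structure WeakKernelFacts (A : ValuationSubring K) (W : Affine K) : Prop where
  neg : ∀ P : W.Point, InE1 A P → InE1 A (-P)
  add : ∀ P Q : W.Point, InE1 A P → InE1 A Q → InE1 A (P + Q)
  sameRed : ∀ (x y : K) (h : W.Nonsingular x y) (x' y' : K) (h' : W.Nonsingular x' y'),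
    NonsingRed A W x y → x' ∈ A → y' ∈ A → x - x' ∈ A.nonunits → y - y' ∈ A.nonunits →
    InE1 A (Point.some x y h - Point.some x' y' h')

/-- `WeakKernelFacts` for every Weierstrass curve with `A`-integral coefficients. -/
theorem weakKernelFacts (A : ValuationSubring K) {W : Affine K} (hW : IntegralAt W A) :
    WeakKernelFacts A W where
  neg P hP := by
    rw [inE1_iff_sameRed] at hP ⊢
    exact Fermat.Agent.S05.SameRed.inE1_neg W A hP
  add := Fermat.Agent.S05.KernelGeneral.inE1_add A hW
  sameRed x y h x' y' h' hns hx' hy' hxx hyy := by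
    rw [inE1_iff_sameRed]
    refine Fermat.Agent.S05.SameRed.inE1_sub W A hW.a₁ hW.a₂ hW.a₃ h h' hns.1 hx' hy' hxx hyy ?_
    rintro ⟨c1, c2⟩
    have h3 := hns.2.2
    rw [evalEval_polynomialX, evalEval_polynomialY] at h3
    rcases h3 with h3 | h3
    · exact h3 c1
    · exact h3 c2

lemma WeakKernelFacts.sub {A : ValuationSubring K} {W : Affine K} (hK : WeakKernelFacts A W)
    {P Q : W.Point} (hP : InE1 A P) (hQ : InE1 A Q) : InE1 A (P - Q) := by
  rw [sub_eq_add_neg]
  exact hK.add _ _ hP (hK.neg _ hQ)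

/-- An inertia element moves a point of `E0` only inside `E1`. -/
theorem inE1_smul_sub_of_inE0 {W : Affine F} {A : ValuationSubring K} {σ : K ≃ₐ[F] K}
    (hσ : IsInertial A σ) (hK : WeakKernelFacts A (W⁄K)) (X : (W⁄K).Point) (hX : InE0 A X) :
    InE1 A (σ • X - X) := by
  rcases hX with h1 | ⟨x, y, h, rfl, hns⟩
  · rcases h1 with rfl | ⟨x, y, h, rfl, hx⟩
    · rw [smul_zero, sub_zero]; exact inE1_zero A
    · obtain ⟨h', e⟩ := smul_some σ x y h
      rw [e, sub_eq_add_neg]
      refine hK.add _ _ (Or.inr ⟨σ x, σ y, h', rfl, ?_⟩) (hK.neg _ (Or.inr ⟨x, y, h, rfl, hx⟩))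
      rwa [hσ.mem_iff]
  · obtain ⟨h', e⟩ := smul_some σ x y h
    rw [e]
    have h1 := hK.sameRed x y h (σ x) (σ y) h' hns ((hσ.mem_iff x).mpr hns.1)
      ((hσ.mem_iff y).mpr hns.2.1)
      (by
        have := A.nonunits.neg_mem (hσ.sub_mem x hns.1)
        rwa [neg_sub] at this)
      (by
        have := A.nonunits.neg_mem (hσ.sub_mem y hns.2.1)
        rwa [neg_sub] at this)
    have := hK.neg _ h1
    rwa [neg_sub] at this

/-- If `σ` fixes `R` and `P + R ∈ E0`, then `σ • P - P ∈ E1`. -/
lemma inE1_smul_sub_of_add {W : Affine F} {A : ValuationSubring K} {σ : K ≃ₐ[F] K}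
    (hσ : IsInertial A σ) (hK : WeakKernelFacts A (W⁄K)) {P R : (W⁄K).Point}
    (hR : σ • R = R) (hE : InE0 A (P + R)) : InE1 A (σ • P - P) := by
  have h := inE1_smul_sub_of_inE0 hσ hK _ hE
  rw [smul_add, hR] at h
  have e : σ • P + R - (P + R) = σ • P - P := by abel
  rwa [e] at h

/-- Good reduction: an inertia element moves every point only inside `E1`. -/
theorem good_inE1 {d1 d2 : F} {A : ValuationSubring K} {σ : K ≃ₐ[F] K}
    (hσ : IsInertial A σ) (hK : WeakKernelFacts A ((Wd d1 d2 : Affine F)⁄K))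
    (h2 : A.valuation (2 : K) = 1)
    (hd1 : A.valuation (algebraMap F K d1) = 1) (hd2 : A.valuation (algebraMap F K d2) = 1)
    (hd12 : A.valuation (algebraMap F K d1 - algebraMap F K d2) = 1)
    (P : ((Wd d1 d2 : Affine F)⁄K).Point) : InE1 A (σ • P - P) := by
  refine inE1_smul_sub_of_inE0 hσ hK P ?_
  cases P with
  | zero => exact inE0_zero A
  | some x y h => exact inE0_some_Wd A h2 hd1.le hd2 hd12 h (Or.inl hd1)

/-- Multiplicative reduction: an inertia element moves every `p`-torsion point only inside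
`E1`.  No assumption on the residue characteristic besides `v 2 = 1`; `q` is any natural number
with `v q < 1` such that `v d1 = v q ^ (p n)`. -/
theorem bad_inE1 {d1 d2 : F} {A : ValuationSubring K} {σ : K ≃ₐ[F] K} {p n q : ℕ}
    (hσ : IsInertial A σ) (hK : WeakKernelFacts A ((Wd d1 d2 : Affine F)⁄K))
    (hN : NodeFacts (K := K) A d1 d2 p) (hp : p ≠ 0)
    (hsq : ∀ z : K, ∃ t : K, t ^ 2 = z)
    (h2 : A.valuation (2 : K) = 1)
    (hq0 : (q : K) ≠ 0) (hq1 : A.valuation (q : K) < 1)
    (hd1 : A.valuation (algebraMap F K d1) = A.valuation (q : K) ^ (p * n))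
    (hd1lt : A.valuation (algebraMap F K d1) < 1)
    (hd2 : A.valuation (algebraMap F K d2) = 1)
    (P : ((Wd d1 d2 : Affine F)⁄K).Point) (hP : p • P = 0) : InE1 A (σ • P - P) := by
  set v := A.valuation with hv
  set D1 : K := algebraMap F K d1 with hD1
  set D2 : K := algebraMap F K d2 with hD2
  have hd12 : v (D1 - D2) = 1 := by
    rw [v.map_sub_swap]
    have : D2 - D1 = D2 + (-D1) := by ring
    rw [this, v.map_add_eq_of_lt_left (by rw [Valuation.map_neg, hd2]; exact hd1lt), hd2]
  have hD1ne : D1 ≠ 0 := by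
    intro h0
    rw [h0, map_zero] at hd1
    exact pow_ne_zero _ ((Valuation.ne_zero_iff v).mpr hq0) hd1.symm
  have hD2ne : D2 ≠ 0 := by
    intro h0
    rw [h0, map_zero] at hd2
    exact zero_ne_one hd2
  have hE0 : ∀ {Q : ((Wd d1 d2 : Affine F)⁄K).Point}, XBig A Q → InE0 A Q :=
    fun hQ => inE0_of_xBig A h2 hd1lt.le hd2 hd12 hQ
  have hns : ∀ x y : K, ((Wd d1 d2 : Affine F)⁄K).Nonsingular x y ↔
      y ^ 2 = x * (x - D1) * (x - D2) ∧
        (3 * x ^ 2 - 2 * (D1 + D2) * x + D1 * D2 ≠ 0 ∨ 2 * y ≠ 0) := by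
    intro x y
    rw [Wd_baseChange, nonsingular_Wd]
  -- the 2-torsion point `(0, 0)`
  have h00 : ((Wd d1 d2 : Affine F)⁄K).Nonsingular 0 0 := by
    rw [hns]
    refine ⟨by ring, Or.inl ?_⟩
    simpa using mul_ne_zero hD1ne hD2ne
  have hT0 : σ • (Point.some 0 0 h00) = Point.some 0 0 h00 := by
    obtain ⟨h', e⟩ := smul_some σ 0 0 h00
    rw [e]
    exact point_some_congr _ _ (map_zero σ) (map_zero σ)
  have hfixed : ∀ {Q : ((Wd d1 d2 : Affine F)⁄K).Point}, σ • Q = Q → InE1 A (σ • Q - Q) := by
    intro Q hQ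
    rw [hQ, sub_self]
    exact inE1_zero A
  cases P with
  | zero => exact hfixed (smul_zero σ)
  | some x y h =>
    rcases le_or_gt 1 (v x) with hx1 | hx1
    · -- `1 ≤ v x` : the point is in `E0`
      exact inE1_smul_sub_of_inE0 hσ hK _ (hE0 (Or.inr ⟨x, y, h, rfl, hx1⟩))
    rcases le_or_gt (v x) (v D1) with hxM | hxM
    · -- `v x ≤ M` : translate by `(0, 0)`
      by_cases hx0 : x = 0
      · have hy0 : y = 0 := by
          have := ((hns x y).mp h).1
          rw [hx0] at this
          simpa using this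
        apply hfixed
        obtain ⟨h', e⟩ := smul_some σ x y h
        rw [e]
        refine point_some_congr _ _ ?_ ?_
        · rw [hx0, map_zero]
        · rw [hy0, map_zero]
      · exact inE1_smul_sub_of_add hσ hK hT0 (hE0 (hN.transl h00 x y h hxM hx0))
    · -- `M < v x < 1`
      obtain ⟨j, hj⟩ := hN.tors x y h hxM hx1 hP
      have hc0 : 0 < v (q : K) := by
        rw [Valuation.pos_iff]; exact hq0
      obtain ⟨i, hi⟩ := exists_nat_pow hc0 hq1 hp hd1 hx1 hj
      -- the inertia-fixed point with `x`-coordinate `q ^ i`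
      set xR : K := (q : K) ^ i with hxR
      have hvxR : v xR = v x := by rw [hxR, map_pow, hi]
      have hxRne : xR ≠ 0 := pow_ne_zero _ hq0
      set τ : F := ((q : F) ^ i - d1) * ((q : F) ^ i - d2) / (q : F) ^ i with hτ
      have hxRF : algebraMap F K ((q : F) ^ i) = xR := by
        rw [map_pow, map_natCast]
      have hτK : algebraMap F K τ = (xR - D1) * (xR - D2) / xR := by
        rw [hτ, map_div₀, map_mul, map_sub, map_sub, hxRF]
      have hvτ : v (algebraMap F K τ) = 1 := by
        rw [hτK, map_div₀, map_mul]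
        have e1 : v (xR - D1) = v xR := by
          have : xR - D1 = xR + (-D1) := by ring
          rw [this, v.map_add_eq_of_lt_left (by rw [Valuation.map_neg, hvxR]; exact hxM)]
        have e2 : v (xR - D2) = 1 := by
          have : xR - D2 = -D2 + xR := by ring
          rw [this, v.map_add_eq_of_lt_left
            (by rw [Valuation.map_neg, hd2, hvxR]; exact hx1), Valuation.map_neg, hd2]
        rw [e1, e2, mul_one]
        exact div_self ((Valuation.ne_zero_iff v).mpr hxRne)
      obtain ⟨t, ht⟩ := hsq (algebraMap F K τ)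
      have hvt : v t = 1 := by
        have : v t ^ 2 = 1 := by rw [← map_pow, ht, hvτ]
        exact (pow_eq_one_iff_left two_ne_zero).mp this
      have htA : t ∈ A := (A.valuation_le_one_iff t).mp hvt.le
      have hσt : σ t = t := by
        have hsq' : σ t ^ 2 = t ^ 2 := by
          rw [← map_pow, ht, AlgEquiv.commutes]
        rcases sq_eq_sq_iff_eq_or_eq_neg.mp hsq' with h' | h'
        · exact h'
        · exfalso
          have hm := hσ.sub_mem t htA
          rw [h', A.mem_nonunits_iff] at hm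
          have : -t - t = -(2 * t) := by ring
          rw [this, Valuation.map_neg, map_mul] at hm
          change v 2 * v t < 1 at hm
          rw [h2, hvt, one_mul] at hm
          exact lt_irrefl _ hm
      have hσxR : σ xR = xR := by rw [← hxRF, AlgEquiv.commutes]
      have hR : ((Wd d1 d2 : Affine F)⁄K).Nonsingular xR (xR * t) := by
        rw [hns]
        refine ⟨?_, Or.inr ?_⟩
        · rw [mul_pow, ht, hτK]
          field_simp
        · have : v (2 * (xR * t)) ≠ 0 := by
            rw [map_mul, map_mul]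
            rw [h2, hvt, one_mul, mul_one]
            exact (Valuation.ne_zero_iff v).mpr hxRne
          exact (Valuation.ne_zero_iff v).mp this
      have hRfix : σ • (Point.some xR (xR * t) hR) = Point.some xR (xR * t) hR := by
        obtain ⟨h', e⟩ := smul_some σ xR (xR * t) hR
        rw [e]
        refine point_some_congr _ _ hσxR ?_
        rw [map_mul, hσxR, hσt]
      by_cases hxx : x = xR
      · -- `P = ± R`
        apply hfixed
        have hy : y = xR * t ∨ y = -(xR * t) := by
          have e1 := ((hns x y).mp h).1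
          have e2 := ((hns xR (xR * t)).mp hR).1
          rw [hxx, ← e2] at e1
          exact sq_eq_sq_iff_eq_or_eq_neg.mp e1
        rcases hy with hy | hy
        · have : Point.some x y h = Point.some xR (xR * t) hR := point_some_congr _ _ hxx hy
          rw [this]; exact hRfix
        · have : Point.some x y h = -Point.some xR (xR * t) hR := by
            rw [Point.neg_some]
            refine point_some_congr _ _ hxx ?_
            rw [hy, Affine.negY]
            simp [Wd, WeierstrassCurve.baseChange, WeierstrassCurve.map]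
          rw [this, smul_neg, hRfix]
      · rcases hN.pair x y h xR (xR * t) hR hxM hx1 hvxR hxx with hE | hE
        · exact inE1_smul_sub_of_add hσ hK hRfix (hE0 hE)
        · rw [sub_eq_add_neg] at hE
          refine inE1_smul_sub_of_add hσ hK ?_ (hE0 hE)
          rw [smul_neg, hRfix]

omit [DecidableEq K] in
lemma inE1_some_iff (A : ValuationSubring K) {W : Affine K} {x y : K} (h : W.Nonsingular x y) :
    InE1 A (Point.some x y h) ↔ x ∉ A := by
  constructor
  · rintro (h0 | ⟨x', y', h', e, hx'⟩)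
    · exact absurd h0 (by simp)
    · rw [Point.some.injEq] at e
      rw [e.1]; exact hx'
  · intro hx
    exact Or.inr ⟨x, y, h, rfl, hx⟩

end General

section Change

open Fermat.Agent.S05.Transfer

variable {R : Type*} {K : Type*} [CommRing R] [Field K] [DecidableEq K] [Algebra R K]

/-- A change of variables with `u` a unit of `A` and `r ∈ A` preserves the kernel of
reduction. -/
theorem inE1_baseChangeEquiv_iff (W : WeierstrassCurve R) (C : VariableChange R)
    (A : ValuationSubring K) (hu : A.valuation (algebraMap R K (C.u : R)) = 1)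
    (hr : algebraMap R K C.r ∈ A) (X : ((C • W).toAffine⁄K).Point) :
    InE1 A (baseChangeEquiv (K := K) W C X) ↔ InE1 A X := by
  rcases X with _ | ⟨x, y, hxy⟩
  · constructor <;> intro _ <;> exact Or.inl rfl
  · rw [baseChangeEquiv_some, inE1_some_iff, inE1_some_iff, not_iff_not]
    have hu2 : A.valuation ((algebraMap R K (C.u : R)) ^ 2) = 1 := by
      rw [map_pow, hu, one_pow]
    have e : mapX (C.map (algebraMap R K)) x = (algebraMap R K (C.u : R)) ^ 2 * x
        + algebraMap R K C.r := by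
      simp [mapX, VariableChange.map]
    rw [e]
    have hx_iff : (algebraMap R K (C.u : R)) ^ 2 * x ∈ A ↔ x ∈ A := by
      rw [← A.valuation_le_one_iff, ← A.valuation_le_one_iff, map_mul, hu2, one_mul]
    constructor
    · intro h
      have := sub_mem h hr
      rw [add_sub_cancel_right] at this
      exact hx_iff.mp this
    · intro h
      exact A.add_mem _ _ (hx_iff.mpr h) hr

end Change

section ChangeSmul

open Fermat.Agent.S05.Transfer

variable {R : Type*} {S : Type*} {K : Type*} [CommRing R] [CommRing S] [Field K]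
  [DecidableEq K] [Algebra R S] [Algebra R K] [Algebra S K] [IsScalarTower R S K]

/-- Transfer of the statement "`σ` moves `n`-torsion points only inside `E1`" along a change of
variables which is integral at `A` together with its inverse. -/
theorem inE1_smul_sub_variableChange (W : WeierstrassCurve R) (C : VariableChange R)
    (A : ValuationSubring K) (hu : A.valuation (algebraMap R K (C.u : R)) = 1)
    (hr : algebraMap R K C.r ∈ A) (σ : K ≃ₐ[S] K) (n : ℕ)
    (H : ∀ X : (W.toAffine⁄K).Point, n • X = 0 → InE1 A (σ • X - X))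
    (X : ((C • W).toAffine⁄K).Point) (hX : n • X = 0) : InE1 A (σ • X - X) := by
  rw [← inE1_baseChangeEquiv_iff W C A hu hr, map_sub, baseChangeEquiv_smul]
  apply H
  rw [← map_nsmul, hX, map_zero]

end ChangeSmul

section OverQbar

open Fermat.Agent.S05.Transfer Fermat.Agent.S05.Arith

local notation "Qbar" => AlgebraicClosure ℚ

theorem integralAt_Wd (A : ValuationSubring Qbar) (d₁ d₂ : ℚ)
    (hd₁ : A.valuation (algebraMap ℚ Qbar d₁) ≤ 1) (hd₂ : A.valuation (algebraMap ℚ Qbar d₂) ≤ 1) :
    IntegralAt ((Wd d₁ d₂).toAffine⁄Qbar) A := by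
  rw [A.valuation_le_one_iff] at hd₁ hd₂
  rw [Wd_baseChange]
  refine ⟨?_, ?_, ?_, ?_, ?_⟩
  · simp
  · simp only [Wd_a₂]
    exact A.neg_mem _ (A.add_mem _ _ hd₁ hd₂)
  · simp
  · simp only [Wd_a₄]
    exact A.mul_mem _ _ hd₁ hd₂
  · simp

/-- **Bp-i, good reduction, Legendre model.**  No condition on the residue characteristic
besides `v 2 = 1`. -/
theorem inE1_smul_sub_Wd_good (A : ValuationSubring Qbar) (d₁ d₂ : ℚ)
    (h2 : A.valuation (2 : Qbar) = 1)
    (hd1 : A.valuation (algebraMap ℚ Qbar d₁) = 1) (hd2 : A.valuation (algebraMap ℚ Qbar d₂) = 1)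
    (hd12 : A.valuation (algebraMap ℚ Qbar (d₁ - d₂)) = 1)
    {σ : Qbar ≃ₐ[ℚ] Qbar} (hσ : σ ∈ A.inertiaSubgroupIn ℚ)
    (X : ((Wd d₁ d₂).toAffine⁄Qbar).Point) : InE1 A (σ • X - X) := by
  refine good_inE1 (isInertial_of_mem A hσ)
    (weakKernelFacts A (integralAt_Wd A d₁ d₂ hd1.le hd2.le)) h2 hd1 hd2 ?_ X
  rw [← map_sub]; exact hd12

/-- **Bp-i, multiplicative reduction, Legendre model.**  No condition on the residue
characteristic besides `v 2 = 1` (in particular `q = p` is allowed). -/
theorem inE1_smul_sub_Wd_bad (A : ValuationSubring Qbar) (p q n : ℕ) (d₁ d₂ : ℚ)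
    (hp : p ≠ 0) (hq0 : q ≠ 0) (hq1 : A.valuation (q : Qbar) < 1) (hn : 1 ≤ n)
    (h2 : A.valuation (2 : Qbar) = 1)
    (hd1 : A.valuation (algebraMap ℚ Qbar d₁) = A.valuation (q : Qbar) ^ (p * n))
    (hd2 : A.valuation (algebraMap ℚ Qbar d₂) = 1)
    {σ : Qbar ≃ₐ[ℚ] Qbar} (hσ : σ ∈ A.inertiaSubgroupIn ℚ)
    (X : ((Wd d₁ d₂).toAffine⁄Qbar).Point) (hX : p • X = 0) : InE1 A (σ • X - X) := by
  have hq0' : (q : Qbar) ≠ 0 := by exact_mod_cast hq0
  have hd1lt : A.valuation (algebraMap ℚ Qbar d₁) < 1 := by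
    rw [hd1]
    exact pow_lt_one₀ zero_le hq1 (Nat.mul_ne_zero hp (by omega))
  have hd1ne : algebraMap ℚ Qbar d₁ ≠ 0 := by
    intro h0
    rw [h0, map_zero] at hd1
    exact pow_ne_zero _ ((Valuation.ne_zero_iff _).mpr hq0') hd1.symm
  exact bad_inE1 (isInertial_of_mem A hσ)
    (weakKernelFacts A (integralAt_Wd A d₁ d₂ hd1lt.le hd2.le))
    (Fermat.Agent.S05.NodeFinal.nodeFacts A d₁ d₂ p h2 hd1lt hd1ne hd2) hp
    (fun z => IsAlgClosed.exists_pow_nat_eq z (by norm_num)) h2 hq0' hq1 hd1 hd1lt hd2 X hX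

/-- Transfer from the Legendre model to the Frey curve. -/
theorem frey_inE1_of_Wd (P : FreyPackage) {r d₁ d₂ : ℚ}
    (h : P.freyCurve = freyChange r • Wd d₁ d₂) (A : ValuationSubring Qbar)
    (h2 : A.valuation (2 : Qbar) = 1) (hr : algebraMap ℚ Qbar r ∈ A)
    (σ : Qbar ≃ₐ[ℚ] Qbar) (n : ℕ)
    (H : ∀ X : ((Wd d₁ d₂).toAffine⁄Qbar).Point, n • X = 0 → InE1 A (σ • X - X)) :
    ∀ X : (P.freyCurve.toAffine⁄Qbar).Point, n • X = 0 → InE1 A (σ • X - X) := by
  rw [h]
  refine inE1_smul_sub_variableChange (S := ℚ) (Wd d₁ d₂) (freyChange r) A ?_ hr σ n H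
  have : ((freyChange r).u : ℚ) = 2 := rfl
  rw [this, map_ofNat]
  exact h2

/-- **Bp-i for the Frey curve**: for a place `A` over an odd prime `q` (`q = P.p` allowed), an
element of the inertia group at `A` moves every `p`-torsion point only inside the kernel of
reduction. -/
theorem frey_inE1_smul_sub (P : FreyPackage) {q : ℕ} (hq : q.Prime) (hq2 : q ≠ 2)
    (A : ValuationSubring Qbar) (hA : A.LiesOverPrime q)
    {σ : Qbar ≃ₐ[ℚ] Qbar} (hσ : σ ∈ A.inertiaSubgroupIn ℚ)
    (X : (P.freyCurve.toAffine⁄Qbar).Point) (hX : P.p • X = 0) : InE1 A (σ • X - X) := by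
  have h2 := valuation_two_eq_one A hq hq2 hA
  have hq1 : A.valuation (q : Qbar) < 1 := (liesOverPrime_iff A q).mp hA
  have hFLT : (P.a : ℚ) ^ P.p + (P.b : ℚ) ^ P.p = (P.c : ℚ) ^ P.p := hFLT_rat P
  have h0A : algebraMap ℚ Qbar 0 ∈ A := by rw [map_zero]; exact A.zero_mem
  by_cases ha : (q : ℤ) ∣ P.a
  · -- `q ∣ a`: `(d₁, d₂) = (a^p, -b^p)`
    have hb := not_dvd_b_of_dvd_a P hq ha
    obtain ⟨n, hn, hv⟩ := exists_valuation_intCast_pow A hq hA P.ha0 ha P.p
    refine frey_inE1_of_Wd P (freyCurve_eq_a P) A h2 h0A σ P.p (fun Y hY => ?_) X hX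
    refine inE1_smul_sub_Wd_bad A P.p q n _ _ P.hp0 hq.ne_zero hq1 hn h2 ?_ ?_ hσ Y hY
    · rw [Assembly.algebraMap_intCast_pow]; exact hv
    · rw [Assembly.algebraMap_neg_intCast_pow, Valuation.map_neg]
      exact valuation_intCast_pow_eq_one A hq hA hb P.p
  by_cases hb : (q : ℤ) ∣ P.b
  · -- `q ∣ b`: `(d₁, d₂) = (-b^p, a^p)`
    obtain ⟨n, hn, hv⟩ := exists_valuation_intCast_pow A hq hA P.hb0 hb P.p
    refine frey_inE1_of_Wd P (freyCurve_eq_b P) A h2 h0A σ P.p (fun Y hY => ?_) X hX
    refine inE1_smul_sub_Wd_bad A P.p q n _ _ P.hp0 hq.ne_zero hq1 hn h2 ?_ ?_ hσ Y hY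
    · rw [Assembly.algebraMap_neg_intCast_pow, Valuation.map_neg]; exact hv
    · rw [Assembly.algebraMap_intCast_pow]
      exact valuation_intCast_pow_eq_one A hq hA ha P.p
  have hrA : algebraMap ℚ Qbar (-(P.a : ℚ) ^ P.p) ∈ A := by
    rw [Assembly.algebraMap_neg_intCast_pow]
    exact A.neg_mem _ (pow_mem (intCast_mem A P.a) _)
  by_cases hc : (q : ℤ) ∣ P.c
  · -- `q ∣ c`: `(d₁, d₂) = (-c^p, -a^p)` after translation
    obtain ⟨n, hn, hv⟩ := exists_valuation_intCast_pow A hq hA P.hc0 hc P.p
    refine frey_inE1_of_Wd P (freyCurve_eq_c P) A h2 hrA σ P.p (fun Y hY => ?_) X hX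
    refine inE1_smul_sub_Wd_bad A P.p q n _ _ P.hp0 hq.ne_zero hq1 hn h2 ?_ ?_ hσ Y hY
    · rw [Assembly.algebraMap_neg_intCast_pow, Valuation.map_neg]; exact hv
    · rw [Assembly.algebraMap_neg_intCast_pow, Valuation.map_neg]
      exact valuation_intCast_pow_eq_one A hq hA ha P.p
  · -- good reduction
    refine frey_inE1_of_Wd P (freyCurve_eq_a P) A h2 h0A σ P.p (fun Y _ => ?_) X hX
    refine inE1_smul_sub_Wd_good A _ _ h2 ?_ ?_ ?_ hσ Y
    · rw [Assembly.algebraMap_intCast_pow]
      exact valuation_intCast_pow_eq_one A hq hA ha P.p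
    · rw [Assembly.algebraMap_neg_intCast_pow, Valuation.map_neg]
      exact valuation_intCast_pow_eq_one A hq hA hb P.p
    · have : (P.a : ℚ) ^ P.p - -(P.b : ℚ) ^ P.p = (P.c : ℚ) ^ P.p := by linarith
      rw [this, Assembly.algebraMap_intCast_pow]
      exact valuation_intCast_pow_eq_one A hq hA hc P.p

/-- The Frey curve has `A`-integral coefficients for every place `A` over an odd prime. -/
theorem integralAt_frey (P : FreyPackage) {q : ℕ} (hq : q.Prime) (hq2 : q ≠ 2)
    (A : ValuationSubring Qbar) (hA : A.LiesOverPrime q) :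
    IntegralAt (P.freyCurve.toAffine⁄Qbar) A := by
  have h2 := valuation_two_eq_one A hq hq2 hA
  have hdiv : ∀ (z : Qbar) (k : ℕ), z ∈ A → z / (2 : Qbar) ^ k ∈ A := by
    intro z k hz
    rw [← A.valuation_le_one_iff] at hz ⊢
    rw [map_div₀, map_pow, h2, one_pow, div_one]
    exact hz
  have ha : ((P.a : ℤ) : Qbar) ^ P.p ∈ A := pow_mem (intCast_mem A P.a) _
  have hb : ((P.b : ℤ) : Qbar) ^ P.p ∈ A := pow_mem (intCast_mem A P.b) _
  refine ⟨?_, ?_, ?_, ?_, ?_⟩
  · simp only [FreyPackage.freyCurve, WeierstrassCurve.baseChange, WeierstrassCurve.map]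
    simp only [map_one]
    exact A.one_mem
  · simp only [FreyPackage.freyCurve, WeierstrassCurve.baseChange, WeierstrassCurve.map]
    have e : algebraMap ℚ Qbar (((P.b : ℚ) ^ P.p - 1 - (P.a : ℚ) ^ P.p) / 4)
        = (((P.b : ℤ) : Qbar) ^ P.p - 1 - ((P.a : ℤ) : Qbar) ^ P.p) / (2 : Qbar) ^ 2 := by
      simp
      norm_num
    erw [e]
    exact hdiv _ 2 (sub_mem (sub_mem hb A.one_mem) ha)
  · simp only [FreyPackage.freyCurve, WeierstrassCurve.baseChange, WeierstrassCurve.map]
    simp only [map_zero]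
    exact A.zero_mem
  · simp only [FreyPackage.freyCurve, WeierstrassCurve.baseChange, WeierstrassCurve.map]
    have e : algebraMap ℚ Qbar (-((P.a : ℚ) ^ P.p) * ((P.b : ℚ) ^ P.p) / 16)
        = (-(((P.a : ℤ) : Qbar) ^ P.p) * (((P.b : ℤ) : Qbar) ^ P.p)) / (2 : Qbar) ^ 4 := by
      simp
      norm_num
    erw [e]
    exact hdiv _ 4 (mul_mem (neg_mem ha) hb)
  · simp only [FreyPackage.freyCurve, WeierstrassCurve.baseChange, WeierstrassCurve.map]
    simp only [map_zero]
    exact A.zero_mem

/-- The kernel of reduction of the Frey curve at a place over an odd prime is closed under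
negation, addition and subtraction. -/
theorem frey_weakKernelFacts (P : FreyPackage) {q : ℕ} (hq : q.Prime) (hq2 : q ≠ 2)
    (A : ValuationSubring Qbar) (hA : A.LiesOverPrime q) :
    WeakKernelFacts A (P.freyCurve.toAffine⁄Qbar) :=
  weakKernelFacts A (integralAt_frey P hq hq2 A hA)

end OverQbar

end Fermat.Agent.S13.AtPInertia
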