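import Mathlib
import Fermat.Agent.S13.AtPInertia

/-!
# S13, block Bp-iii: inertia at `p` acts trivially on a stable line or on the quotient by it

Pure group theory on `V = E[p]`, given

* (Bp-i) `σ • X - X ∈ E₁` for `σ` in the inertia group and `X ∈ V`  (`AtPInertia.lean`),
* (A')  `|N₀| = p`, `|V| = p²`,
* (Bp-ii) `V ⊄ E₁`.
-/

set_option autoImplicit false

namespace Fermat.Agent.S13.AtPLine

open WeierstrassCurve WeierstrassCurve.Affine WeierstrassCurve.Affine.Point
open Fermat.Agent.S05.Asm Fermat.Agent.S13.AtPInertia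

/-- In a group of order `p²`, a subgroup `V1 ≠ ⊤` either meets a subgroup `N0` of order `p`
trivially or is equal to it. -/
theorem inf_eq_bot_or_eq_of_card {V : Type*} [AddCommGroup V] {p : ℕ} (hp : p.Prime)
    (hV : Nat.card V = p ^ 2) (N0 V1 : AddSubgroup V) (hN0 : Nat.card N0 = p)
    (hV1 : V1 ≠ ⊤) : N0 ⊓ V1 = ⊥ ∨ V1 = N0 := by
  classical
  have hfin : Finite V := Nat.finite_of_card_ne_zero (by rw [hV]; exact pow_ne_zero _ hp.ne_zero)
  have hle : N0 ⊓ V1 ≤ N0 := inf_le_left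
  have hdvd : Nat.card (N0 ⊓ V1 : AddSubgroup V) ∣ p := by
    rw [← hN0]
    exact AddSubgroup.card_dvd_of_le hle
  rcases (Nat.dvd_prime hp).mp hdvd with h1 | h1
  · left
    exact AddSubgroup.card_eq_one.mp h1
  · right
    have hEq : N0 ⊓ V1 = N0 := by
      apply AddSubgroup.eq_of_le_of_card_ge hle
      rw [h1, hN0]
    have hN0V1 : N0 ≤ V1 := by
      rw [← hEq]; exact inf_le_right
    have hd1 : p ∣ Nat.card V1 := by
      rw [← hN0]; exact AddSubgroup.card_dvd_of_le hN0V1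
    have hd2 : Nat.card V1 ∣ p ^ 2 := by
      rw [← hV]; exact AddSubgroup.card_addSubgroup_dvd_card V1
    obtain ⟨k, hk, hk'⟩ := (Nat.dvd_prime_pow hp).mp hd2
    have hk1 : k = 1 ∨ k = 2 := by
      rcases k with _ | _ | _ | k
      · exfalso
        rw [hk', pow_zero] at hd1
        exact hp.one_lt.ne' (Nat.dvd_one.mp hd1)
      · left; rfl
      · right; rfl
      · omega
    rcases hk1 with rfl | rfl
    · symm
      apply AddSubgroup.eq_of_le_of_card_ge hN0V1
      rw [hk', hN0, pow_one]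
    · exfalso
      apply hV1
      apply AddSubgroup.eq_top_of_card_eq
      rw [hk', hV]

section Line

variable {K : Type*} [Field K] [DecidableEq K] [Algebra ℚ K]

/-- The `p`-torsion points in the kernel of reduction, as a subgroup of `V = E[p]`. -/
def V1 (A : ValuationSubring K) {W : Affine ℚ} (hK : WeakKernelFacts A (W⁄K)) (p : ℕ) :
    AddSubgroup (Submodule.torsionBy ℤ (W⁄K).Point p) where
  carrier := {x | InE1 A (x : (W⁄K).Point)}
  zero_mem' := inE1_zero A
  add_mem' := fun hx hy => hK.add _ _ hx hy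
  neg_mem' := fun hx => hK.neg _ hx

lemma mem_V1 (A : ValuationSubring K) {W : Affine ℚ}
    (hK : WeakKernelFacts A (W⁄K)) (p : ℕ)
    (x : Submodule.torsionBy ℤ (W⁄K).Point p) : x ∈ V1 A hK p ↔ InE1 A (x : (W⁄K).Point) :=
  Iff.rfl

/-- **Bp-iii**, abstract form: let `G` be a set of automorphisms moving `p`-torsion points only
inside the kernel of reduction, `N0` a `G`-stable subgroup of order `p` of `V`, `|V| = p²`, and
assume `V ⊄ E₁`.  Then `G` acts trivially on `N0`, or on `V / N0`. -/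
theorem trivial_on_line_or_quotient (A : ValuationSubring K) {W : Affine ℚ}
    (hK : WeakKernelFacts A (W⁄K)) {p : ℕ} (hp : p.Prime)
    (G : Set (K ≃ₐ[ℚ] K))
    (hG : ∀ σ ∈ G, ∀ X : (W⁄K).Point, p • X = 0 → InE1 A (σ • X - X))
    (N0 : Submodule (ZMod p) (Submodule.torsionBy ℤ (W⁄K).Point p))
    (hstab : ∀ σ ∈ G, ∀ x ∈ N0, σ • x ∈ N0)
    (hcardN : Nat.card N0 = p)
    (hcardV : Nat.card (Submodule.torsionBy ℤ (W⁄K).Point p) = p ^ 2)
    (hne : ∃ x : Submodule.torsionBy ℤ (W⁄K).Point p, ¬ InE1 A (x : (W⁄K).Point)) :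
    (∀ σ ∈ G, ∀ x ∈ N0, σ • x = x) ∨
      (∀ σ ∈ G, ∀ x : Submodule.torsionBy ℤ (W⁄K).Point p, σ • x - x ∈ N0) := by
  have hmove : ∀ σ ∈ G, ∀ x : Submodule.torsionBy ℤ (W⁄K).Point p,
      σ • x - x ∈ V1 A hK p := by
    intro σ hσ x
    rw [mem_V1]
    have hx : p • (x : (W⁄K).Point) = 0 := by
      have := x.2
      rw [Submodule.mem_torsionBy_iff] at this
      rw [← natCast_zsmul]
      exact this
    exact hG σ hσ _ hx
  have hV1 : V1 A hK p ≠ ⊤ := by
    obtain ⟨x, hx⟩ := hne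
    intro h
    apply hx
    rw [← mem_V1 A hK p, h]
    exact AddSubgroup.mem_top x
  rcases inf_eq_bot_or_eq_of_card hp hcardV N0.toAddSubgroup (V1 A hK p) hcardN hV1 with h | h
  · left
    intro σ hσ x hx
    have h1 : σ • x - x ∈ N0.toAddSubgroup ⊓ V1 A hK p :=
      ⟨N0.sub_mem (hstab σ hσ x hx) hx, hmove σ hσ x⟩
    rw [h, AddSubgroup.mem_bot] at h1
    exact sub_eq_zero.mp h1
  · right
    intro σ hσ x
    have h1 := hmove σ hσ x
    rw [h] at h1
    exact h1

end Line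

section Frey

local notation "Qbar" => AlgebraicClosure ℚ

/-- **Bp-iii for the Frey curve**: for a place `A` over `p`, the inertia group at `A` acts
trivially on a stable line `N0`, or on `V / N0`. -/
theorem frey_inertia_trivial_on_line_or_quotient (P : FreyPackage)
    (A : ValuationSubring Qbar) (hA : A.LiesOverPrime P.p)
    (N0 : Submodule (ZMod P.p) (Submodule.torsionBy ℤ (P.freyCurve.toAffine⁄Qbar).Point P.p))
    (hstab : IsGaloisStable ℚ N0)
    (hcardN : Nat.card N0 = P.p)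
    (hcardV : Nat.card (Submodule.torsionBy ℤ (P.freyCurve.toAffine⁄Qbar).Point P.p) = P.p ^ 2)
    (hne : ∃ x : Submodule.torsionBy ℤ (P.freyCurve.toAffine⁄Qbar).Point P.p,
      ¬ InE1 A (x : (P.freyCurve.toAffine⁄Qbar).Point)) :
    (∀ σ ∈ A.inertiaSubgroupIn ℚ, ∀ x ∈ N0, σ • x = x) ∨
      (∀ σ ∈ A.inertiaSubgroupIn ℚ,
        ∀ x : Submodule.torsionBy ℤ (P.freyCurve.toAffine⁄Qbar).Point P.p, σ • x - x ∈ N0) := by
  have hp2 : P.p ≠ 2 := by have := P.hp5; omega
  exact trivial_on_line_or_quotient A (frey_weakKernelFacts P P.pp hp2 A hA) P.pp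
    (A.inertiaSubgroupIn ℚ : Set (Qbar ≃ₐ[ℚ] Qbar))
    (fun σ hσ X hX => frey_inE1_smul_sub P P.pp hp2 A hA hσ X hX) N0
    (fun σ _ x hx => hstab σ x hx) hcardN hcardV hne

end Frey

end Fermat.Agent.S13.AtPLine
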