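/-
S13: the discriminant of the Frey curve is nonzero (`Δ = (a^p b^p c^p / 16)^2`).
(helper6)
-/
import Fermat.Prelude.Def_FLTPrelim_FreyPackage
import Mathlib

set_option autoImplicit false

open WeierstrassCurve

namespace Fermat.Agent.S13.FreyDisc

local notation "Qbar" => AlgebraicClosure ℚ

/-- `Δ = (a^p b^p c^p / 16)^2`. -/
theorem Δ_eq (P : FreyPackage) :
    P.freyCurve.Δ = (((P.a : ℚ) ^ P.p * (P.b : ℚ) ^ P.p * (P.c : ℚ) ^ P.p) / 16) ^ 2 := by
  have hFLT : (P.a : ℚ) ^ P.p + (P.b : ℚ) ^ P.p = (P.c : ℚ) ^ P.p := by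
    exact_mod_cast congrArg (fun n : ℤ => (n : ℚ)) P.hFLT
  simp only [WeierstrassCurve.Δ, WeierstrassCurve.b₂, WeierstrassCurve.b₄, WeierstrassCurve.b₆,
    WeierstrassCurve.b₈, FreyPackage.freyCurve]
  rw [← hFLT]
  ring

theorem Δ_ne_zero (P : FreyPackage) : P.freyCurve.Δ ≠ 0 := by
  rw [Δ_eq]
  have ha : (P.a : ℚ) ≠ 0 := by exact_mod_cast P.ha0
  have hb : (P.b : ℚ) ≠ 0 := by exact_mod_cast P.hb0
  have hc : (P.c : ℚ) ≠ 0 := by exact_mod_cast P.hc0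
  positivity

/-- The discriminant of the Frey curve over `ℚ̄` is nonzero. -/
theorem baseChange_Δ_ne_zero (P : FreyPackage) : (P.freyCurve.baseChange Qbar).Δ ≠ 0 := by
  rw [WeierstrassCurve.baseChange, WeierstrassCurve.map_Δ]
  exact (map_ne_zero_iff _ (algebraMap ℚ Qbar).injective).mpr (Δ_ne_zero P)

end Fermat.Agent.S13.FreyDisc
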