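/-
S13: the inputs of `Assembly.cofixed_of_inputs` from the landed blocks; the blocks which are still
in progress enter as the fields of `Remaining`.
(helper6)
-/
import Fermat.Agent.S13.Assembly
import Fermat.Agent.S13.Count
import Fermat.Agent.S13.AtPLine
import Fermat.Agent.S13.FreyTwo
import Fermat.Agent.S13.FreyDisc
import Fermat.Agent.S05

set_option autoImplicit false

open WeierstrassCurve WeierstrassCurve.Affine WeierstrassCurve.Affine.Point

namespace Fermat.Agent.S13.Final

open Fermat.Agent.S13.Assembly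
open Fermat.Agent.S05.Asm (InE1)

local notation "Qbar" => AlgebraicClosure ℚ
local notation "Γ" => (AlgebraicClosure ℚ ≃ₐ[ℚ] AlgebraicClosure ℚ)

/-- The outputs of the blocks which are not yet landed: (A) both directions of
`p • P = 0 ↔ preΨ'_p(x(P)) = 0` on the Frey curve over `ℚ̄`, (D-ii) no `p`-torsion in the kernel of
reduction at places over `2`, (D-iv) no rational `p`-torsion, (Bp-ii) not all of `E[p]` is in the
kernel of reduction at some place over `p` when a stable line exists. -/
structure Remaining (P : FreyPackage) : Prop where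
  root_of_tors : ∀ (x y : Qbar) (h : (P.freyCurve⁄Qbar).Nonsingular x y),
    P.p • Point.some x y h = 0 → ((P.freyCurve⁄Qbar).preΨ' P.p).eval x = 0
  tors_of_root : ∀ (x y : Qbar) (h : (P.freyCurve⁄Qbar).Nonsingular x y),
    ((P.freyCurve⁄Qbar).preΨ' P.p).eval x = 0 → P.p • Point.some x y h = 0
  kerTwo : ∀ A : ValuationSubring Qbar, A.LiesOverPrime 2 →
    ∀ R : (P.freyCurve⁄Qbar).Point, InE1 A R → P.p • R = 0 → R = 0
  rational : ∀ Q : (P.freyCurve⁄Qbar).Point, Q ≠ 0 → P.p • Q = 0 → (∀ σ : Γ, σ • Q = Q) → False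
  notAllKernel : ∀ N : Submodule (ZMod P.p) (V P), IsGaloisStable ℚ N → N ≠ ⊥ → N ≠ ⊤ →
    ∃ A : ValuationSubring Qbar, A.LiesOverPrime P.p ∧
      ∃ x : V P, ¬ InE1 A (x : (P.freyCurve⁄Qbar).Point)

variable {P : FreyPackage}

theorem inputs (R : Remaining P) : Inputs P := by
  have hp2 : P.p ≠ 2 := by have := P.hp5; omega
  have hpK : ((P.p : ℕ) : Qbar) ≠ 0 := by exact_mod_cast P.hp0
  have hfin : Finite (V P) := Count.finite_torsionBy hpK R.root_of_tors
  have hcard : Nat.card (V P) ≤ P.p ^ 2 := Count.card_torsionBy_le P.pp hp2 hpK R.root_of_tors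
  have : Fact P.p.Prime := ⟨P.pp⟩
  refine
    { nontrivial := Count.nontrivial_torsionBy (FreyDisc.baseChange_Δ_ne_zero P) P.pp hp2 hpK
        R.tors_of_root
      finite := hfin
      card_le := hcard
      odd := fun q hq hq2 hqp => Fermat.Agent.S05.result P hq hq2 hqp
      two := ?_
      rational := ?_
      atP := ?_ }
  · intro A hA σ hσ x
    apply Subtype.ext
    have hx : P.p • (x : (P.freyCurve⁄Qbar).Point) = 0 := by
      have := x.2
      rw [Submodule.mem_torsionBy_iff] at this
      rw [← natCast_zsmul]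
      exact this
    exact FreyTwo.smul_smul_sub_eq P hA hσ (R.kerTwo A hA) x hx
  · intro x hx hfix
    have hx' : P.p • (x : (P.freyCurve⁄Qbar).Point) = 0 := by
      have := x.2
      rw [Submodule.mem_torsionBy_iff] at this
      rw [← natCast_zsmul]
      exact this
    refine R.rational x (fun h0 => hx (Subtype.ext h0)) hx' fun σ => ?_
    exact congrArg Subtype.val (hfix σ)
  · intro N hN hbot htop
    obtain ⟨A, hA, hne⟩ := R.notAllKernel N hN hbot htop
    obtain ⟨hcN, hcV⟩ := Count.card_of_proper hcard N hbot htop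
    exact ⟨A, hA, AtPLine.frey_inertia_trivial_on_line_or_quotient P A hA N hN hcN hcV hne⟩

/-- **S13 from the remaining blocks.** -/
theorem cofixed_of_remaining (R : Remaining P)
    (hred : ¬ GaloisRepIsIrreducible (K := Qbar) ℚ P.freyCurve P.p) :
    HasGaloisStableCofixedLine (K := Qbar) ℚ P.freyCurve P.p :=
  cofixed_of_inputs P (inputs R) hred

end Fermat.Agent.S13.Final
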