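/-
S13, block (A) specialised: on the Frey curve over `ℚ̄`, `p • P = 0 ↔ preΨ'_p(x(P)) = 0`
(from helper19's `Fermat.Agent.Tors.DivPoly`), and `S13` from the three remaining blocks.
(helper6)
-/
import Fermat.Agent.S13.Final
import Fermat.Agent.Tors.DivPoly

set_option autoImplicit false

open WeierstrassCurve WeierstrassCurve.Affine WeierstrassCurve.Affine.Point

namespace Fermat.Agent.S13.TorsFrey

open Fermat.Agent.S13.Assembly
open Fermat.Agent.S05.Asm (InE1)

local notation "Qbar" => AlgebraicClosure ℚ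
local notation "Γ" => (AlgebraicClosure ℚ ≃ₐ[ℚ] AlgebraicClosure ℚ)

/-- Block (A) in the `ℕ` / `preΨ'` form, for an odd `n`, over any field. -/
theorem nsmul_eq_zero_iff_preΨ' {K : Type*} [Field K] [DecidableEq K] {W : Affine K} {x y : K}
    (h : W.Nonsingular x y) {n : ℕ} (hn : ¬ Even n) :
    n • Point.some x y h = 0 ↔ (W.preΨ' n).eval x = 0 := by
  have hn' : ¬ Even (n : ℤ) := by
    rwa [Int.even_coe_nat]
  rw [← natCast_zsmul, Fermat.Agent.Tors.zsmul_eq_zero_iff_preΨ_of_odd h hn', preΨ_ofNat]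

theorem p_not_even (P : FreyPackage) : ¬ Even P.p := by
  have := P.hp_odd
  exact Nat.not_even_iff_odd.mpr this

open Classical in
theorem smul_eq_zero_iff (P : FreyPackage) (x y : Qbar)
    (h : (P.freyCurve⁄Qbar).Nonsingular x y) :
    P.p • Point.some x y h = 0 ↔ ((P.freyCurve⁄Qbar).preΨ' P.p).eval x = 0 :=
  nsmul_eq_zero_iff_preΨ' h (p_not_even P)

/-- What is left after block (A): (D-ii), (D-iv), (Bp-ii). -/
structure Remaining3 (P : FreyPackage) : Prop where
  kerTwo : ∀ A : ValuationSubring Qbar, A.LiesOverPrime 2 →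
    ∀ R : (P.freyCurve⁄Qbar).Point, InE1 A R → P.p • R = 0 → R = 0
  rational : ∀ Q : (P.freyCurve⁄Qbar).Point, Q ≠ 0 → P.p • Q = 0 → (∀ σ : Γ, σ • Q = Q) → False
  notAllKernel : ∀ N : Submodule (ZMod P.p) (V P), IsGaloisStable ℚ N → N ≠ ⊥ → N ≠ ⊤ →
    ∃ A : ValuationSubring Qbar, A.LiesOverPrime P.p ∧
      ∃ x : V P, ¬ InE1 A (x : (P.freyCurve⁄Qbar).Point)

variable {P : FreyPackage}

theorem remaining (R : Remaining3 P) : Final.Remaining P where
  root_of_tors := fun x y h => (smul_eq_zero_iff P x y h).mp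
  tors_of_root := fun x y h => (smul_eq_zero_iff P x y h).mpr
  kerTwo := R.kerTwo
  rational := R.rational
  notAllKernel := R.notAllKernel

theorem cofixed_of_remaining3 (R : Remaining3 P)
    (hred : ¬ GaloisRepIsIrreducible (K := Qbar) ℚ P.freyCurve P.p) :
    HasGaloisStableCofixedLine (K := Qbar) ℚ P.freyCurve P.p :=
  Final.cofixed_of_remaining (remaining R) hred

end Fermat.Agent.S13.TorsFrey
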