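/-
S13 block D-ii (helper4): the kernel of reduction `E₁(A)` of an `A`-integral Weierstrass curve
has no odd torsion when the residue characteristic is `2` (`v 2 < 1`).

Duplication: `x(2P) · twoDiv(x P) = dupNum(x P)` with `v(dupNum x) = v(x)^4` and
`v(twoDiv x) < v(x)^3` for `v x > 1`, hence `v(x(2P)) > v(x(P)) > 1`; iterate along
`2^φ(m) ≡ 1 (mod m)`.
-/
import Mathlib
import Fermat.Agent.S05.AddSub
import Fermat.Agent.S05.KernelGeneral

set_option autoImplicit false

namespace Fermat.Agent.S13.TwoKernel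

open WeierstrassCurve WeierstrassCurve.Affine
open Fermat.Agent.S05

variable {K : Type*} [Field K] [DecidableEq K]

/-- One duplication step strictly increases `v(x)` inside the kernel of reduction, in residue
characteristic `2`. -/
theorem valuation_xc_add_self_gt (A : ValuationSubring K) {W : Affine K} (hW : IntegralAt W A)
    (h2 : A.valuation (2 : K) < 1) {P : W.Point} (hP : P ≠ 0) (h2P : P + P ≠ 0)
    (hx : 1 < A.valuation (xc P)) : A.valuation (xc P) < A.valuation (xc (P + P)) := by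
  have hdup := xc_add_self hP h2P
  have htd0 : twoDiv W (xc P) ≠ 0 := fun h0 => h2P ((add_self_eq_zero_iff hP).mpr h0)
  set v := A.valuation with hv
  set x := xc P with hxdef
  have hb2 : v W.b₂ ≤ 1 := (A.valuation_le_one_iff _).mpr hW.b₂
  have hb4 : v W.b₄ ≤ 1 := (A.valuation_le_one_iff _).mpr hW.b₄
  have hb6 : v W.b₆ ≤ 1 := (A.valuation_le_one_iff _).mpr hW.b₆
  have hb8 : v W.b₈ ≤ 1 := (A.valuation_le_one_iff _).mpr hW.b₈
  have h2' : v 2 ≤ 1 := h2.le
  have hx0 : 0 < v x := lt_trans zero_lt_one hx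
  have h12 : v x < v x ^ 2 := by
    have := pow_lt_pow_right₀ hx (show 1 < 2 by norm_num)
    simpa using this
  have h13 : v x < v x ^ 3 := by
    have := pow_lt_pow_right₀ hx (show 1 < 3 by norm_num)
    simpa using this
  have h23 : v x ^ 2 < v x ^ 3 := pow_lt_pow_right₀ hx (by norm_num)
  have h24 : v x ^ 2 < v x ^ 4 := pow_lt_pow_right₀ hx (by norm_num)
  have h1x3 : (1 : A.ValueGroup) < v x ^ 3 := lt_trans hx h13
  -- `v (dupNum x) = v x ^ 4`
  have hnum : v (dupNum W x) = v x ^ 4 := by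
    have e : dupNum W x = x ^ 4 - (W.b₄ * x ^ 2 + 2 * W.b₆ * x + W.b₈) := by
      simp only [dupNum]; ring
    rw [e]
    have hr : v (W.b₄ * x ^ 2 + 2 * W.b₆ * x + W.b₈) < v (x ^ 4) := by
      rw [map_pow]
      refine Valuation.map_add_lt _ (Valuation.map_add_lt _ ?_ ?_) ?_
      · rw [map_mul, map_pow]
        calc v W.b₄ * v x ^ 2 ≤ 1 * v x ^ 2 := by gcongr
          _ = v x ^ 2 := one_mul _
          _ < v x ^ 4 := h24
      · rw [map_mul, map_mul]
        calc v 2 * v W.b₆ * v x ≤ 1 * 1 * v x := by gcongr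
          _ = v x := by rw [one_mul, one_mul]
          _ < v x ^ 4 := lt_trans h12 h24
      · exact lt_of_le_of_lt hb8 (lt_trans hx (lt_trans h12 h24))
    rw [Valuation.map_sub_eq_of_lt_left _ hr, map_pow]
  -- `v (twoDiv x) < v x ^ 3`
  have hden : v (twoDiv W x) < v x ^ 3 := by
    simp only [twoDiv]
    refine Valuation.map_add_lt _ (Valuation.map_add_lt _ (Valuation.map_add_lt _ ?_ ?_) ?_) ?_
    · rw [map_mul, map_pow]
      have h4 : v 4 < 1 := by
        have : (4 : K) = 2 * 2 := by norm_num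
        rw [this, map_mul]
        calc v 2 * v 2 ≤ 1 * v 2 := by gcongr
          _ = v 2 := one_mul _
          _ < 1 := h2
      have hpos : 0 < v x ^ 3 := pow_pos hx0 3
      calc v 4 * v x ^ 3 < 1 * v x ^ 3 := by gcongr
        _ = v x ^ 3 := one_mul _
    · rw [map_mul, map_pow]
      calc v W.b₂ * v x ^ 2 ≤ 1 * v x ^ 2 := by gcongr
        _ = v x ^ 2 := one_mul _
        _ < v x ^ 3 := h23
    · rw [map_mul, map_mul]
      calc v 2 * v W.b₄ * v x ≤ 1 * 1 * v x := by gcongr
        _ = v x := by rw [one_mul, one_mul]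
        _ < v x ^ 3 := h13
    · exact lt_of_le_of_lt hb6 h1x3
  -- conclusion
  by_contra hle
  rw [not_lt] at hle
  have hprod : v (xc (P + P)) * v (twoDiv W x) = v x ^ 4 := by
    rw [← map_mul, hdup, hnum]
  have htd : 0 < v (twoDiv W x) := (Valuation.pos_iff v).mpr htd0
  have : v x ^ 4 < v x ^ 4 := by
    calc v x ^ 4 = v (xc (P + P)) * v (twoDiv W x) := hprod.symm
      _ ≤ v x * v (twoDiv W x) := by gcongr
      _ < v x * v x ^ 3 := by gcongr
      _ = v x ^ 4 := by rw [← pow_succ']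
  exact lt_irrefl _ this

/-- **S13, block D-ii.** In residue characteristic `2` the kernel of reduction of an
`A`-integral Weierstrass curve has no nonzero torsion of odd order. -/
theorem no_odd_torsion_inE1 (A : ValuationSubring K) {W : Affine K} (hW : IntegralAt W A)
    (h2 : A.valuation (2 : K) < 1) {m : ℕ} (hm : Odd m) (P : W.Point) (hP : Asm.InE1 A P)
    (hmP : m • P = 0) : P = 0 := by
  by_contra hP0
  rw [KernelGeneral.inE1_iff_xc] at hP
  have hxP : xc P ∉ A := hP.resolve_left hP0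
  have hx1 : 1 < A.valuation (xc P) := by
    rw [← not_le, A.valuation_le_one_iff]
    exact hxP
  have hcop : ∀ k, Nat.Coprime (2 ^ k) m := fun k =>
    Nat.Coprime.pow_left k hm.coprime_two_left
  have hQ0 : ∀ k, (2 ^ k) • P ≠ 0 := by
    intro k h0
    have h1 : addOrderOf P ∣ 2 ^ k := addOrderOf_dvd_of_nsmul_eq_zero h0
    have h2' : addOrderOf P ∣ m := addOrderOf_dvd_of_nsmul_eq_zero hmP
    have h3 : addOrderOf P ∣ 1 := by
      have := Nat.dvd_gcd h1 h2'
      rwa [Nat.Coprime.gcd_eq_one (hcop k)] at this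
    exact hP0 (AddMonoid.addOrderOf_eq_one_iff.mp (Nat.dvd_one.mp h3))
  have hstep : ∀ k, 1 < A.valuation (xc ((2 ^ k) • P)) →
      A.valuation (xc ((2 ^ k) • P)) < A.valuation (xc ((2 ^ (k + 1)) • P)) := by
    intro k hk
    have e : (2 ^ (k + 1)) • P = (2 ^ k) • P + (2 ^ k) • P := by
      rw [pow_succ, mul_nsmul, two_nsmul]
    rw [e]
    refine valuation_xc_add_self_gt A hW h2 (hQ0 k) ?_ hk
    rw [← e]
    exact hQ0 (k + 1)
  have hmono : ∀ k, A.valuation (xc P) ≤ A.valuation (xc ((2 ^ k) • P)) ∧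
      (1 ≤ k → A.valuation (xc P) < A.valuation (xc ((2 ^ k) • P))) := by
    intro k
    induction k with
    | zero => simp
    | succ k ih =>
      have h1 : 1 < A.valuation (xc ((2 ^ k) • P)) := lt_of_lt_of_le hx1 ih.1
      have h3 := lt_of_le_of_lt ih.1 (hstep k h1)
      exact ⟨h3.le, fun _ => h3⟩
  have hm0 : 0 < m := hm.pos
  have hφ : 1 ≤ Nat.totient m := Nat.totient_pos.mpr hm0
  have hmod : 2 ^ Nat.totient m ≡ 1 [MOD m] := Nat.ModEq.pow_totient hm.coprime_two_left
  have hmod' : 2 ^ Nat.totient m ≡ 1 [MOD addOrderOf P] :=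
    Nat.ModEq.of_dvd (addOrderOf_dvd_of_nsmul_eq_zero hmP) hmod
  have hfix : (2 ^ Nat.totient m) • P = P := by
    have := (nsmul_eq_nsmul_iff_modEq (x := P)).mpr hmod'
    rwa [one_nsmul] at this
  have := (hmono (Nat.totient m)).2 hφ
  rw [hfix] at this
  exact lt_irrefl _ this

/-- `x`-coordinate form of `no_odd_torsion_inE1`. -/
theorem false_of_odd_torsion (A : ValuationSubring K) {W : Affine K} (hW : IntegralAt W A)
    (h2 : A.valuation (2 : K) < 1) {m : ℕ} (hm : Odd m) {P : W.Point} (hP : P ≠ 0)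
    (hx : xc P ∉ A) (hmP : m • P = 0) : False :=
  hP (no_odd_torsion_inE1 A hW h2 hm P
    ((KernelGeneral.inE1_iff_xc A P).mpr (Or.inr hx)) hmP)

/-- Odd torsion points have integral `x`-coordinate in residue characteristic `2`. -/
theorem xc_mem_of_odd_torsion (A : ValuationSubring K) {W : Affine K} (hW : IntegralAt W A)
    (h2 : A.valuation (2 : K) < 1) {m : ℕ} (hm : Odd m) {P : W.Point}
    (hmP : m • P = 0) : xc P ∈ A := by
  by_contra hx
  have hP : P ≠ 0 := by
    rintro rfl
    exact hx (by simp)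
  exact false_of_odd_torsion A hW h2 hm hP hx hmP

/-- Variant with the hypothesis `(2 : K) ∈ A.nonunits`. -/
theorem no_odd_torsion_inE1' (A : ValuationSubring K) {W : Affine K} (hW : IntegralAt W A)
    (h2 : (2 : K) ∈ A.nonunits) {m : ℕ} (hm : Odd m) (P : W.Point) (hP : Asm.InE1 A P)
    (hmP : m • P = 0) : P = 0 :=
  no_odd_torsion_inE1 A hW (A.mem_nonunits_iff.mp h2) hm P hP hmP

end Fermat.Agent.S13.TwoKernel
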