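/-
S13: blocks (D-ii) (helper4, `TwoKernel`) and (D-iv) (helper16, `NoRationalTorsion`) specialised to
the Frey curve, in the shapes of `Final.Remaining`; `S13` from block (Bp-ii) alone.
(helper6)
-/
import Fermat.Agent.S13.TorsFrey
import Fermat.Agent.S13.TwoKernel
import Fermat.Agent.S13.NoRationalTorsion

set_option autoImplicit false

open WeierstrassCurve WeierstrassCurve.Affine WeierstrassCurve.Affine.Point

namespace Fermat.Agent.S13.TwoRat

open Fermat.Agent.S13.Assembly
open Fermat.Agent.S05.Asm (InE1)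

local notation "Qbar" => AlgebraicClosure ℚ
local notation "Γ" => (AlgebraicClosure ℚ ≃ₐ[ℚ] AlgebraicClosure ℚ)

variable (P : FreyPackage)

theorem valuation_two_lt_one {A : ValuationSubring Qbar} (hA : A.LiesOverPrime 2) :
    A.valuation (2 : Qbar) < 1 := by
  have := (Fermat.Agent.S05.Arith.liesOverPrime_iff A 2).mp hA
  simpa using this

/-- (D-ii) for the Frey curve: no `p`-torsion in the kernel of reduction at a place over `2`. -/
theorem kerTwo (A : ValuationSubring Qbar) (hA : A.LiesOverPrime 2)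
    (R : (P.freyCurve⁄Qbar).Point) (hR : InE1 A R) (hpR : P.p • R = 0) : R = 0 :=
  TwoKernel.no_odd_torsion_inE1 A (FreyTwo.integralAt_frey P A) (valuation_two_lt_one hA)
    P.hp_odd R hR hpR

/-- (D-iv) for the Frey curve: no nonzero rational point of order `p`. -/
theorem rational (Q : (P.freyCurve⁄Qbar).Point) (hQ : Q ≠ 0) (hpQ : P.p • Q = 0)
    (hfix : ∀ σ : Γ, σ • Q = Q) : False :=
  NoRationalTorsion.rational_of_kerTwo P (kerTwo P) Q hQ hpQ hfix

/-- The statement of block (Bp-ii), the only block of S13 still missing. -/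
def NotAllKernel (P : FreyPackage) : Prop :=
  ∀ N : Submodule (ZMod P.p) (V P), IsGaloisStable ℚ N → N ≠ ⊥ → N ≠ ⊤ →
    ∃ A : ValuationSubring Qbar, A.LiesOverPrime P.p ∧
      ∃ x : V P, ¬ InE1 A (x : (P.freyCurve⁄Qbar).Point)

variable {P}

theorem remaining3 (h : NotAllKernel P) : TorsFrey.Remaining3 P where
  kerTwo := kerTwo P
  rational := rational P
  notAllKernel := h

/-- **S13 from block (Bp-ii).** -/
theorem cofixed_of_notAllKernel (h : NotAllKernel P)
    (hred : ¬ GaloisRepIsIrreducible (K := Qbar) ℚ P.freyCurve P.p) :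
    HasGaloisStableCofixedLine (K := Qbar) ℚ P.freyCurve P.p :=
  TorsFrey.cofixed_of_remaining3 (remaining3 h) hred

end Fermat.Agent.S13.TwoRat
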