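/-
S13: all blocks are landed; block (Bp-ii) (helper27, `PsiProduct.exists_not_inE1`) in the shape
`TwoRat.NotAllKernel`, and the final statement.
(helper6)
-/
import Fermat.Agent.S13.TwoRat
import Fermat.Agent.S13.PsiProduct

set_option autoImplicit false

open WeierstrassCurve WeierstrassCurve.Affine WeierstrassCurve.Affine.Point

namespace Fermat.Agent.S13.Main

open Fermat.Agent.S13.Assembly
open Fermat.Agent.S05.Asm (InE1)

local notation "Qbar" => AlgebraicClosure ℚ
local notation "Γ" => (AlgebraicClosure ℚ ≃ₐ[ℚ] AlgebraicClosure ℚ)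

variable (P : FreyPackage)

/-- Block (Bp-ii) in the shape needed by the assembly. -/
theorem notAllKernel : TwoRat.NotAllKernel P := by
  intro N hN hbot htop
  have hp2 : P.p ≠ 2 := by have := P.hp5; omega
  have hpK : ((P.p : ℕ) : Qbar) ≠ 0 := by exact_mod_cast P.hp0
  have hroot := fun x y h => (TorsFrey.smul_eq_zero_iff P x y h).mp
  have hfin : Finite (V P) := Count.finite_torsionBy hpK hroot
  have hcard : Nat.card (V P) ≤ P.p ^ 2 := Count.card_torsionBy_le P.pp hp2 hpK hroot
  have : Fact P.p.Prime := ⟨P.pp⟩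
  obtain ⟨hcN, -⟩ := Count.card_of_proper hcard N hbot htop
  obtain ⟨A, hA⟩ := Fermat.Agent.S54.exists_valuationSubring_liesOverPrime P.p P.pp
  have hA' : A.LiesOverPrime P.p := hA
  exact ⟨A, hA', PsiProduct.exists_not_inE1 P (TorsFrey.smul_eq_zero_iff P) A hA' N hN hbot hcN.le⟩

/-- **S13.** If the mod `p` representation of the Frey curve is reducible, then `E[p]` has a
Galois-stable line on whose quotient Galois acts trivially. -/
theorem frey_cofixed
    (hred : ¬ GaloisRepIsIrreducible (K := Qbar) ℚ P.freyCurve P.p) :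
    HasGaloisStableCofixedLine (K := Qbar) ℚ P.freyCurve P.p :=
  TwoRat.cofixed_of_notAllKernel (notAllKernel P) hred

end Fermat.Agent.S13.Main
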