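import Mathlib
import Fermat.Agent.S05.NodePair
import Fermat.Agent.S05.NodeIter

/-!
# S13 / block D-iv, part 1: the pair law at a node for `y² + a₁ x y = x³ + a₂ x² + a₄ x`

Generalisation of `Fermat.Agent.S05.NodePt` (M1) to a model with `a₁ ≠ 0`, valid in residue
characteristic `2`: the hypotheses are `2 ≠ 0`, `v 2 ≤ 1`, `v b₂ = 1` (`b₂ = a₁² + 4 a₂`),
`0 < v a₄ < 1`, `a₃ = a₆ = 0`.  The `Γ₀`-core (`NodePair.pairLaw_aux`, `double_aux`) is reused
as is, after completing the square `η = y + a₁ x / 2`.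
-/

set_option autoImplicit false
set_option linter.unusedSectionVars false

namespace Fermat.Agent.S13.Node2

open WeierstrassCurve WeierstrassCurve.Affine Fermat.Agent.S05.NodePair

section field

variable {K : Type*} [Field K] {a₁ a₂ a₄ : K}

theorem four_ne_zero' (h2 : (2 : K) ≠ 0) : (4 : K) ≠ 0 := by
  rw [show (4 : K) = 2 * 2 by norm_num]; exact mul_ne_zero h2 h2

/-- completing the square -/
theorem eta_sq (h2 : (2 : K) ≠ 0) {x y : K} (h : y ^ 2 + a₁ * x * y = x ^ 3 + a₂ * x ^ 2 + a₄ * x) :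
    (y + a₁ * x / 2) ^ 2 = x ^ 3 + (a₂ + a₁ ^ 2 / 4) * x ^ 2 + a₄ * x := by
  have h4 := four_ne_zero' h2
  field_simp
  linear_combination 16 * h

theorem rho_plus_eq (h2 : (2 : K) ≠ 0) {x1 x2 y1 y2 : K} (hx : x1 ≠ x2) :
    ((y1 - y2) / (x1 - x2)) ^ 2 + a₁ * ((y1 - y2) / (x1 - x2)) - a₂ - x1 - x2 =
      (((y1 + a₁ * x1 / 2) - (y2 + a₁ * x2 / 2)) / (x1 - x2)) ^ 2 - (a₂ + a₁ ^ 2 / 4) - x1 - x2 := by
  have hd : x1 - x2 ≠ 0 := sub_ne_zero.mpr hx
  have h4 := four_ne_zero' h2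
  field_simp
  ring

theorem rho_minus_eq (h2 : (2 : K) ≠ 0) {x1 x2 y1 y2 : K} (hx : x1 ≠ x2) :
    ((y1 - (-y2 - a₁ * x2)) / (x1 - x2)) ^ 2 + a₁ * ((y1 - (-y2 - a₁ * x2)) / (x1 - x2))
        - a₂ - x1 - x2 =
      (((y1 + a₁ * x1 / 2) + (y2 + a₁ * x2 / 2)) / (x1 - x2)) ^ 2 - (a₂ + a₁ ^ 2 / 4) - x1 - x2 := by
  have hd : x1 - x2 ≠ 0 := sub_ne_zero.mpr hx
  have h4 := four_ne_zero' h2
  field_simp
  ring

theorem rho_double_eq (h2 : (2 : K) ≠ 0) {x y : K} (hy : 2 * y + a₁ * x ≠ 0) :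
    ((3 * x ^ 2 + 2 * a₂ * x + a₄ - a₁ * y) / (2 * y + a₁ * x)) ^ 2
        + a₁ * ((3 * x ^ 2 + 2 * a₂ * x + a₄ - a₁ * y) / (2 * y + a₁ * x)) - a₂ - x - x =
      ((3 * x ^ 2 + 2 * (a₂ + a₁ ^ 2 / 4) * x + a₄) / (2 * (y + a₁ * x / 2))) ^ 2
        - (a₂ + a₁ ^ 2 / 4) - x - x := by
  have h4 := four_ne_zero' h2
  have e : 2 * (y + a₁ * x / 2) = 2 * y + a₁ * x := by field_simp
  have e2 : (3 * x ^ 2 + 2 * (a₂ + a₁ ^ 2 / 4) * x + a₄) / (2 * y + a₁ * x) =
      (3 * x ^ 2 + 2 * a₂ * x + a₄ - a₁ * y) / (2 * y + a₁ * x) + a₁ / 2 := by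
    rw [div_add_div _ _ hy h2, div_eq_div_iff hy (mul_ne_zero hy h2)]
    field_simp
    ring
  rw [e, e2]
  generalize (3 * x ^ 2 + 2 * a₂ * x + a₄ - a₁ * y) / (2 * y + a₁ * x) = l
  field_simp
  ring

variable {Γ₀ : Type*} [LinearOrderedCommGroupWithZero Γ₀] (v : Valuation K Γ₀)

theorem val_four_le_one (hv2 : v 2 ≤ 1) : v (4 : K) ≤ 1 := by
  rw [show (4 : K) = 2 * 2 by norm_num, map_mul]
  exact Left.mul_le_one hv2 hv2

/-- The pair law for the `x`-coordinates of `P + Q` and `P - Q` (case `x1 ≠ x2`) on the curve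
`y² + a₁ x y = x³ + a₂ x² + a₄ x` with `v 2 ≤ 1`, `v (a₁² + 4 a₂) = 1` and `0 < v a₄ < 1`. -/
theorem pairLaw_field (h2 : (2 : K) ≠ 0) (hv2 : v 2 ≤ 1) (hvb : v (a₁ ^ 2 + 4 * a₂) = 1)
    (hb0 : a₄ ≠ 0) (hb1 : v a₄ < 1) {x1 x2 y1 y2 : K}
    (h1 : y1 ^ 2 + a₁ * x1 * y1 = x1 ^ 3 + a₂ * x1 ^ 2 + a₄ * x1)
    (h2' : y2 ^ 2 + a₁ * x2 * y2 = x2 ^ 3 + a₂ * x2 ^ 2 + a₄ * x2) (hx : x1 ≠ x2) :
    PairLaw (v a₄)
      (v (((y1 - y2) / (x1 - x2)) ^ 2 + a₁ * ((y1 - y2) / (x1 - x2)) - a₂ - x1 - x2))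
      (v (((y1 - (-y2 - a₁ * x2)) / (x1 - x2)) ^ 2
        + a₁ * ((y1 - (-y2 - a₁ * x2)) / (x1 - x2)) - a₂ - x1 - x2))
      (clamp (v a₄) (v x1)) (clamp (v a₄) (v x2)) := by
  rw [rho_plus_eq h2 hx, rho_minus_eq h2 hx]
  have H1 := eta_sq h2 h1
  have H2 := eta_sq h2 h2'
  have hsum := addsub_sum H1 H2 hx
  have hprod := addsub_prod H1 H2 hx
  set rp := ((y1 + a₁ * x1 / 2 - (y2 + a₁ * x2 / 2)) / (x1 - x2)) ^ 2
    - (a₂ + a₁ ^ 2 / 4) - x1 - x2 with hrp
  set rm := ((y1 + a₁ * x1 / 2 + (y2 + a₁ * x2 / 2)) / (x1 - x2)) ^ 2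
    - (a₂ + a₁ ^ 2 / 4) - x1 - x2 with hrm
  have h4 := four_ne_zero' h2
  have hS : 2 * ((x1 + x2) * (x1 * x2 + a₄) + 2 * (a₂ + a₁ ^ 2 / 4) * x1 * x2) =
      2 * ((x1 + x2) * (x1 * x2 + a₄)) + (a₁ ^ 2 + 4 * a₂) * (x1 * x2) := by
    field_simp
    ring
  rw [hS] at hsum
  have hT2 : v ((a₁ ^ 2 + 4 * a₂) * (x1 * x2)) = v x1 * v x2 := by
    rw [map_mul, map_mul, hvb, one_mul]
  have hT1 : v (2 * ((x1 + x2) * (x1 * x2 + a₄))) ≤
      max (v x1) (v x2) * max (v x1 * v x2) (v a₄) := by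
    rw [map_mul, map_mul]
    have e1 : v (x1 + x2) ≤ max (v x1) (v x2) := v.map_add x1 x2
    have e2 : v (x1 * x2 + a₄) ≤ max (v x1 * v x2) (v a₄) := by
      have := v.map_add (x1 * x2) a₄
      rwa [map_mul] at this
    calc v 2 * (v (x1 + x2) * v (x1 * x2 + a₄)) ≤ 1 * (v (x1 + x2) * v (x1 * x2 + a₄)) := by
          gcongr
      _ = v (x1 + x2) * v (x1 * x2 + a₄) := one_mul _
      _ ≤ _ := mul_le_mul' e1 e2
  refine pairLaw_aux (V1 := v x1) (V2 := v x2) (Δ := v (x1 - x2)) (e := v (x1 * x2 - a₄))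
    (s := v (2 * ((x1 + x2) * (x1 * x2 + a₄)) + (a₁ ^ 2 + 4 * a₂) * (x1 * x2)))
    (σ := v (rp + rm))
    ((v.ne_zero_iff).mpr hb0) hb1 ((v.ne_zero_iff).mpr (sub_ne_zero.mpr hx))
    (v.map_sub x1 x2) ?_ ?_ ?_ ?_ ?_ ?_ ?_ (v.map_add rp rm)
    (fun h => v.map_add_of_distinct_val h)
  · intro h
    rw [sub_eq_add_neg]
    have := v.map_add_of_distinct_val (x := x1) (y := -x2) (by rwa [v.map_neg])
    rwa [v.map_neg] at this
  · have := v.map_sub (x1 * x2) a₄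
    rwa [map_mul] at this
  · intro h
    rw [sub_eq_add_neg]
    have := v.map_add_of_distinct_val (x := x1 * x2) (y := -a₄) (by rwa [v.map_neg, map_mul])
    rwa [v.map_neg, map_mul] at this
  · exact (v.map_add _ _).trans (max_le_max hT1 hT2.le)
  · intro h
    rw [← hT2]
    apply v.map_add_eq_of_lt_right
    rw [hT2]
    exact hT1.trans_lt h
  · rw [← map_pow, ← map_mul, ← map_pow, ← map_mul, hprod]
  · rw [← map_pow, ← map_mul, hsum]

/-- The doubling law. -/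
theorem double_field (h2 : (2 : K) ≠ 0) (hv2 : v 2 ≤ 1) (hvb : v (a₁ ^ 2 + 4 * a₂) = 1)
    (hb0 : a₄ ≠ 0) (hb1 : v a₄ < 1) {x y : K}
    (h : y ^ 2 + a₁ * x * y = x ^ 3 + a₂ * x ^ 2 + a₄ * x) (hy : 2 * y + a₁ * x ≠ 0) :
    clamp (v a₄) (v (((3 * x ^ 2 + 2 * a₂ * x + a₄ - a₁ * y) / (2 * y + a₁ * x)) ^ 2
        + a₁ * ((3 * x ^ 2 + 2 * a₂ * x + a₄ - a₁ * y) / (2 * y + a₁ * x)) - a₂ - x - x)) =
      fold (v a₄) (clamp (v a₄) (v x) * clamp (v a₄) (v x)) := by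
  rw [rho_double_eq h2 hy]
  have h4 := four_ne_zero' h2
  have hv4 := val_four_le_one v hv2
  have H := eta_sq h2 h
  have hη : y + a₁ * x / 2 ≠ 0 := by
    intro h0
    apply hy
    have : 2 * y + a₁ * x = 2 * (y + a₁ * x / 2) := by field_simp
    rw [this, h0, mul_zero]
  have hid := double_id H hη h2
  have hYF : (4 : K) * (y + a₁ * x / 2) ^ 2 = x * (4 * x ^ 2 + (a₁ ^ 2 + 4 * a₂) * x + 4 * a₄) := by
    rw [H]
    field_simp
    ring
  have hbx : v ((a₁ ^ 2 + 4 * a₂) * x) = v x := by rw [map_mul, hvb, one_mul]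
  have h4x : v (4 * x ^ 2) ≤ v x ^ 2 := by
    rw [map_mul, map_pow]
    calc v 4 * v x ^ 2 ≤ 1 * v x ^ 2 := by gcongr
      _ = v x ^ 2 := one_mul _
  have h4b : v (4 * a₄) ≤ v a₄ := by
    rw [map_mul]
    calc v 4 * v a₄ ≤ 1 * v a₄ := by gcongr
      _ = v a₄ := one_mul _
  refine double_aux (V := v x) (F := v (4 * x ^ 2 + (a₁ ^ 2 + 4 * a₂) * x + 4 * a₄))
    (e := v (x ^ 2 - a₄)) ((v.ne_zero_iff).mpr hb0) hb1 ?_ ?_ ?_ ?_ ?_ ?_
  · rw [← map_mul, ← hYF]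
    exact (v.ne_zero_iff).mpr (mul_ne_zero h4 (pow_ne_zero 2 hη))
  · refine (v.map_add _ _).trans (max_le_max ?_ h4b)
    refine (v.map_add _ _).trans (max_le_max h4x hbx.le)
  · intro hlt
    have h3 : v (4 * x ^ 2 + (a₁ ^ 2 + 4 * a₂) * x) = v x := by
      rw [← hbx]
      apply v.map_add_eq_of_lt_right
      rw [hbx]
      exact h4x.trans_lt ((le_max_left _ _).trans_lt hlt)
    rw [← h3]
    apply v.map_add_eq_of_lt_left
    rw [h3]
    exact h4b.trans_lt ((le_max_right _ _).trans_lt hlt)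
  · have := v.map_sub (x ^ 2) a₄
    rwa [map_pow] at this
  · intro hne
    rw [sub_eq_add_neg]
    have := v.map_add_of_distinct_val (x := x ^ 2) (y := -a₄) (by rwa [v.map_neg, map_pow])
    rwa [v.map_neg, map_pow] at this
  · rw [← map_mul, ← hYF, ← map_mul]
    rw [hid, map_pow]

end field

/-! ### Points -/

variable {K : Type*} [Field K] [DecidableEq K] {Γ₀ : Type*} [LinearOrderedCommGroupWithZero Γ₀]

/-- The hypotheses on the curve: `y² + a₁ x y = x³ + a₂ x² + a₄ x`, with `b₂ = a₁² + 4 a₂` a unit,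
`2` integral and nonzero, and `a₄` a nonzero non-unit. -/
structure NodeHyp (v : Valuation K Γ₀) (W : Affine K) : Prop where
  a3 : W.a₃ = 0
  a6 : W.a₆ = 0
  two_ne : (2 : K) ≠ 0
  v2 : v 2 ≤ 1
  vb : v (W.a₁ ^ 2 + 4 * W.a₂) = 1
  b0 : W.a₄ ≠ 0
  b1 : v W.a₄ < 1

variable (v : Valuation K Γ₀) (W : Affine K)

/-- The clamped valuation of the `x`-coordinate; `1` at the point at infinity. -/
def nu : W.Point → Γ₀
  | .zero => 1
  | .some x _ _ => clamp (v W.a₄) (v x)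

@[simp] theorem nu_zero : nu v W 0 = 1 := rfl

@[simp] theorem nu_some {x y : K} (h : W.Nonsingular x y) :
    nu v W (.some x y h) = clamp (v W.a₄) (v x) := rfl

theorem nu_neg (P : W.Point) : nu v W (-P) = nu v W P := by
  cases P with
  | zero => rfl
  | some x y h => rfl

variable {v W}

theorem point_cases (P : W.Point) : P = 0 ∨ ∃ x y h, P = Point.some x y h := by
  cases P with
  | zero => exact Or.inl rfl
  | some x y h => exact Or.inr ⟨x, y, h, rfl⟩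

namespace NodeHyp

variable (H : NodeHyp v W)
include H

theorem M_ne_zero : v W.a₄ ≠ 0 := (v.ne_zero_iff).mpr H.b0

theorem eqn {x y : K} (h : W.Nonsingular x y) :
    y ^ 2 + W.a₁ * x * y = x ^ 3 + W.a₂ * x ^ 2 + W.a₄ * x := by
  have := (W.equation_iff x y).mp h.left
  rw [H.a3, H.a6] at this
  linear_combination this

theorem negY_eq (x y : K) : W.negY x y = -y - W.a₁ * x := by
  rw [negY, H.a3]; ring

theorem nu_le_one (P : W.Point) : nu v W P ≤ 1 := by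
  cases P with
  | zero => exact le_rfl
  | some x y h => exact clamp_le_one H.b1.le

theorem le_nu (P : W.Point) : v W.a₄ ≤ nu v W P := by
  cases P with
  | zero => exact H.b1.le
  | some x y h => exact le_clamp

theorem nu_ne_zero (P : W.Point) : nu v W P ≠ 0 :=
  (lt_of_lt_of_le (zero_lt_iff.mpr H.M_ne_zero) (H.le_nu P)).ne'

theorem nu_add_of_X_ne {x1 x2 y1 y2 : K} (h1 : W.Nonsingular x1 y1) (h2 : W.Nonsingular x2 y2)
    (hx : x1 ≠ x2) :
    nu v W (Point.some x1 y1 h1 + Point.some x2 y2 h2) =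
      clamp (v W.a₄) (v (((y1 - y2) / (x1 - x2)) ^ 2 + W.a₁ * ((y1 - y2) / (x1 - x2))
        - W.a₂ - x1 - x2)) := by
  rw [Point.add_of_X_ne hx, nu_some, slope_of_X_ne hx, addX]

theorem nu_sub_of_X_ne {x1 x2 y1 y2 : K} (h1 : W.Nonsingular x1 y1) (h2 : W.Nonsingular x2 y2)
    (hx : x1 ≠ x2) :
    nu v W (Point.some x1 y1 h1 - Point.some x2 y2 h2) =
      clamp (v W.a₄) (v (((y1 - (-y2 - W.a₁ * x2)) / (x1 - x2)) ^ 2
        + W.a₁ * ((y1 - (-y2 - W.a₁ * x2)) / (x1 - x2)) - W.a₂ - x1 - x2)) := by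
  rw [sub_eq_add_neg, Point.neg_some, Point.add_of_X_ne hx, nu_some, slope_of_X_ne hx, addX,
    H.negY_eq]

theorem sub_negY (x y : K) : y - W.negY x y = 2 * y + W.a₁ * x := by
  rw [H.negY_eq]; ring

theorem nu_add_self_of_Y_ne {x y : K} (h : W.Nonsingular x y) (hy : 2 * y + W.a₁ * x ≠ 0) :
    nu v W (Point.some x y h + Point.some x y h) =
      clamp (v W.a₄) (v (((3 * x ^ 2 + 2 * W.a₂ * x + W.a₄ - W.a₁ * y) / (2 * y + W.a₁ * x)) ^ 2
        + W.a₁ * ((3 * x ^ 2 + 2 * W.a₂ * x + W.a₄ - W.a₁ * y) / (2 * y + W.a₁ * x))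
        - W.a₂ - x - x)) := by
  have hy' : y ≠ W.negY x y := by
    intro h0
    apply hy
    rw [← H.sub_negY, sub_eq_zero]
    exact h0
  rw [Point.add_self_of_Y_ne hy', nu_some, slope_of_Y_ne rfl hy', addX, H.sub_negY]

/-- At a `2`-torsion point the value of `nu` is `1` or `M`. -/
theorem nu_of_two_torsion {x y : K} (h : W.Nonsingular x y) (hy : 2 * y + W.a₁ * x = 0) :
    clamp (v W.a₄) (v x) = 1 ∨ clamp (v W.a₄) (v x) = v W.a₄ := by
  rcases le_or_gt 1 (v x) with h1 | h1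
  · exact Or.inl (clamp_of_one_le H.b1.le h1)
  · right
    apply clamp_of_le H.b1.le
    by_contra hlt
    rw [not_le] at hlt
    have h4 := four_ne_zero' H.two_ne
    have hv4 := val_four_le_one v H.v2
    have e := eta_sq H.two_ne (H.eqn h)
    have hη : y + W.a₁ * x / 2 = 0 := by
      have : 2 * (y + W.a₁ * x / 2) = 2 * y + W.a₁ * x := by
        have := H.two_ne
        field_simp
      have h0 : 2 * (y + W.a₁ * x / 2) = 0 := by rw [this, hy]
      rcases mul_eq_zero.mp h0 with h' | h'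
      · exact absurd h' H.two_ne
      · exact h'
    rw [hη] at e
    have e' : x * (4 * x ^ 2 + (W.a₁ ^ 2 + 4 * W.a₂) * x + 4 * W.a₄) = 0 := by
      have : x * (4 * x ^ 2 + (W.a₁ ^ 2 + 4 * W.a₂) * x + 4 * W.a₄) =
          4 * (x ^ 3 + (W.a₂ + W.a₁ ^ 2 / 4) * x ^ 2 + W.a₄ * x) := by
        field_simp
        ring
      rw [this, ← e]; ring
    have hx0 : x ≠ 0 := by
      intro h0
      rw [h0, map_zero] at hlt
      exact not_lt_zero hlt
    have e2 : 4 * x ^ 2 + (W.a₁ ^ 2 + 4 * W.a₂) * x + 4 * W.a₄ = 0 :=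
      (mul_eq_zero.mp e').resolve_left hx0
    have hbx : v ((W.a₁ ^ 2 + 4 * W.a₂) * x) = v x := by rw [map_mul, H.vb, one_mul]
    have h4x : v (4 * x ^ 2) < v x := by
      rw [map_mul, map_pow, sq]
      have hxpos : 0 < v x := zero_lt_iff.mpr ((v.ne_zero_iff).mpr hx0)
      calc v 4 * (v x * v x) ≤ 1 * (v x * v x) := by gcongr
        _ = v x * v x := one_mul _
        _ < 1 * v x := mul_lt_mul_of_pos_right h1 hxpos
        _ = v x := one_mul _
    have h4b : v (4 * W.a₄) < v x := by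
      rw [map_mul]
      calc v 4 * v W.a₄ ≤ 1 * v W.a₄ := by gcongr
        _ = v W.a₄ := one_mul _
        _ < v x := hlt
    have h3 : v (4 * x ^ 2 + (W.a₁ ^ 2 + 4 * W.a₂) * x) = v x := by
      rw [← hbx]
      apply v.map_add_eq_of_lt_right
      rw [hbx]; exact h4x
    have h5 : v (4 * x ^ 2 + (W.a₁ ^ 2 + 4 * W.a₂) * x + 4 * W.a₄) = v x := by
      rw [← h3]
      apply v.map_add_eq_of_lt_left
      rw [h3]; exact h4b
    rw [e2, map_zero] at h5
    exact (v.ne_zero_iff).mpr hx0 h5.symm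

theorem fold_one : fold (v W.a₄) 1 = 1 := fold_of_le H.M_ne_zero H.b1.le

theorem fold_M_mul_M : fold (v W.a₄) (v W.a₄ * v W.a₄) = 1 := by
  have h0 := H.M_ne_zero
  rw [fold_of_ge (mul_ne_zero h0 h0) (mul_le_of_le_one_left' H.b1.le), sq,
    div_self (mul_ne_zero h0 h0)]

/-- The doubling law for all points. -/
theorem nu_add_self (P : W.Point) :
    nu v W (P + P) = fold (v W.a₄) (nu v W P * nu v W P) := by
  rcases point_cases P with rfl | ⟨x, y, h, rfl⟩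
  · rw [add_zero, nu_zero, mul_one, H.fold_one]
  · by_cases hy : 2 * y + W.a₁ * x = 0
    · have h0 : y = W.negY x y := by
        rw [← sub_eq_zero, H.sub_negY]; exact hy
      rw [Point.add_self_of_Y_eq h0, nu_zero, nu_some]
      rcases H.nu_of_two_torsion h hy with e | e
      · rw [e, mul_one, H.fold_one]
      · rw [e, H.fold_M_mul_M]
    · rw [H.nu_add_self_of_Y_ne h hy, nu_some]
      exact double_field v H.two_ne H.v2 H.vb H.b0 H.b1 (H.eqn h) hy

end NodeHyp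

/-- The pair law for two points. -/
def PtPairLaw (v : Valuation K Γ₀) (W : Affine K) (P Q : W.Point) : Prop :=
  (nu v W (P + Q) = fold (v W.a₄) (nu v W P * nu v W Q) ∧
      nu v W (P - Q) = min (nu v W P / nu v W Q) (nu v W Q / nu v W P)) ∨
    (nu v W (P + Q) = min (nu v W P / nu v W Q) (nu v W Q / nu v W P) ∧
      nu v W (P - Q) = fold (v W.a₄) (nu v W P * nu v W Q))

namespace NodeHyp

variable (H : NodeHyp v W)
include H

theorem min_div_self (P : W.Point) : min (nu v W P / nu v W P) (nu v W P / nu v W P) = 1 := by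
  rw [min_self, div_self (H.nu_ne_zero P)]

/-- **The pair law** for all pairs of points. -/
theorem pairLaw (P Q : W.Point) : PtPairLaw v W P Q := by
  have hM0 := H.M_ne_zero
  rcases point_cases P with rfl | ⟨x1, y1, h1, rfl⟩
  · left
    rw [zero_add, zero_sub, nu_neg, nu_zero, one_mul, fold_of_le hM0 (H.le_nu Q), div_one,
      min_eq_right]
    · exact ⟨rfl, rfl⟩
    · rw [le_div_iff₀ (zero_lt_iff.mpr (H.nu_ne_zero Q))]
      exact Left.mul_le_one (H.nu_le_one Q) (H.nu_le_one Q)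
  · rcases point_cases Q with rfl | ⟨x2, y2, h2, rfl⟩
    · left
      rw [add_zero, sub_zero, nu_zero, mul_one, fold_of_le hM0 (H.le_nu _), div_one,
        min_eq_left]
      · exact ⟨rfl, rfl⟩
      · rw [le_div_iff₀ (zero_lt_iff.mpr (H.nu_ne_zero _))]
        exact Left.mul_le_one (H.nu_le_one _) (H.nu_le_one _)
    · by_cases hx : x1 = x2
      · subst hx
        rcases Y_eq_of_X_eq h1.left h2.left rfl with hy | hy
        · subst hy
          left
          rw [sub_self, nu_zero, H.nu_add_self, H.min_div_self]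
          exact ⟨rfl, rfl⟩
        · have hQ : Point.some x1 y2 h2 = -Point.some x1 y1 h1 := by
            rw [Point.neg_some]
            have : y2 = W.negY x1 y1 := by
              rw [hy, negY_negY]
            subst this
            rfl
          right
          rw [hQ, add_neg_cancel, sub_neg_eq_add, nu_neg, nu_zero, H.nu_add_self,
            H.min_div_self]
          exact ⟨rfl, rfl⟩
      · have := pairLaw_field v H.two_ne H.v2 H.vb H.b0 H.b1 (H.eqn h1) (H.eqn h2) hx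
        unfold PairLaw at this
        unfold PtPairLaw
        rw [H.nu_add_of_X_ne h1 h2 hx, H.nu_sub_of_X_ne h1 h2 hx]
        exact this

open Fermat.Agent.S05 in
/-- The pair law in the `Rel₀` form used by the iteration lemma. -/
theorem pairLaw₀ : NodeIter.PairLaw₀ (v W.a₄ ^ 2) (nu v W) := by
  intro P Q
  rcases H.pairLaw P Q with ⟨h1, h2⟩ | ⟨h1, h2⟩
  · left
    rw [h1, h2]
    exact ⟨NodeIter.rel₀_max _ _, NodeIter.rel₀_min _ _ _⟩
  · right
    rw [h1, h2]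
    exact ⟨NodeIter.rel₀_min _ _ _, NodeIter.rel₀_max _ _⟩

open Fermat.Agent.S05 in
/-- Torsion points: `p • P = 0` forces `nu P ^ p ∈ (M ^ 2) ^ ℤ`. -/
theorem nu_pow_of_nsmul_eq_zero {P : W.Point} {p : ℕ} (hP : p • P = 0) :
    ∃ j : ℤ, nu v W P ^ p = (v W.a₄ ^ 2) ^ j :=
  NodeIter.exists_zpow_of_nsmul_eq_zero₀ (pow_ne_zero 2 H.M_ne_zero) H.nu_ne_zero (nu_zero v W)
    H.pairLaw₀ hP

/-- If `nu P = nu Q` then one of `P ± Q` has `nu = 1`. -/
theorem nu_add_or_sub_eq_one {P Q : W.Point} (h : nu v W P = nu v W Q) :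
    nu v W (P + Q) = 1 ∨ nu v W (P - Q) = 1 := by
  have hB : min (nu v W P / nu v W Q) (nu v W Q / nu v W P) = 1 := by
    rw [h, H.min_div_self]
  rcases H.pairLaw P Q with ⟨-, h2⟩ | ⟨h1, -⟩
  · exact Or.inr (h2.trans hB)
  · exact Or.inl (h1.trans hB)

/-- If `nu P = nu Q = M` then both `P ± Q` have `nu = 1`. -/
theorem nu_add_eq_one_of_eq_M {P Q : W.Point} (hP : nu v W P = v W.a₄) (hQ : nu v W Q = v W.a₄) :
    nu v W (P + Q) = 1 ∧ nu v W (P - Q) = 1 := by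
  have hA : fold (v W.a₄) (nu v W P * nu v W Q) = 1 := by rw [hP, hQ, H.fold_M_mul_M]
  have hB : min (nu v W P / nu v W Q) (nu v W Q / nu v W P) = 1 := by
    rw [hP, hQ, min_self, div_self H.M_ne_zero]
  rcases H.pairLaw P Q with ⟨h1, h2⟩ | ⟨h1, h2⟩
  · exact ⟨h1.trans hA, h2.trans hB⟩
  · exact ⟨h1.trans hB, h2.trans hA⟩

theorem clamp_eq_one_iff (t : Γ₀) : clamp (v W.a₄) t = 1 ↔ 1 ≤ t := by
  constructor
  · intro h
    by_contra hlt
    rw [not_le] at hlt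
    have : clamp (v W.a₄) t < 1 := by
      rw [clamp, min_eq_left hlt.le]
      exact max_lt hlt H.b1
    exact this.ne h
  · exact clamp_of_one_le H.b1.le

/-- `nu P = 1` iff `P` is the point at infinity or has `1 ≤ v x`. -/
theorem nu_eq_one_iff (P : W.Point) :
    nu v W P = 1 ↔ P = 0 ∨ ∃ x y h, P = Point.some x y h ∧ 1 ≤ v x := by
  rcases point_cases P with rfl | ⟨x, y, h, rfl⟩
  · simp
  · rw [nu_some, H.clamp_eq_one_iff]
    constructor
    · intro h1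
      exact Or.inr ⟨x, y, h, rfl, h1⟩
    · rintro (h0 | ⟨x', y', h', e, h1⟩)
      · exact absurd h0 (by simp)
      · rw [Point.some.injEq] at e
        rw [e.1]; exact h1

/-- The doubling law when `nu P = 1`: `nu (2P) = 1`. -/
theorem nu_add_self_of_eq_one {P : W.Point} (h : nu v W P = 1) : nu v W (P + P) = 1 := by
  rw [H.nu_add_self, h, mul_one, H.fold_one]

/-- The doubling law when `nu P = M`: `nu (2P) = 1`. -/
theorem nu_add_self_of_eq_M {P : W.Point} (h : nu v W P = v W.a₄) : nu v W (P + P) = 1 := by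
  rw [H.nu_add_self, h, H.fold_M_mul_M]

end NodeHyp

end Fermat.Agent.S13.Node2
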