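import Mathlib
import Fermat.Agent.S13.FreyTwo

/-!
# S13 / block D-iii: inertia at `2` acts trivially on a stable line and on the quotient

Pure group theory (`unipotent_trivial`) + the statement for the Frey curve, conditional on the
absence of `p`-torsion in the kernel of reduction at `2` (block D-ii).
-/

set_option autoImplicit false
set_option linter.unusedSectionVars false

namespace Fermat.Agent.S13.TwoLine

open WeierstrassCurve WeierstrassCurve.Affine WeierstrassCurve.Affine.Point
open Fermat.Agent.S05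

/-- A square-zero additive endomorphism `T` of a group of order `p²` which stabilises a subgroup
`N0` of order `p` kills `N0` and maps everything into `N0`. -/
theorem unipotent_trivial {V : Type*} [AddCommGroup V] {p : ℕ} (hp : p.Prime)
    (hV : Nat.card V = p ^ 2) (N0 : AddSubgroup V) (hN : Nat.card N0 = p) (T : V →+ V)
    (hT2 : ∀ x, T (T x) = 0) (hTN : ∀ x ∈ N0, T x ∈ N0) :
    (∀ x ∈ N0, T x = 0) ∧ (∀ x, T x ∈ N0) := by
  have hVfin : Finite V := Nat.finite_of_card_ne_zero (by rw [hV]; exact pow_ne_zero 2 hp.ne_zero)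
  -- part 1
  let f : N0 →+ N0 := (T.comp N0.subtype).codRestrict N0 (fun x => hTN x x.2)
  have hf : ∀ x : N0, ((f x : N0) : V) = T x := fun x => rfl
  have hdvd : Nat.card f.ker ∣ p := by
    have := AddSubgroup.card_addSubgroup_dvd_card f.ker
    rwa [hN] at this
  have h1 : ∀ x ∈ N0, T x = 0 := by
    rcases (Nat.dvd_prime hp).mp hdvd with h | h
    · exfalso
      have hbot : f.ker = ⊥ := AddSubgroup.eq_bot_of_card_eq _ h
      have hinj : Function.Injective f := (AddMonoidHom.ker_eq_bot_iff f).mp hbot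
      have hnt : Nontrivial N0 := by
        rw [← Finite.one_lt_card_iff_nontrivial, hN]
        exact hp.one_lt
      obtain ⟨x, hx⟩ := exists_ne (0 : N0)
      apply hx
      apply hinj
      apply hinj
      rw [_root_.map_zero, _root_.map_zero]
      apply Subtype.ext
      rw [hf, hf]
      exact hT2 x
    · have htop : f.ker = ⊤ := AddSubgroup.eq_top_of_card_eq _ (h.trans hN.symm)
      intro x hx
      have : (⟨x, hx⟩ : N0) ∈ f.ker := by rw [htop]; exact AddSubgroup.mem_top _
      rw [AddMonoidHom.mem_ker] at this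
      have := congrArg (Subtype.val) this
      rwa [hf] at this
  refine ⟨h1, ?_⟩
  -- part 2
  have hle : N0 ≤ T.ker := fun x hx => (AddMonoidHom.mem_ker).mpr (h1 x hx)
  have hd1 : p ∣ Nat.card T.ker := by
    have := AddSubgroup.card_dvd_of_le hle
    rwa [hN] at this
  have hd2 : Nat.card T.ker ∣ p ^ 2 := by
    have := AddSubgroup.card_addSubgroup_dvd_card T.ker
    rwa [hV] at this
  obtain ⟨i, hi, hci⟩ := (Nat.dvd_prime_pow hp).mp hd2
  intro x
  have hTx : T x ∈ T.ker := (AddMonoidHom.mem_ker).mpr (hT2 x)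
  interval_cases i
  · exfalso
    rw [hci, pow_zero] at hd1
    exact hp.one_lt.ne' (Nat.dvd_one.mp hd1)
  · have : N0 = T.ker := by
      apply AddSubgroup.eq_of_le_of_card_ge hle
      rw [hci, hN, pow_one]
    rw [this]
    exact hTx
  · have htop : T.ker = ⊤ := AddSubgroup.eq_top_of_card_eq _ (hci.trans hV.symm)
    have : x ∈ T.ker := by rw [htop]; exact AddSubgroup.mem_top _
    rw [(AddMonoidHom.mem_ker).mp this]
    exact N0.zero_mem

local notation "Qbar" => AlgebraicClosure ℚ

section General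

variable {K : Type*} [Field K] [DecidableEq K] [Algebra ℚ K] {W : Affine ℚ}

/-- If `σ` acts on `E[p]` with `(σ - 1)² = 0` and stabilises a subgroup `N0` of order `p`
(`|E[p]| = p²`), then it acts trivially on `N0` and on the quotient. -/
theorem trivial_on_line_and_quotient {p : ℕ} (hp : p.Prime) (σ : K ≃ₐ[ℚ] K)
    (hσ : ∀ X : (W⁄K).Point, p • X = 0 → σ • (σ • X - X) = σ • X - X)
    (N0 : Submodule (ZMod p) (Submodule.torsionBy ℤ (W⁄K).Point p))
    (hstab : ∀ x ∈ N0, σ • x ∈ N0)
    (hcardN : Nat.card N0 = p)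
    (hcardV : Nat.card (Submodule.torsionBy ℤ (W⁄K).Point p) = p ^ 2) :
    (∀ x ∈ N0, σ • x = x) ∧
      (∀ x : Submodule.torsionBy ℤ (W⁄K).Point p, σ • x - x ∈ N0) := by
  let T : Submodule.torsionBy ℤ (W⁄K).Point p →+ Submodule.torsionBy ℤ (W⁄K).Point p :=
    { toFun := fun x => σ • x - x
      map_zero' := Subtype.ext (by
        simp only [Submodule.coe_sub, Inertia.coe_smul_torsionBy, Submodule.coe_zero,
          Inertia.smul_zero_point, sub_zero])
      map_add' := fun x y => Subtype.ext (by
        simp only [Submodule.coe_sub, Submodule.coe_add, Inertia.coe_smul_torsionBy,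
          Inertia.smul_add_point]
        abel) }
  have hT : ∀ x, T x = σ • x - x := fun x => rfl
  have hT2 : ∀ x, T (T x) = 0 := by
    intro x
    rw [hT, hT, sub_eq_zero]
    apply Subtype.ext
    have hx : p • (x : (W⁄K).Point) = 0 := by
      have := x.2
      rw [Submodule.mem_torsionBy_iff] at this
      rw [← natCast_zsmul]
      exact this
    exact hσ _ hx
  have hTN : ∀ x ∈ N0.toAddSubgroup, T x ∈ N0.toAddSubgroup := fun x hx =>
    N0.sub_mem (hstab x hx) hx
  obtain ⟨h1, h2⟩ := unipotent_trivial hp hcardV N0.toAddSubgroup hcardN T hT2 hTN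
  exact ⟨fun x hx => sub_eq_zero.mp (h1 x hx), h2⟩

end General

/-- **D-iii for the Frey curve** (conditional on D-ii): for a place `A` over `2`, the inertia
group at `A` acts trivially on a stable line `N0` AND on `V / N0`. -/
theorem frey_inertia_two_trivial (P : FreyPackage)
    (A : ValuationSubring Qbar) (hA : A.LiesOverPrime 2)
    (hker : ∀ R : (P.freyCurve.toAffine⁄Qbar).Point, Asm.InE1 A R → P.p • R = 0 → R = 0)
    (N0 : Submodule (ZMod P.p) (Submodule.torsionBy ℤ (P.freyCurve.toAffine⁄Qbar).Point P.p))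
    (hstab : IsGaloisStable ℚ N0)
    (hcardN : Nat.card N0 = P.p)
    (hcardV : Nat.card (Submodule.torsionBy ℤ (P.freyCurve.toAffine⁄Qbar).Point P.p) = P.p ^ 2) :
    (∀ σ ∈ A.inertiaSubgroupIn ℚ, ∀ x ∈ N0, σ • x = x) ∧
      (∀ σ ∈ A.inertiaSubgroupIn ℚ,
        ∀ x : Submodule.torsionBy ℤ (P.freyCurve.toAffine⁄Qbar).Point P.p, σ • x - x ∈ N0) := by
  have key : ∀ σ ∈ A.inertiaSubgroupIn ℚ, _ := fun σ hσ =>
    trivial_on_line_and_quotient (W := P.freyCurve.toAffine) P.pp σ
      (fun X hX => FreyTwo.smul_smul_sub_eq P hA hσ hker X hX) N0 (fun x hx => hstab σ x hx)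
      hcardN hcardV
  exact ⟨fun σ hσ => (key σ hσ).1, fun σ hσ => (key σ hσ).2⟩

end Fermat.Agent.S13.TwoLine
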